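/-
TEAM TW56 -> S56, block [EC] : THE GLOBAL EULER CHARACTERISTIC (architect helper56).  File 1: definitions.

`Γ` a finite group, `a : Γ → ZMod p` stands for `e = ∑ a(γ) γ ∈ 𝔽_p[Γ]` (vocabulary of helper61's
`Loc/Defs.lean`: `opZ`, `IsIdem`, `aug`, `Stab`, `pS`, `pDiv`, `eCard`, `regOp`, `rk`, `rtLin`, `rtOp`).
New here:
* `invL D`, `rkL a D` : the rank of `regOp a` on the left `D`-invariant functions `Γ → 𝔽_p`
  (`= dim e 𝔽_p[Γ/D]`);  `regOpT`, `rkT` : the same for the transposed operator;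
* `funAct`, `latV D`  : the permutation lattice `ℤ[Γ/D]` = right `D`-invariant functions `Γ → ℤ` with
  the action `(γ m)(x) = m(γ⁻¹ x)`;   `phiU u m = ∑ m(γ) γ u`;
* `XL W`, `US S W`    : `Lˣ` and the `S`-units of `L = ℚ̄^W` (additively), with the action of `G_ℚ/W`;
* `SU S`, `suRep S`   : the `S`-units of `ℚ_S` as a `G_ℚ`-module;
* `imQ W φ`, `Dq W q`, `Cc W` : images of decomposition groups in `G_ℚ/W`;
* `negDim c X`, `psi S X = χ(G_S, X) + dim X^{c = -1}`.
-/
import Fermat.Agent.TW56.Loc.LecInterface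
import Fermat.Agent.TW56.GW.Defs
import Fermat.Agent.CFT.Num.Interface
import Fermat.Prelude.Def_GaloisRep_ComplexConjugation
import Fermat.Prelude.Def_GaloisRep_CompletionBridge

set_option autoImplicit false

noncomputable section

namespace Fermat.Agent.TW56.EC

open Fermat.Agent.CFT Fermat.Agent.CFT.Top Fermat.Agent.CFT.Pos Fermat.Agent.CFT.Local
  Fermat.Agent.TW56.Loc Module CategoryTheory ExtCitation

attribute [local instance] Units.mulDistribMulActionRight
attribute [local instance] quotAct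
attribute [local instance] addAct

/-! ### finite groups -/

section Fin

variable {p : ℕ} {Γ : Type} [Group Γ] [Finite Γ]

/-- the left `D`-invariant functions `Γ → 𝔽_p`. -/
def invL (p : ℕ) (D : Subgroup Γ) : Submodule (ZMod p) (Γ → ZMod p) where
  carrier := {F | ∀ d ∈ D, ∀ x, F (d * x) = F x}
  add_mem' := by
    intro F F' h h' d hd x
    simp only [Pi.add_apply, h d hd x, h' d hd x]
  zero_mem' := by
    intro d _ x
    rfl
  smul_mem' := by
    intro t F h d hd x
    simp only [Pi.smul_apply, h d hd x]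

omit [Finite Γ] in
lemma mem_invL {D : Subgroup Γ} {F : Γ → ZMod p} :
    F ∈ invL p D ↔ ∀ d ∈ D, ∀ x, F (d * x) = F x := Iff.rfl

/-- `dim e 𝔽_p[Γ/D]` : the rank of `F ↦ (c ↦ ∑ a(γ) F(c γ))` on the left `D`-invariant functions. -/
def rkL (a : Γ → ZMod p) (D : Subgroup Γ) : ℕ :=
  finrank (ZMod p) ((invL p D).map (regOp a))

/-- the transposed operator `F ↦ (c ↦ ∑_γ a(γ) F(c γ⁻¹))`. -/
def regOpT (a : Γ → ZMod p) : (Γ → ZMod p) →ₗ[ZMod p] (Γ → ZMod p) :=
  regOp fun γ => a γ⁻¹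

/-- the rank of the transposed operator on the left `D`-invariant functions. -/
def rkT (a : Γ → ZMod p) (D : Subgroup Γ) : ℕ :=
  finrank (ZMod p) ((invL p D).map (regOpT a))

omit [Finite Γ] in
variable (Γ) in
/-- the action `(γ m)(x) = m(γ⁻¹ x)` on `Γ → ℤ` (use it as a local instance). -/
@[reducible] def funAct : DistribMulAction Γ (Γ → ℤ) where
  smul γ m := fun x => m (γ⁻¹ * x)
  one_smul m := by
    funext x
    show m (1⁻¹ * x) = m x
    simp
  mul_smul γ δ m := by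
    funext x
    show m ((γ * δ)⁻¹ * x) = m (δ⁻¹ * (γ⁻¹ * x))
    simp [mul_assoc]
  smul_zero _ := rfl
  smul_add _ _ _ := rfl

/-- the permutation lattice `ℤ[Γ/D]` : the right `D`-invariant functions `Γ → ℤ`. -/
def latV (D : Subgroup Γ) : AddSubgroup (Γ → ℤ) where
  carrier := {m | ∀ d ∈ D, ∀ x, m (x * d) = m x}
  add_mem' := by
    intro m m' h h' d hd x
    simp only [Pi.add_apply, h d hd x, h' d hd x]
  zero_mem' := by
    intro d _ x
    rfl
  neg_mem' := by
    intro m h d hd x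
    simp only [Pi.neg_apply, h d hd x]

omit [Finite Γ] in
lemma mem_latV {D : Subgroup Γ} {m : Γ → ℤ} : m ∈ latV D ↔ ∀ d ∈ D, ∀ x, m (x * d) = m x := Iff.rfl

/-- the constant functions. -/
def latC (Γ : Type) : AddSubgroup (Γ → ℤ) where
  carrier := {m | ∃ n : ℤ, ∀ x, m x = n}
  add_mem' := by
    rintro m m' ⟨n, h⟩ ⟨n', h'⟩
    exact ⟨n + n', fun x => by simp [h x, h' x]⟩
  zero_mem' := ⟨0, fun _ => rfl⟩
  neg_mem' := by
    rintro m ⟨n, h⟩
    exact ⟨-n, fun x => by simp [h x]⟩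

/-- `m ↦ ∑_γ m(γ) γ u`. -/
def phiU {X : Type} [AddCommGroup X] [DistribMulAction Γ X] (u : X) : (Γ → ℤ) →+ X where
  toFun m := ∑ᶠ γ : Γ, m γ • γ • u
  map_zero' := by simp
  map_add' m m' := by
    simp only [Pi.add_apply, add_smul]
    exact finsum_add_distrib (Set.toFinite _) (Set.toFinite _)

lemma phiU_apply {X : Type} [AddCommGroup X] [DistribMulAction Γ X] (u : X) (m : Γ → ℤ) :
    phiU u m = ∑ᶠ γ : Γ, m γ • γ • u := rfl

end Fin

/-! ### one group -/

section OneGroup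

variable {k : Type} [Field k] {G : Type} [Group G]

/-- `dim X^{c = -1}`. -/
def negDim (c : G) (X : Rep.{0} k G) : ℕ := finrank k (LinearMap.ker (X.ρ c + 1))

/-- the image of `φ : G' → G` in `G/W`. -/
def imQ {G' : Type} [Group G'] (W : Subgroup G) [W.Normal] (φ : G' →* G) : Subgroup (G ⧸ W) :=
  φ.range.map (QuotientGroup.mk' W)

end OneGroup

/-! ### the arithmetic objects -/

/-- `ℚ̄` -/
abbrev Qb : Type := AlgebraicClosure ℚ

/-- `Lˣ`, `L = ℚ̄^W`, written additively; `G_ℚ/W` acts on it. -/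
abbrev XL (W : Subgroup GQ) : Type := Additive (FixedPoints.subfield W Qb)ˣ

/-- the element of `ℚ̄` underlying an element of `XL W`. -/
abbrev XL.val {W : Subgroup GQ} (u : XL W) : Qb :=
  (((Additive.toMul u : (FixedPoints.subfield W Qb)ˣ) : FixedPoints.subfield W Qb) : Qb)

/-- `x` is a unit at all places over `q`. -/
def UnitAt (q : ℕ) (x : Qb) : Prop :=
  ∀ A : ValuationSubring Qb, A.LiesOverPrime q → A.valuation x = 1

/-- the `S`-units of `L = ℚ̄^W`. -/
def US (S : Finset Nat.Primes) (W : Subgroup GQ) : AddSubgroup (XL W) where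
  carrier := {u | ∀ q : Nat.Primes, q ∉ S → UnitAt q u.val}
  zero_mem' := by
    intro q _ A _
    show A.valuation ((1 : Qb)) = 1
    simp
  add_mem' := by
    intro u v hu hv q hq A hA
    show A.valuation (u.val * v.val) = 1
    rw [map_mul, hu q hq A hA, hv q hq A hA, one_mul]
  neg_mem' := by
    intro u hu q hq A hA
    have h : (-u).val = (u.val)⁻¹ := by
      show (((((Additive.toMul u)⁻¹ : (FixedPoints.subfield W Qb)ˣ) :
        FixedPoints.subfield W Qb) : Qb)) = _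
      rw [Units.val_inv_eq_inv_val]
      rfl
    rw [h, map_inv₀, hu q hq A hA, inv_one]

lemma mem_US {S : Finset Nat.Primes} {W : Subgroup GQ} {u : XL W} :
    u ∈ US S W ↔ ∀ q : Nat.Primes, q ∉ S → UnitAt q u.val := Iff.rfl

/-- the `S`-units of `ℚ_S` (all conjugates lie in `ℚ_S` and are units outside `S`). -/
def SU (S : Finset Nat.Primes) : Subgroup Qbˣ where
  carrier := {θ | ∀ g : GQ, g • θ ∈ GN.QS S ∧ ∀ q : Nat.Primes, q ∉ S → UnitAt q ((g • θ : Qbˣ) : Qb)}
  one_mem' := by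
    intro g
    rw [smul_one]
    exact ⟨one_mem _, fun q _ A _ => by simp⟩
  mul_mem' := by
    intro x y hx hy g
    rw [smul_mul']
    refine ⟨mul_mem (hx g).1 (hy g).1, fun q hq A hA => ?_⟩
    rw [Units.val_mul, map_mul, (hx g).2 q hq A hA, (hy g).2 q hq A hA, one_mul]
  inv_mem' := by
    intro x hx g
    rw [smul_inv']
    refine ⟨inv_mem (hx g).1, fun q hq A hA => ?_⟩
    rw [Units.val_inv_eq_inv_val, map_inv₀, (hx g).2 q hq A hA, inv_one]

lemma smul_mem_SU (S : Finset Nat.Primes) (g : GQ) {θ : Qbˣ} (h : θ ∈ SU S) : g • θ ∈ SU S := by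
  intro g'
  rw [smul_smul]
  exact h (g' * g)

/-- the action of `G_ℚ` on the `S`-units of `ℚ_S`. -/
instance suAct (S : Finset Nat.Primes) : MulDistribMulAction GQ (SU S) where
  smul g θ := ⟨g • θ.1, smul_mem_SU S g θ.2⟩
  one_smul θ := Subtype.ext (one_smul GQ θ.1)
  mul_smul g h θ := Subtype.ext (mul_smul g h θ.1)
  smul_mul g θ θ' := Subtype.ext (smul_mul' g θ.1 θ'.1)
  smul_one g := Subtype.ext (smul_one g)

lemma coe_smul_SU (S : Finset Nat.Primes) (g : GQ) (θ : SU S) : ((g • θ : SU S) : Qbˣ) = g • θ.1 :=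
  rfl

/-- the `G_ℚ`-module of the `S`-units of `ℚ_S`. -/
abbrev suRep (S : Finset Nat.Primes) : Rep.{0} ℤ GQ := Rep.ofMulDistribMulAction GQ (SU S)

/-- `μ_p` as a `G_ℚ`-module. -/
abbrev muQ (p : ℕ) [Fact p.Prime] : Rep.{0} (ZMod p) GQ := muRep (ZMod p) (cycloChar p)

/-- the image in `G_ℚ/W` of the decomposition group at `q`. -/
abbrev Dq (W : Subgroup GQ) [W.Normal] (q : Nat.Primes) : Subgroup (GQ ⧸ W) :=
  imQ W (primeLocalToGlobal q)

/-- the image in `G_ℚ/W` of the decomposition group at `∞`. -/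
abbrev Cc (W : Subgroup GQ) [W.Normal] : Subgroup (GQ ⧸ W) :=
  Subgroup.zpowers ((complexConjugation : GQ) : GQ ⧸ W)

/-- the `q`-adic absolute value on `ℚ̄` attached to the prelude's `padicEmbedding`. -/
def nrmQ (q : Nat.Primes) (x : Qb) : ℝ :=
  letI : Fact (q : ℕ).Prime := ⟨q.2⟩
  ‖padicEmbedding (q : ℕ) x‖

/-- `ψ_S(X) = χ(G_S, X) + dim X^{c = -1}`. -/
def psi {p : ℕ} [Fact p.Prime] (S : Finset Nat.Primes) (X : Rep.{0} (ZMod p) GQ) : ℤ :=
  chi (levS S) X + negDim (complexConjugation : GQ) X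

/-- `W` is a normal `S`-level fixing `μ_p`. -/
def GoodLev (p : ℕ) [Fact p.Prime] (S : Finset Nat.Primes) (W : Subgroup GQ) : Prop :=
  W ∈ (levS S).S ∧ ∀ w ∈ W, cycloChar p w = 1

end Fermat.Agent.TW56.EC

end
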