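/-
TEAM TW56 -> S56, block [EC] : THE GLOBAL EULER CHARACTERISTIC (architect helper56).  INTERFACE.

TARGET `Stmt_EC` : `p` odd, `X` good for `levS S₀`.  There is a finite set `A₀` of primes such that for all
`S ⊇ S₀ ∪ A₀ ∪ {p}` :      `χ(G_S, X) = h⁰ - h¹ + h² = - dim X^{c = -1}`     (`c = complexConjugation`).

ROUTE (report 2167).  `G = G_ℚ`, `W` a normal `S`-level fixing `μ_p` and acting trivially on `X`, `Γ = G/W`,
`L = ℚ̄^W`, `N = μ_p = muQ p`.  `A₀` : the primes of `L` over `A₀` generate `Cl(L)`, so `Ш²(perm W) = 0`.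
`ψ = χ + dim (·)^{c=-1}` is additive and `ψ(perm W) = 0`.  For a retract `P = e (tw W N)`, `e = rtOp W N a`:
   `h⁰(P) ≤ log # e μ_p(L)`                                   [`Loc.Stmt_h0Tw`]
   `h¹(P) ≥ log # e (U_S(L)/p)`                               [block K]
   `h²(P) = ∑_{q ∈ S} rkL a D_q - rkL a ⊤`                    [blocks F, H]
   `dim P^{c=-1} = rkL a ⟨c⟩`                                  [block H]
   `# e (U_S/p) · p^(rkL a ⊤) = # e μ_p · p^(∑_q rkL a D_q + rkL a ⟨c⟩)`   [block U : equivariant unit theorem]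
so `ψ(P) ≤ 0` for `P` and for its complement: `ψ(P) = 0`.  Then `Loc.Stmt_INDproj`.

Every `Stmt_xxx` is one work package: prove `theorem stmt_xxx : (deps →) Stmt_xxx` in the file named in the
task.  Put the `attribute [local instance]` lines below at the top of your file.  NEVER edit a file outside
`Fermat/Agent/TW56/EC`.  Dependencies which are not yet proved are taken as hypotheses.
-/
import Fermat.Agent.TW56.EC.Defs

set_option autoImplicit false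

noncomputable section

namespace Fermat.Agent.TW56.EC

open Fermat.Agent.CFT Fermat.Agent.CFT.Top Fermat.Agent.CFT.Pos Fermat.Agent.CFT.Local
  Fermat.Agent.TW56.Loc Module CategoryTheory ExtCitation NumberField

attribute [local instance] Units.mulDistribMulActionRight
attribute [local instance] quotAct
attribute [local instance] addAct
attribute [local instance] funAct

/-! ## Block A : abelian groups with operators (complements to `Loc`, block A) -/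

/-- A1. THE INDEX LEMMA, relative form: `# e(A/p) = # e(B/p) # e(A[p])` for `B ≤ A` of finite index without
`p`-torsion.  [Copy `Loc/EIndex.lean` (proof of `Loc.Stmt_eIndex`) with `⊤` replaced by `A`:
`Loc.Stmt_eFinite` for `(A, pB)`: `pDiv p A (pB) = B + A[p]`; `Loc.Stmt_eMul` with the middle term
`pB + A[p]`; `Loc.Stmt_eTransport` with `φ = id` twice.] -/
def Stmt_eIndexRel : Prop :=
  ∀ (p : ℕ) [Fact p.Prime] (Γ : Type) [Group Γ] [Finite Γ] (X : Type) [AddCommGroup X]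
    [DistribMulAction Γ X] (a : Γ → ZMod p), IsIdem a → ∀ A B : AddSubgroup X,
    Stab Γ A → Stab Γ B → B ≤ A → (pS p B).relIndex A ≠ 0 → (∀ x ∈ B, p • x = 0 → x = 0) →
    eCard a A (pS p A) =
      eCard a B (pS p B) * Nat.card ((A ⊓ (nsmulAddMonoidHom (α := X) p).ker).map (opZ a))

/-! ## Block H : permutation modules -/

/-- H1. the rank of the transposed operator.  [`invL p D ≅ (Quotient (QuotientGroup.rightRel D) → 𝔽_p)`; in the
basis of the indicator functions `F ↦ F(· γ)` is a permutation matrix, its transpose is `F ↦ F(· γ⁻¹)`;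
`Matrix.rank_transpose`.  NB the form `∑_{x ∈ Γ} F x F' x` is degenerate on `invL p D` if `p ∣ #D`: sum over
the cosets.] -/
def Stmt_rkTranspose : Prop :=
  ∀ (p : ℕ) [Fact p.Prime] (Γ : Type) [Group Γ] [Finite Γ] (a : Γ → ZMod p) (D : Subgroup Γ),
    rkT a D = rkL a D

/-- H2. `rkL a ⊤`.  [`invL p ⊤` = constants, `regOp a (const t) = const (aug a * t)`.] -/
def Stmt_rkTop : Prop :=
  ∀ (p : ℕ) [Fact p.Prime] (Γ : Type) [Group Γ] [Finite Γ] (a : Γ → ZMod p),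
    rkL a (⊤ : Subgroup Γ) = if aug a = 0 then 0 else 1

/-- H3. the permutation lattice: `# e(ℤ[Γ/D]/p) = p^(rkL a D)`.
[`R : latV D → invL p D`, `R m x = (m x⁻¹ : ZMod p)`, is onto with kernel `p (latV D)`, and
`R (opZ a m) = regOp a (R m)`.  So `(pV + eV)/pV ≅ regOp a (invL p D)`; `Nat.card` of an `𝔽_p`-space is
`p ^ finrank` (`Module.card_eq_pow_finrank`).] -/
def Stmt_latPerm : Prop :=
  ∀ (p : ℕ) [Fact p.Prime] (Γ : Type) [Group Γ] [Finite Γ] (a : Γ → ZMod p) (D : Subgroup Γ),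
    eCard a (latV D) (pS p (latV D)) = p ^ rkL a D

/-- H4. the constants.  [`opZ a 1 = s • 1`, `s = ∑ (a γ).val ≡ aug a`; `opZ a` maps `pV` to `pV`.] -/
def Stmt_latConst : Prop :=
  ∀ (p : ℕ) [Fact p.Prime] (Γ : Type) [Group Γ] [Finite Γ] (a : Γ → ZMod p) (D : Subgroup Γ),
    eCard a (latC Γ ⊔ pS p (latV D)) (pS p (latV D)) = if aug a = 0 then 1 else p

/-- H5. `dim Hom_{G'}(P, N) = rkT a (image of G' in G/W)` for the retract `P = e (tw W N)`.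
[`Hom_{G'}(P,N) ≅ {λ ∈ Hom_{G'}(tw W N, N) : λ ∘ E = λ}` (`ν ↦ ν ∘ r`, `λ ↦ λ ∘ i`) `= range (· ∘ E)`, `E = rtOp W N a`
idempotent.  Fix `n₀ ≠ 0` in `N`.  `λ ↦ (x ↦ coefficient of λ (δ_x n₀))` identifies `Hom_{G'}(tw W N, N)` with
`invL p (imQ W φ)` (`λ (g F) = χ(g) ∑_x λ_{g x} F(x)`), and `· ∘ E` with `regOpT a`.] -/
def Stmt_eqHomTw : Prop :=
  ∀ (p : ℕ) [Fact p.Prime] (G G' : Type) [Group G] [Group G'] (χ : G →* (ZMod p)ˣ)
    (N : Rep.{0} (ZMod p) G), IsMu χ N → ∀ (W : Subgroup G) [W.Normal] [W.FiniteIndex]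
    (φ : G' →* G) (a : G ⧸ W → ZMod p) (P : Rep.{0} (ZMod p) G) (i : P ⟶ tw W N) (r : tw W N ⟶ P),
    (∀ x, r.hom (i.hom x) = x) → (∀ F, i.hom (r.hom F) = (rtOp W N a).hom F) →
    finrank (ZMod p) (EqHom (Rep.res φ P) (Rep.res φ N)) = rkT a (imQ W φ)

/-- H6. `dim P^{c=-1} = rkL a ⟨c⟩` when `χ(c) = -1`.
[`P ≅ range E`; `(range E)^{c=-1} = E ((tw W N)^{c=-1})`; `(c F)(x) = - F(c⁻¹ x)`, so
`(tw W N)^{c=-1}` = the functions invariant under left translation by `c`; `N ≅ 𝔽_p` carries `rtLin` to `regOp`.] -/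
def Stmt_negTw : Prop :=
  ∀ (p : ℕ) [Fact p.Prime] (G : Type) [Group G] (χ : G →* (ZMod p)ˣ)
    (N : Rep.{0} (ZMod p) G), IsMu χ N → ∀ (W : Subgroup G) [W.Normal] [W.FiniteIndex]
    (c : G), χ c = -1 → ∀ (a : G ⧸ W → ZMod p) (P : Rep.{0} (ZMod p) G) (i : P ⟶ tw W N)
    (r : tw W N ⟶ P), (∀ x, r.hom (i.hom x) = x) → (∀ F, i.hom (r.hom F) = (rtOp W N a).hom F) →
    negDim c P = rkL a (Subgroup.zpowers (c : G ⧸ W))

/-! ## Block F : formal consequences of Poitou-Tate (`GW.PTFull`) -/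

/-- F1. `χ` is additive.  [`Pos.stmt_euler` + `Pos.stmt_ses`: `χ(X₁) + χ(X₃) - χ(X₂) = dim coker H²(q) ≥ 0`; the same
for the dual sequence (`Pos.stmt_dual`, `Pos.Good.dg`); `χ_loc` is additive (`Pos.stmt_Pses`, `stmt_euler`,
`LocOK.rex`): see the proof of `Pos.stmt_subAddPhi` (`CFT/Pos/SubAddPhi.lean`); `PTFull.phi0` for `X₁, X₂, X₃`.] -/
def Stmt_chiAdd : Prop :=
  ∀ (p : ℕ) [Fact p.Prime] (D : Datum p) (lam : Lam D), GW.PTFull D lam →
    ∀ (X₁ X₂ X₃ : Rep.{0} (ZMod p) D.G) (i : X₁ ⟶ X₂) (q : X₂ ⟶ X₃),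
    Good D.𝒰 X₁ → Good D.𝒰 X₂ → Good D.𝒰 X₃ → IsSES i q →
    chi D.𝒰 X₂ = chi D.𝒰 X₁ + chi D.𝒰 X₃

/-- F2. `dim X^{c=-1}` is additive.  [`π = (1 - c)/2` is a projector onto `ker (c + 1)` commuting with morphisms:
`0 → X₁⁻ → X₂⁻ → X₃⁻ → 0` is exact.] -/
def Stmt_negAdd : Prop :=
  ∀ (k : Type) [Field k], (2 : k) ≠ 0 → ∀ (G : Type) [Group G] (c : G), c * c = 1 →
    ∀ (X₁ X₂ X₃ : Rep.{0} k G) (i : X₁ ⟶ X₂) (q : X₂ ⟶ X₃), Module.Finite k X₂ → IsSES i q →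
    negDim c X₂ = negDim c X₁ + negDim c X₃

/-- F3. `h²(P) + dim Hom_G(P,μ) = ∑_v dim Hom_{G_v}(P,μ)` when `Ш²(P) = 0`.
[`locH D P 2` is injective (`D.Sha P 2` is its kernel): `h² = dim range`; `PTFull.y2`;
`Pos.stmt_fdPi`: `dim P²(P) = ∑_v h²(G_v,P)`; `PTFull.perf`: `alphaE` is a bijection `H²(G_v,P) → Dual (EqHom ..)`
(`Pos.LocOK_good_res`; `Subspace.dual_finrank_eq`); `Pos.stmt_bridgeB` with `β = evB D.χ P`:
`h⁰(P†) = dim EqHom P μ`.] -/
def Stmt_h2Formula : Prop :=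
  ∀ (p : ℕ) [Fact p.Prime] (D : Datum p) (lam : Lam D), GW.PTFull D lam →
    ∀ P : Rep.{0} (ZMod p) D.G, Good D.𝒰 P → (∀ x ∈ D.Sha P 2, x = 0) →
    finrank (ZMod p) (Hlc D.𝒰 P 2) + finrank (ZMod p) (EqHom P D.mu)
      = ∑ v, finrank (ZMod p) (EqHom (Rep.res (D.φ v) P) (Rep.res (D.φ v) D.mu))

/-- F4. `Ш²` of a retract.  [`Pos.stmt_locNat`, `Pos.stmt_HMfun`.] -/
def Stmt_shaRetract : Prop :=
  ∀ (p : ℕ) [Fact p.Prime] (D : Datum p) (P X : Rep.{0} (ZMod p) D.G) (i : P ⟶ X) (r : X ⟶ P),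
    (∀ x, r.hom (i.hom x) = x) → (∀ x ∈ D.Sha X 2, x = 0) → ∀ x ∈ D.Sha P 2, x = 0

/-- F5. `2 χ(perm W) = - [G : W]`.  [`D = qDatum p S h`, `GW.stmt_PTFull` + `Top.Stmt_arith2` (proved: see
`CFT/Wire/All.lean`).  `phi0` and `Pos.stmt_phiPerm`: `2 χ = χ_loc`, `p⁰ = p²`; `Num.pdim` with `ε` from `Num.qLN`:
`p¹ = 2 p² + (∑_v ε_v) [G:W]`, `∑_v ε_v = 1`.] -/
def Stmt_chiPerm : Prop :=
  ∀ (p : ℕ) [Fact p.Prime], p ≠ 2 → ∀ (S : Finset Nat.Primes), pPrime p ∈ S →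
    ∀ (W : Subgroup GQ), GoodLev p S W →
    2 * chi (levS S) (perm W : Rep.{0} (ZMod p) GQ) = -(W.index : ℤ)

/-- F6. `2 dim (perm W)^{c=-1} = [G : W]` : `c` acts freely on `G/W`.
[`F(c⁻¹ x) = - F(x)`; choose representatives of the orbits of `x ↦ c x` (all of length 2).  Or: `π = (1-c)/2`,
`dim X⁺ + dim X⁻ = [G:W]` and `F ↦ F · s` (`s = ±1` on the two points of each orbit) exchanges `X⁺`, `X⁻`.] -/
def Stmt_negPerm : Prop :=
  ∀ (k : Type) [Field k], (2 : k) ≠ 0 → ∀ (G : Type) [Group G] (W : Subgroup G) [W.Normal]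
    [W.FiniteIndex] (c : G), c * c = 1 → c ∉ W → 2 * negDim c (perm W : Rep.{0} k G) = W.index

/-- F7. `Ш²(perm W) = 0` when `Cl_S(k)/p = 0`.  [`Num.sha2K`, `GN` final theorem for `GN.Stmt_GNcard`
(`# Sha2K ≤ index = 1`), `Num.shapiro` (injectivity).] -/
def Stmt_sha2Zero : Prop :=
  ∀ (p : ℕ) [Fact p.Prime], p ≠ 2 → ∀ (S : Finset Nat.Primes) (h : CycloTriv p S) (k : GN.IF)
    [NumberField k] (ζ : Qb), GN.Base p S k ζ → (levS S).IsOpen k.fixingSubgroup →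
    GN.clTn (GN.TS S k) p = ⊤ →
    ∀ x ∈ (qDatum p S h).Sha (permRep (ZMod p) k.fixingSubgroup) 2, x = 0

/-! ## Block C : levels, fields, class groups -/

/-- C1. the primes over a suitable finite set generate the class group.  [`ClassGroup (𝓞 k)` is finite;
`GN.Stmt_Cls` (proved in `CFT/GN/Cls.lean`): every class is `clsDiv a`; `A₀` = the residue characteristics
(`GN.Stmt_DictA`, third clause) of the supports.] -/
def Stmt_clGen : Prop :=
  ∀ (k : GN.IF) [NumberField k], ∃ A₀ : Finset Nat.Primes, ∀ S : Finset Nat.Primes, A₀ ⊆ S →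
    ∀ n : ℕ, GN.clTn (GN.TS S k) n = ⊤

/-- C2. monotonicity in `S`. -/
def Stmt_mono : Prop :=
  ∀ S S' : Finset Nat.Primes, S ⊆ S' →
    (∀ F : GN.IF, F.IsUnramifiedOutside S → F.IsUnramifiedOutside S') ∧
    (levS S).S ⊆ (levS S').S ∧
    (∀ (p : ℕ) (k : GN.IF) (ζ : Qb), GN.Base p S k ζ → GN.Base p S' k ζ)

/-- C3. the fixed field of an open normal subgroup.  [As in `CFT/Num/FieldOf.lean`: `k = fixedField W ≤ F`;
finite Galois theory in the normal closure of `F`.] -/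
def Stmt_fixW : Prop :=
  ∀ W : Subgroup GQ, W ∈ levAll.S →
    ∃ k : GN.IF, FiniteDimensional ℚ k ∧ Normal ℚ k ∧ k.fixingSubgroup = W ∧
      ∀ x : Qb, x ∈ k ↔ ∀ w ∈ W, w x = x

/-- C4. `cycloChar p c = -1`.  [`complexEmbedding_complexConjugation`: `c ζ = ζ⁻¹` because `conj z = z⁻¹` on the
unit circle; `Global/CycChar.lean`, `modularCyclotomicCharacter.spec` / `.unique`.] -/
def Stmt_cycConj : Prop :=
  ∀ (p : ℕ) [Fact p.Prime], cycloChar p (complexConjugation : GQ) = -1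

/-! ## Block K : Kummer theory for `S`-units -/

/-- K1. `μ_p ↪ ℚ̄ˣ`.  [`n ↦ ζ ^ n.val`; `g ζ = ζ ^ (cycloChar p g)`; compare `Local/LN3full.lean`.] -/
def Stmt_muEmbQ : Prop :=
  ∀ (p : ℕ) [Fact p.Prime], ∃ e : muQ p →+ Additive Qbˣ, IsMuEmb (muQ p) e

/-- K2. the `S`-units of `ℚ_S` are `p`-divisible and form a discrete module; they contain the `S`-units of `L`.
[(1) `GN.Stmt_Ram1` (proved: `CFT/GN/Ram1.lean`) for every conjugate `g t`; `A.valuation (g t) ^ p = 1` implies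
`A.valuation (g t) = 1` (linearly ordered group).  (2) `θ ∈ F`, `F` unramified outside `S`, `GN.Stmt_NC`
(`CFT/GN/...`): `F ≤ F'` normal; `F'.fixingSubgroup ∈ (levS S).S`.  (3) `W ⊇ F.fixingSubgroup`, so `ℚ̄^W ⊆ F`;
`g u ∈ ℚ̄^W` since `W` is normal; `A.valuation (g x) = (A.comap g).valuation x`-type argument: `x ∈ A'ˣ` for all
`A'` over `q`.] -/
def Stmt_suBasic : Prop :=
  ∀ (p : ℕ) (S : Finset Nat.Primes), p.Prime → (∃ q ∈ S, (q : ℕ) = p) →
    (∀ θ ∈ SU S, ∀ t : Qbˣ, t ^ p = θ → t ∈ SU S) ∧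
    IsDisc (levS S) (suRep S) ∧
    (∀ (W : Subgroup GQ), W ∈ (levS S).S → ∀ u ∈ US S W, ∀ θ : Qbˣ, (θ : Qb) = u.val → θ ∈ SU S)

/-- K3. `# e H¹(G_S, Map(Γ, μ_p)) ≥ # e(U_S(L)/p)`.
[`Loc.Stmt_kumNat` with `M = mapRep (GQ ⧸ W) (suRep S)`, `T = tw W (muQ p)`, `j = e ∘ -` (K1: the values are roots
of unity, they lie in `SU S` by K2(1) applied to `θ = 1`), `E = rtOp W (muQ p) a`, `E' = rtLin` with the
coefficients `((a γ).val : ℤ)`.  `M^G ≅ US S W`, `Φ ↦ Φ 1`, inverse `u ↦ (c ↦ c • u)`; it carries `E'` to `opZ a`.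
Same proof as `Loc.Stmt_kumTw` (look at the file of that task).] -/
def Stmt_kumS : Prop :=
  ∀ (p : ℕ) [Fact p.Prime] (S : Finset Nat.Primes), pPrime p ∈ S →
    ∀ (W : Subgroup GQ) [W.Normal] [W.FiniteIndex], W ∈ (levS S).S → ∀ a : GQ ⧸ W → ZMod p,
    Module.Finite (ZMod p) (Hlc (levS S) (mapRep (GQ ⧸ W) (muQ p)) 1) →
    eCard a (US S W) (pS p (US S W)) ≤
      Nat.card (LinearMap.range (HM (levS S) (rtOp W (muQ p) a) 1))

/-! ## Block U : the equivariant unit theorem modulo `p` -/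

/-- U1. ONE ORBIT OF FINITE PLACES (algebra).  `val x γ = o (γ⁻¹ x)` maps `A` to `latV D`, equivariantly, with kernel
`B` and image `V' ⊇ h (latV D)`.
[`Loc.Stmt_eMul` with the middle term `B + pA`; `Loc.Stmt_eTransport` with `φ = id`: `(B + pA)/pA ≅ B/pB`
(`B ∩ pA = pB` since `ℤ` is torsion free) and with `φ = val`: `A/(B + pA) ≅ V'/pV'`; `Loc.Stmt_eLattice` for
`V' ≤ latV D` (finite index: `p h (latV D) ≤ p V'` and `(Γ → ℤ)/(ph)` is finite); H3.] -/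
def Stmt_uVal : Prop :=
  ∀ (p : ℕ) [Fact p.Prime] (Γ : Type) [Group Γ] [Finite Γ] (X : Type) [AddCommGroup X]
    [DistribMulAction Γ X] (a : Γ → ZMod p), IsIdem a →
    ∀ (A B : AddSubgroup X) (D : Subgroup Γ) (o : X →+ ℤ) (h : ℤ), Stab Γ A → Stab Γ B → B ≤ A →
    h ≠ 0 → (∀ d ∈ D, ∀ x ∈ A, o (d • x) = o x) →
    (∀ x ∈ A, (x ∈ B ↔ ∀ γ : Γ, o (γ⁻¹ • x) = 0)) →
    (∀ m ∈ latV D, ∃ x ∈ A, ∀ γ : Γ, o (γ⁻¹ • x) = h * m γ) →
    eCard a A (pS p A) = eCard a B (pS p B) * p ^ rkL a D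

/-- U2. THE INFINITE PLACES (algebra).  `Φ = phiU u : latV C → B` is equivariant, with kernel the constants and image
`B₁` of finite index.
[`B₁` has no `p`-torsion.  A1: `# e(B/p) = # e(B₁/p) # e(B[p])`.  `Loc.Stmt_eTransport` with `φ = Φ`:
`V/(ℤ1 + pV) ≅ B₁/pB₁`.  `Loc.Stmt_eMul` in `V = latV C` with the middle term `ℤ1 + pV`; H3, H4.] -/
def Stmt_uMink : Prop :=
  ∀ (p : ℕ) [Fact p.Prime] (Γ : Type) [Group Γ] [Finite Γ] (X : Type) [AddCommGroup X]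
    [DistribMulAction Γ X] (a : Γ → ZMod p), IsIdem a →
    ∀ (B : AddSubgroup X) (C : Subgroup Γ) (u : X), Stab Γ B → u ∈ B →
    (∀ m ∈ latV C, (phiU u m = 0 ↔ m ∈ latC Γ)) →
    ((latV C).map (phiU u)).relIndex B ≠ 0 →
    eCard a B (pS p B) * (if aug a = 0 then 1 else p) =
      Nat.card ((B ⊓ (nsmulAddMonoidHom (α := X) p).ker).map (opZ a)) * p ^ rkL a C

/-- U3. the normalised valuation of `L = ℚ̄^W` at the place `padicEmbedding q`.
[`U = W.comap (localGaloisToGlobal q)` is a level of `levq q`; `Local.all_padicTower` (`LocTower.layer`,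
`LocAct.loc.unif`) gives a uniformiser `ϖ` of `(PadicAlgCl q)^U`; `padicEmbedding q` maps `ℚ̄^W` into it
(`padicEmbedding_localGaloisToGlobal`); `ρ = ‖ϖ‖`; `o x` = the unique exponent.] -/
def Stmt_ordQ : Prop :=
  ∀ (W : Subgroup GQ), W ∈ levAll.S → ∀ q : Nat.Primes,
    ∃ (ρ : ℝ) (o : XL W →+ ℤ), 0 < ρ ∧ ρ < 1 ∧ ∀ x : XL W, nrmQ q x.val = ρ ^ (o x)

/-- U4. units at `q` in terms of the absolute value.  [Every `A` over `q` is a conjugate of `padicPlace q`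
(`GN.Stmt_DictD` for `k = ⊥`, or `Sel/Places.lean`); `x ∈ padicPlace q ↔ nrmQ q x ≤ 1`
(`mem_padicPlace_iff`); `A.valuation x = 1 ↔ x ∈ A ∧ x⁻¹ ∈ A`.] -/
def Stmt_unitAt : Prop :=
  ∀ (q : Nat.Primes) (x : Qb), x ≠ 0 → (UnitAt q x ↔ ∀ g : GQ, nrmQ q (g x) = 1)

/-- U5. the decomposition group acts by isometries, and conversely.
[(1) `CFT/LocalBridge.lean`: `range_localGaloisToGlobal`, `norm_padicEmbedding_of_mem_decomposition`.
(2) `k` from C3; `g • padicPlace q` and `padicPlace q` lie over the same prime of `k` (`GN.Over`, `GN.Stmt_DictA`,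
`GN.Stmt_DictB`); `GN.Stmt_DictD`: `w g` lies in the decomposition group for some `w ∈ W`.] -/
def Stmt_decQ : Prop :=
  ∀ (W : Subgroup GQ) [W.Normal], W ∈ levAll.S → ∀ q : Nat.Primes,
    (∀ g : GQ, (g : GQ ⧸ W) ∈ Dq W q → ∀ x : Qb, (∀ w ∈ W, w x = x) → nrmQ q (g x) = nrmQ q x) ∧
    (∀ g : GQ, (∀ x : Qb, (∀ w ∈ W, w x = x) → nrmQ q x ≤ 1 → nrmQ q (g x) ≤ 1) →
      (g : GQ ⧸ W) ∈ Dq W q)

/-- U6. an element of `L` supported at one prime.  [`k` from C3, `v₀` = the prime of `𝓞 k` under `padicPlace q`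
(`GN.Stmt_DictA`); `clsOf v₀ ^ h = 1`, `h = # Cl`; `GN.Stmt_Cls`: `x ∈ kˣ` with divisor `h v₀`; `GN.Stmt_DictB`:
`x` is a unit at every `A` which does not lie over `v₀`, and not at `padicPlace q`.  If `g⁻¹ • `-conjugate of
`padicPlace q` lies over `v₀` then `g` preserves the valuation ring of `v₀`: U5(2).] -/
def Stmt_oneQ : Prop :=
  ∀ (W : Subgroup GQ) [W.Normal], W ∈ levAll.S → ∀ q : Nat.Primes,
    ∃ x ∈ US {q} W, nrmQ q x.val ≠ 1 ∧
      ∀ g : GQ, (g : GQ ⧸ W) ∉ Dq W q → nrmQ q (g⁻¹ x.val) = 1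

/-- U7. **the finite places.**  [`o` from U3.  First clause: U5(1).  Second: U4 (`(γ⁻¹ • x).val = g⁻¹ x.val` for
`γ = g`, `quotAct_mk_smul`).  Third: `x₀` from U6, `h₀ = o x₀ ≠ 0`, `o (γ⁻¹ • x₀) = if γ ∈ D then h₀ else 0`;
`x = ∑ᶠ δ, m δ • δ • x₀` has `o (γ⁻¹ • x) = ∑_δ m δ [δ⁻¹ γ ∈ D] h₀ = # D * h₀ * m γ`: `h = # D * h₀`.] -/
def Stmt_valQ : Prop :=
  ∀ (W : Subgroup GQ) [W.Normal] [W.FiniteIndex], W ∈ levAll.S → ∀ q : Nat.Primes,
    ∃ (o : XL W →+ ℤ) (h : ℤ), h ≠ 0 ∧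
      (∀ d ∈ Dq W q, ∀ x : XL W, o (d • x) = o x) ∧
      (∀ x : XL W, (∀ γ : GQ ⧸ W, o (γ⁻¹ • x) = 0) ↔ UnitAt q x.val) ∧
      (∀ m ∈ latV (Dq W q), ∃ x ∈ US {q} W, ∀ γ : GQ ⧸ W, o (γ⁻¹ • x) = h * m γ)

/-- U8. units with a sign pattern are independent and generate a subgroup of finite index (Mathlib-native).
[Copy the proof of `NumberField.Units.dirichletUnitTheorem.unitLattice_span_eq_top`
(`Matrix.det_ne_zero_of_sum_col_lt_diag`, `sum_logEmbedding_component`, `mult_log_place_eq_zero`): the vectors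
`logEmbedding K (u w)`, `w ≠ w₁`, are a basis of `logSpace K`.  Independence: apply `logEmbedding`.
Finite index: the closure contains a `ℤ`-basis of a sublattice of full rank of `unitLattice K`; torsion is
finite; or: `(𝓞 K)ˣ / closure` is finitely generated and torsion.] -/
def Stmt_minkRank : Prop :=
  ∀ (K : Type) [Field K] [NumberField K] (u : InfinitePlace K → (𝓞 K)ˣ),
    (∀ w w' : InfinitePlace K, w' ≠ w → w' ((u w : 𝓞 K) : K) < 1) →
    (∀ (w₁ : InfinitePlace K) (m : InfinitePlace K → ℤ), m w₁ = 0 →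
      ∏ᶠ w, u w ^ m w = 1 → m = 0) ∧
    (Subgroup.closure (Set.range u)).index ≠ 0

/-- the integral units of a field of characteristic zero, additively. -/
def intU (K : Type) [Field K] : AddSubgroup (Additive Kˣ) where
  carrier := {u | IsIntegral ℤ ((Additive.toMul u : Kˣ) : K) ∧
    IsIntegral ℤ (((Additive.toMul u)⁻¹ : Kˣ) : K)}
  zero_mem' := ⟨by simpa using isIntegral_one, by simpa using isIntegral_one⟩
  add_mem' := by
    rintro u v ⟨hu, hu'⟩ ⟨hv, hv'⟩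
    refine ⟨?_, ?_⟩
    · simpa using hu.mul hv
    · simpa [mul_comm] using hu'.mul hv'
  neg_mem' := by
    rintro u ⟨hu, hu'⟩
    exact ⟨by simpa using hu', by simpa using hu⟩

/-- U9. **Minkowski units**, abstract Galois form.
[`K/ℚ` is Galois with group `Γ` (`IsGaloisGroup`, or `MulSemiringAction.toAlgHom` + `FixedPoints`).
`w₀ = InfinitePlace.mk ι₀`; `γ ↦ w_γ := mk (ι₀ ∘ γ⁻¹)` is onto (`InfinitePlace.exists_smul_eq_of_comap_eq`, or: every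
embedding is `ι₀ ∘ γ`), and `w_γ = w_δ ↔ γ⁻¹ δ ∈ ⟨c⟩` (`InfinitePlace.mk_eq_iff`, faithfulness).
`u₀` from `Units.dirichletUnitTheorem.exists_unit w₀`, `u = 2 • u₀`: `∑_γ γ u = 2 • N(u₀) = 0` since
`N(u₀) = ±1`.  `U_w := ∑_{γ : w_γ = w} γ u` satisfies the hypothesis of U8, and `phiU u m = ∑_w m_w U_w` for
`m ∈ latV ⟨c⟩`.  Kernel: subtract `m γ₁ • 1`.] -/
def Stmt_minkAbs : Prop :=
  ∀ (K Γ : Type) [Field K] [NumberField K] [Group Γ] [Finite Γ] [MulSemiringAction Γ K]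
    [FaithfulSMul Γ K], (∀ x : K, (∀ γ : Γ, γ • x = x) → ∃ r : ℚ, algebraMap ℚ K r = x) →
    ∀ (ι₀ : K →+* ℂ) (c : Γ), (∀ x, ι₀ (c • x) = starRingEnd ℂ (ι₀ x)) →
    ∃ u ∈ intU K, (∀ m ∈ latV (Subgroup.zpowers c), (phiU u m = 0 ↔ m ∈ latC Γ)) ∧
      ((latV (Subgroup.zpowers c)).map (phiU u)).relIndex (intU K) ≠ 0

/-- U10. the layer `(G_ℚ/W, ℚ̄^W)` satisfies the hypotheses of U9; integral units.
[`k` from C3: `ℚ̄^W` is finite dimensional over `ℚ` (`NumberField` needs `CharZero` + `FiniteDimensional`).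
Faithful: `g x = x` for all `x ∈ k` means `g ∈ k.fixingSubgroup = W`.  Fixed points: `ℚ̄^{G_ℚ} = ℚ`
(`InfiniteGalois.fixedField_bot`-type statement or finite Galois theory in `k`).  Integral units: `x` is integral over
`ℤ` iff `x ∈ A` for all `A` over all primes (`GN.Stmt_DictA`, `GN.Stmt_DictB`,
`HeightOneSpectrum.mem_integers_of_valuation_le_one`).] -/
def Stmt_layerQ : Prop :=
  ∀ (W : Subgroup GQ) [W.Normal], W ∈ levAll.S →
    FiniteDimensional ℚ (FixedPoints.subfield W Qb) ∧ FaithfulSMul (GQ ⧸ W) (FixedPoints.subfield W Qb) ∧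
    (∀ x : FixedPoints.subfield W Qb, (∀ γ : GQ ⧸ W, γ • x = x) →
      ∃ r : ℚ, algebraMap ℚ (FixedPoints.subfield W Qb) r = x) ∧
    (∀ u : XL W, u ∈ US ∅ W ↔ u ∈ intU (FixedPoints.subfield W Qb))

/-- U11. **the infinite places.**  [U9 for the layer (U10), `ι₀ = complexEmbedding` restricted to `ℚ̄^W`,
`c = (complexConjugation : GQ ⧸ W)`, `complexEmbedding_complexConjugation`.] -/
def Stmt_minkQ : Prop :=
  ∀ (W : Subgroup GQ) [W.Normal] [W.FiniteIndex], W ∈ levAll.S →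
    ∃ u ∈ US ∅ W, (∀ m ∈ latV (Cc W), (phiU u m = 0 ↔ m ∈ latC (GQ ⧸ W))) ∧
      ((latV (Cc W)).map (phiU u)).relIndex (US ∅ W) ≠ 0

/-- U12. **THE EQUIVARIANT `S`-UNIT THEOREM MODULO `p`.**
[`Finset.induction_on S`.  `S = ∅`: U2 with `B = US ∅ W`, `C = Cc W`, U11; `B ⊓ ker p = ker p` (a root of unity is a unit
at every `A`).  `insert q S`: U1 with `A = US (insert q S) W`, `B = US S W`, `D = Dq W q`, U7
(`US {q} W ≤ US (insert q S) W`).  `Stab (GQ ⧸ W) (US S W)`: `UnitAt q (g x) ↔ UnitAt q x` (U4).] -/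
def Stmt_unitFormula : Prop :=
  ∀ (p : ℕ) [Fact p.Prime] (W : Subgroup GQ) [W.Normal] [W.FiniteIndex], W ∈ levAll.S →
    ∀ a : GQ ⧸ W → ZMod p, IsIdem a → ∀ S : Finset Nat.Primes,
    eCard a (US S W) (pS p (US S W)) * (if aug a = 0 then 1 else p) =
      Nat.card ((nsmulAddMonoidHom (α := XL W) p).ker.map (opZ a)) *
        p ^ (∑ q ∈ S, rkL a (Dq W q) + rkL a (Cc W))

/-! ## Block T : assembly -/

/-- T1. one inequality: `ψ(P) ≤ 0` for a retract `P` of `Map(Γ, μ_p)`.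
[`D = qDatum p S h`, `lam` from `GW.stmt_PTFull`.  `Loc.Stmt_endTw`: `i ∘ r = rtOp W N a`, `a` idempotent.
`Loc.Stmt_retract`: `# Hⁿ(P) = # range (HM (rtOp ..) n)`.  `Loc.Stmt_h0Tw` (`Ω = ℚ̄`, K1), K3, U12,
F3 (+ F4 and `Loc.Stmt_twMuPerm` for `Ш²(P) = 0`), H5 for `φ = D.φ v` and for `φ = MonoidHom.id` (`imQ = ⊤`), H1, H2,
H6 with C4.  Everything is finite: take `log_p` (`Module.card_eq_pow_finrank`, `Nat.pow_le_pow_iff_right`).] -/
def Stmt_ecLe : Prop :=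
  ∀ (p : ℕ) [Fact p.Prime], p ≠ 2 → ∀ (S : Finset Nat.Primes), pPrime p ∈ S →
    ∀ (h : CycloTriv p S) (W : Subgroup GQ) [W.Normal] [W.FiniteIndex], GoodLev p S W →
    (∀ x ∈ (qDatum p S h).Sha (permRep (ZMod p) W) 2, x = 0) →
    ∀ (P : Rep.{0} (ZMod p) GQ) (i : P ⟶ tw W (muQ p)) (r : tw W (muQ p) ⟶ P),
    (∀ x, r.hom (i.hom x) = x) → psi S P ≤ 0

/-- T2. **the key lemma**: `ψ(P) = 0` for every retract `P` of `perm W`.
[`Loc.Stmt_twMuPerm` reduces to retracts of `tw W N`.  T1 for `P` and for the complement `P' = kerRep r`;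
`ψ` is additive (F1, F2) and `ψ(perm W) = 0` (F5, F6; `c ∉ W` by C4 and `p ≠ 2`).  Compare `Loc/LecKey.lean`.] -/
def Stmt_ecKey : Prop :=
  ∀ (p : ℕ) [Fact p.Prime], p ≠ 2 → ∀ (S : Finset Nat.Primes), pPrime p ∈ S →
    ∀ (h : CycloTriv p S) (W : Subgroup GQ) [W.Normal] [W.FiniteIndex], GoodLev p S W →
    (∀ x ∈ (qDatum p S h).Sha (permRep (ZMod p) W) 2, x = 0) →
    ∀ (P : Rep.{0} (ZMod p) GQ) (i : P ⟶ perm W) (r : perm W ⟶ P),
    (∀ x, r.hom (i.hom x) = x) → psi S P = 0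

/-- T3. `ψ = 0` on all modules trivial on `W`.  [T2, F1, F2, `Loc.Stmt_INDproj` with `f = psi S`;
`GoodW W X → Good (levS S) X`.  Compare `Loc/LecAll.lean`.] -/
def Stmt_ecW : Prop :=
  ∀ (p : ℕ) [Fact p.Prime], p ≠ 2 → ∀ (S : Finset Nat.Primes), pPrime p ∈ S →
    ∀ (h : CycloTriv p S) (W : Subgroup GQ) [W.Normal] [W.FiniteIndex], GoodLev p S W →
    (∀ x ∈ (qDatum p S h).Sha (permRep (ZMod p) W) 2, x = 0) →
    ∀ X : Rep.{0} (ZMod p) GQ, GoodW W X → psi S X = 0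

/-- **EC : THE GLOBAL EULER CHARACTERISTIC FORMULA** (for `S` large enough).
[`S₁ = insert (pPrime p) S₀`.  `W ∈ (levS S₁).S` acting trivially on `X` and on `μ_p` (`LevelSys.dir`,
`Top.Stmt_cycloTriv`, C2).  `Num.fieldOf`: `k, ζ` with `k.fixingSubgroup = W`, `GN.Base p S₁ k ζ`.  `A₀` from C1.
For `S ⊇ S₁ ∪ A₀`: C2, F7, T3.] -/
def Stmt_EC : Prop :=
  ∀ (p : ℕ) [Fact p.Prime], p ≠ 2 → ∀ (S₀ : Finset Nat.Primes) (X : Rep.{0} (ZMod p) GQ),
    Good (levS S₀) X → ∃ A₀ : Finset Nat.Primes, ∀ S : Finset Nat.Primes, S₀ ⊆ S → A₀ ⊆ S →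
      pPrime p ∈ S → chi (levS S) X = -(negDim (complexConjugation : GQ) X : ℤ)

end Fermat.Agent.TW56.EC

end
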