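/-
TEAM TW56 -> S56, block [EC], package F5 (helper86): `2 χ(perm W) = - [G : W]`, from `Stmt_arith2`.
-/
import Fermat.Agent.TW56.EC.Interface
import Fermat.Agent.TW56.GW.PTFull
import Fermat.Agent.CFT.Top.CycloTriv
import Fermat.Agent.CFT.Num.ShapiroM
import Fermat.Agent.CFT.Num.Pdim
import Fermat.Agent.CFT.Num.Mackey
import Fermat.Agent.CFT.Num.Stab
import Fermat.Agent.CFT.Num.QLN
import Fermat.Agent.CFT.Local.Final

set_option autoImplicit false

noncomputable section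

namespace Fermat.Agent.TW56.EC

open Fermat.Agent.CFT Fermat.Agent.CFT.Top Fermat.Agent.CFT.Pos Fermat.Agent.CFT.Local
  Fermat.Agent.TW56.Loc Module CategoryTheory ExtCitation NumberField

namespace ChiPerm

/-- exactly one place of `S` lies over `p`. -/
theorem sum_eps (p : ℕ) [Fact p.Prime] (S : Finset Nat.Primes) (hpS : pPrime p ∈ S) :
    ∑ q : ↥S, (if (q.1 : ℕ) = p then 1 else 0) = 1 := by
  rw [Finset.sum_eq_single (⟨pPrime p, hpS⟩ : ↥S)]
  · simp
  · intro q _ hq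
    rw [if_neg]
    intro h
    exact hq (Subtype.ext (Subtype.ext h))
  · intro h
    exact absurd (Finset.mem_univ _) h

end ChiPerm

/-- F5, from the arithmetic inputs. -/
theorem chiPerm_of (ha : Top.Stmt_arith2) : Stmt_chiPerm := by
  intro p _ hp2 S hpS W hW
  have hct : CycloTriv p S := stmt_cycloTriv p S hpS
  have hI : (qDatum p S hct).Inputs2 := ha p hp2 S hpS hct
  obtain ⟨lam, hPT⟩ := GW.stmt_PTFull p (qDatum p S hct) hI
  have hgood : (qDatum p S hct).Good W := ⟨⟨W, hW.1, le_rfl⟩, hW.2⟩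
  obtain ⟨h1, h2, -⟩ := GW.base_phiPerm p (qDatum p S hct) lam hPT.ctx W hgood
  have hWn : W.Normal := (levS S).normal W hW.1
  have hWf : W.FiniteIndex := (levS S).fin W hW.1
  have hgW : GoodW W (perm W : Rep.{0} (ZMod p) GQ) := goodW_perm le_rfl
  have hG : Good (qDatum p S hct).𝒰 (perm W : Rep.{0} (ZMod p) (qDatum p S hct).G) :=
    ⟨hgW.1, W, hW.1, hgW.2⟩
  have h0 := hPT.phi0 _ hG
  obtain ⟨-, -, h3, h4⟩ := (Num.pdim (Num.mackey Num.stabOpen) Num.stabOpen Num.orbitSum) p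
    (qDatum p S hct) (fun q => if (q.1 : ℕ) = p then 1 else 0)
    (fun q => Num.qLN Local.final_LN Num.shapiro_uncond p S hct q) W hgood
  have hs : ∑ q : (qDatum p S hct).ι, (if (q.1 : ℕ) = p then 1 else 0) = 1 :=
    ChiPerm.sum_eps p S hpS
  rw [hs, one_mul, ← h3] at h4
  have e2 : chiLoc (qDatum p S hct) (perm W : Rep.{0} (ZMod p) (qDatum p S hct).G)
      = (finrank (ZMod p) (Pl (qDatum p S hct) (perm W) 0) : ℤ)
        - ((qDatum p S hct).pdim (permRep (ZMod p) W) 1 : ℤ)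
        + ((qDatum p S hct).pdim (permRep (ZMod p) W) 2 : ℤ) := rfl
  have e3 : (finrank (ZMod p) (Pl (qDatum p S hct) (perm W) 0) : ℤ)
      = ((qDatum p S hct).pdim (permRep (ZMod p) W) 2 : ℤ) := by
    rw [h2]
    rfl
  rw [h0, e2, e3, h4] at h1
  push_cast at h1
  have h5 : ∀ x c i : ℤ, 0 = 2 * c - (x - (2 * x + i) + x) → 2 * c = -i := by
    intro x c i h
    linarith
  exact h5 _ _ _ h1

end Fermat.Agent.TW56.EC

end
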