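/-
TEAM TW56 -> S56, block [EC] (helper86): the arithmetic inputs `Top.Stmt_arith2`, UNCONDITIONALLY
(re-wiring of `CFT/Wire`), and package F5 `Stmt_chiPerm`, unconditionally.
-/
import Fermat.Agent.CFT.Wire.All
import Fermat.Agent.TW56.EC.ChiPerm

set_option autoImplicit false

namespace Fermat.Agent.TW56.EC

open Fermat.Agent.CFT

/-- the finite level Hasse principle, unconditionally. -/
theorem hpfin_uncond : HPG.Stmt_HPfin :=
  HPG.final_hpfin_of_hpp
    (Wire.hpp_of (Wire.layerNorm_of HNQ.nearDict HNQ.nearInv HNQ.galDict))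

/-- **all the arithmetic inputs for `qDatum`, unconditionally.** -/
theorem arith2_uncond : Top.Stmt_arith2 :=
  Wire.arith2_of_rest TW.twOrb
    (GR.all_grw (GR.hpnGlue (HPG.final_hpraw2 hpfin_uncond) GR.locStd GR.locConj GN.dictA
      GN.dictD))
    (HPG.final_gn hpfin_uncond)

/-- **F5.** `2 χ(perm W) = - [G : W]`. -/
theorem stmt_chiPerm : Stmt_chiPerm := chiPerm_of arith2_uncond

end Fermat.Agent.TW56.EC
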