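/-
TEAM TW56 -> S56, block [EC], F1 : the global Euler characteristic `χ` is additive.
-/
import Fermat.Agent.TW56.EC.Interface
import Fermat.Agent.CFT.Pos.Euler
import Fermat.Agent.CFT.Pos.Fun
import Fermat.Agent.CFT.Pos.PhiDecomp

set_option autoImplicit false

noncomputable section

namespace Fermat.Agent.TW56.EC

open Fermat.Agent.CFT Fermat.Agent.CFT.Top Fermat.Agent.CFT.Pos Fermat.Agent.CFT.Local
  Fermat.Agent.TW56.Loc Module CategoryTheory ExtCitation NumberField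

namespace ChiAdd

/-- `χ` is subadditive. -/
lemma sub {k : Type} [Field k] {G : Type} [Group G] (𝒰 : LevelSys G) {X₁ X₂ X₃ : Rep.{0} k G}
    (i : X₁ ⟶ X₂) (q : X₂ ⟶ X₃) (h₁ : FD 𝒰 X₁) (h₂ : FD 𝒰 X₂) (h₃ : FD 𝒰 X₃)
    (hd : IsTrivOn 𝒰 X₂) (hs : IsSES i q) : chi 𝒰 X₂ ≤ chi 𝒰 X₁ + chi 𝒰 X₃ := by
  obtain ⟨W, hW, hWt⟩ := hd
  have hdisc : IsDisc 𝒰 X₂ := fun m => ⟨W, hW, fun u hu => hWt u hu m⟩
  have h : chi 𝒰 X₁ + chi 𝒰 X₃ - chi 𝒰 X₂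
      = (finrank k (Hlc 𝒰 X₃ 2) : ℤ) - finrank k (LinearMap.range (HM 𝒰 q 2)) :=
    stmt_euler k _ _ _ _ _ (stmt_ses k G 𝒰 X₁ X₂ X₃ i q hs hdisc) h₁ h₂ h₃
  have : Module.Finite k (Hlc 𝒰 X₃ 2) := h₃ 2 le_rfl
  have hle : finrank k (LinearMap.range (HM 𝒰 q 2)) ≤ finrank k (Hlc 𝒰 X₃ 2) :=
    Submodule.finrank_le _
  have hle' : (finrank k (LinearMap.range (HM 𝒰 q 2)) : ℤ) ≤ finrank k (Hlc 𝒰 X₃ 2) := by
    exact_mod_cast hle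
  linarith

/-- `χ_loc` is additive. -/
lemma chiLoc_add {p : ℕ} [Fact p.Prime] (D : Datum p) (lam : Lam D) (hloc : LocOK D lam)
    {X₁ X₂ X₃ : Rep.{0} (ZMod p) D.G} (i : X₁ ⟶ X₂) (q : X₂ ⟶ X₃) (g1 : Good D.𝒰 X₁)
    (g2 : Good D.𝒰 X₂) (g3 : Good D.𝒰 X₃) (hs : IsSES i q) :
    chiLoc D X₂ = chiLoc D X₁ + chiLoc D X₃ := by
  have h5 := stmt_euler (ZMod p) _ _ _ _ _ (stmt_Pses p D X₁ X₂ X₃ i q hs g2.2) (hloc.fd X₁ g1)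
    (hloc.fd X₂ g2) (hloc.fd X₃ g3)
  have h6 : LinearMap.range ((Pmap D q).mapH 2) = ⊤ :=
    LinearMap.range_eq_top.2 (hloc.rex X₂ X₃ q g2 g3 hs.surj)
  rw [h6, finrank_top, sub_self] at h5
  have h7 : chiLoc D X₁ + chiLoc D X₃ - chiLoc D X₂ = 0 := h5
  omega

end ChiAdd

/-- F1. -/
theorem stmt_chiAdd : Stmt_chiAdd := by
  intro p _ D lam hPT X₁ X₂ X₃ i q g1 g2 g3 hs
  have hctx := hPT.ctx
  obtain ⟨hd1, -, -⟩ := stmt_dual (ZMod p) D.G D.χ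
  have d1 := Good.dg D g1
  have d2 := Good.dg D g2
  have d3 := Good.dg D g3
  have e1 := ChiAdd.sub D.𝒰 i q (hctx.gfd X₁ g1) (hctx.gfd X₂ g2) (hctx.gfd X₃ g3) g2.2 hs
  have e2 : chi D.𝒰 (dg D X₂) ≤ chi D.𝒰 (dg D X₃) + chi D.𝒰 (dg D X₁) :=
    ChiAdd.sub D.𝒰 (dag D.χ q) (dag D.χ i) (hctx.gfd _ d3) (hctx.gfd _ d2) (hctx.gfd _ d1) d2.2
      (hd1 X₁ X₂ X₃ i q hs)
  have e3 := ChiAdd.chiLoc_add D lam hctx.loc i q g1 g2 g3 hs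
  have p1 := hPT.phi0 X₁ g1
  have p2 := hPT.phi0 X₂ g2
  have p3 := hPT.phi0 X₃ g3
  unfold phi at p1 p2 p3
  omega

end Fermat.Agent.TW56.EC

end
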