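/-
TEAM TW56 -> S56, block [EC], C1 : the primes over a suitable finite set generate the class group.
-/
import Fermat.Agent.TW56.EC.Interface
import Fermat.Agent.CFT.GN.Cls
import Fermat.Agent.CFT.GN.DictAB

set_option autoImplicit false

noncomputable section

namespace Fermat.Agent.TW56.EC

open Fermat.Agent.CFT Fermat.Agent.CFT.Top Fermat.Agent.CFT.Pos Fermat.Agent.CFT.Local
  Fermat.Agent.TW56.Loc Module CategoryTheory ExtCitation NumberField

theorem stmt_clGen : Stmt_clGen := by
  intro k _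
  classical
  have hcls := (GN.cls (𝓞 k) k).1
  choose a ha using hcls
  have hq := (GN.dictA k).2.2.1
  choose q hqp hqv using hq
  refine ⟨Finset.univ.biUnion fun c : ClassGroup (𝓞 k) =>
    (a c).support.image fun v => (⟨q v, hqp v⟩ : Nat.Primes), fun S hS n => ?_⟩
  rw [eq_top_iff]
  intro c _
  refine Subgroup.mem_sup_left ?_
  rw [← ha c]
  unfold GN.clsDiv
  refine Subgroup.prod_mem _ fun v hv => Subgroup.zpow_mem _ (Subgroup.subset_closure ?_) _
  refine ⟨v, ⟨⟨q v, hqp v⟩, hS ?_, hqv v⟩, rfl⟩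
  exact Finset.mem_biUnion.2 ⟨c, Finset.mem_univ c, Finset.mem_image.2 ⟨v, hv, rfl⟩⟩

end Fermat.Agent.TW56.EC

end

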