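/-
TEAM TW56 -> S56, block EC, task EC-C4+K1: `cycloChar p c = -1`; `μ_p ↪ ℚ̄ˣ`.
-/
import Fermat.Agent.TW56.EC.Interface
import Fermat.Agent.CFT.CycloBridge
import Fermat.Agent.CFT.Local.LN3

set_option autoImplicit false

noncomputable section

namespace Fermat.Agent.TW56.EC

open Fermat.Agent.CFT Fermat.Agent.CFT.Top Fermat.Agent.CFT.Pos Fermat.Agent.CFT.Local
  Fermat.Agent.TW56.Loc Module CategoryTheory ExtCitation NumberField

attribute [local instance] Units.mulDistribMulActionRight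
attribute [local instance] quotAct
attribute [local instance] addAct
attribute [local instance] funAct

namespace CycConj

/-- complex conjugation inverts the roots of unity. -/
theorem conj_root {n : ℕ} (hn : n ≠ 0) {t : Qb} (ht : t ^ n = 1) :
    (complexConjugation : GQ) t = t⁻¹ := by
  apply complexEmbedding.toRingHom.injective
  show complexEmbedding (complexConjugation t) = complexEmbedding t⁻¹
  rw [complexEmbedding_complexConjugation, map_inv₀]
  have h1 : complexEmbedding t ^ n = 1 := by rw [← map_pow, ht, map_one]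
  have h2 : ‖complexEmbedding t‖ = 1 := Complex.norm_eq_one_of_pow_eq_one h1 hn
  apply eq_inv_of_mul_eq_one_right
  rw [Complex.mul_conj, Complex.normSq_eq_norm_sq, h2]
  norm_num

theorem val_neg_one (p : ℕ) [Fact p.Prime] : (-1 : ZMod p).val = p - 1 := by
  have hp : p.Prime := Fact.out
  obtain ⟨m, rfl⟩ : ∃ m, p = m + 1 := ⟨p - 1, by have := hp.pos; omega⟩
  rw [ZMod.val_neg_one]
  rfl

end CycConj

theorem stmt_cycConj : Stmt_cycConj := by
  intro p _
  have hp : p.Prime := Fact.out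
  have : NeZero p := ⟨hp.ne_zero⟩
  have h := modularCyclotomicCharacter.unique (L := Qb) (card_rootsOfUnity_eq_self p)
    ((complexConjugation : GQ) : Qb ≃+* Qb) (c := -1) (fun t ht => by
      have h1 : ((t : Qbˣ) : Qb) ^ p = 1 := by
        have := (mem_rootsOfUnity _ _).mp ht
        rw [← Units.val_pow_eq_pow_val, this, Units.val_one]
      have h2 : ((t : Qbˣ) : Qb) ≠ 0 := t.ne_zero
      show (complexConjugation : GQ) (t : Qb) = _
      rw [CycConj.conj_root hp.ne_zero h1, CycConj.val_neg_one]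
      apply inv_eq_of_mul_eq_one_right
      rw [← pow_succ', Nat.sub_add_cancel hp.pos, h1])
  apply Units.ext
  rw [Units.val_neg, Units.val_one]
  exact h.symm

theorem stmt_muEmbQ : Stmt_muEmbQ := by
  intro p _
  have hp : p.Prime := Fact.out
  have : NeZero p := ⟨hp.ne_zero⟩
  have : NeZero ((p : ℕ) : AlgebraicClosure ℚ) := ⟨Nat.cast_ne_zero.mpr hp.ne_zero⟩
  obtain ⟨ζ0, hζ0⟩ := HasEnoughRootsOfUnity.exists_primitiveRoot (AlgebraicClosure ℚ) p
  let ζ : Qbˣ := Units.mk0 ζ0 (hζ0.ne_zero hp.ne_zero)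
  have hζ : IsPrimitiveRoot ζ p := IsPrimitiveRoot.coe_units_iff.mp hζ0
  refine ⟨LN3_e p ζ hζ.pow_eq_one, LN3_e_injective p ζ hζ, ?_, LN3_e_surjective p ζ hζ⟩
  intro g n
  set c : (ZMod p)ˣ := cycloChar p g with hc
  have hρ : (muQ p).ρ g n = (c : ZMod p) * (n : ZMod p) := rfl
  have hgζ : g • ζ = ζ ^ (c : ZMod p).val := by
    apply Units.ext
    change g ζ0 = _
    rw [apply_eq_pow_cycloChar p _ hζ0.pow_eq_one, Units.val_pow_eq_pow_val]
    rfl
  rw [hρ]
  change Additive.ofMul (ζ ^ ((c : ZMod p) * (n : ZMod p)).val)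
    = Additive.ofMul (g • (ζ ^ (n : ZMod p).val))
  rw [smul_pow', hgζ, ← pow_mul, ZMod.val_mul, ← pow_eq_pow_mod _ hζ.pow_eq_one]

end Fermat.Agent.TW56.EC

end
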