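/-
TEAM TW56 -> S56, block EC, package C3 : the fixed field of an open normal subgroup of `G_ℚ`
(`Stmt_fixW`).
-/
import Fermat.Agent.TW56.EC.Interface

set_option autoImplicit false

noncomputable section

namespace Fermat.Agent.TW56.EC

open Fermat.Agent.CFT Fermat.Agent.CFT.Top Fermat.Agent.CFT.Pos Fermat.Agent.CFT.Local
  Fermat.Agent.TW56.Loc Module CategoryTheory ExtCitation NumberField

namespace FixW

lemma isGalois : IsGalois ℚ (AlgebraicClosure ℚ) := by
  have : Algebra.IsAlgebraic ℚ (AlgebraicClosure ℚ) := AlgebraicClosure.isAlgebraic ℚ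
  have : IsAlgClosure ℚ (AlgebraicClosure ℚ) := ⟨inferInstance, inferInstance⟩
  have : Normal ℚ (AlgebraicClosure ℚ) := IsAlgClosure.normal ℚ (AlgebraicClosure ℚ)
  exact ⟨⟩

end FixW

theorem stmt_fixW : Stmt_fixW := by
  rintro W ⟨hW, F, hF, hFW⟩
  have := FixW.isGalois
  have hopen : IsOpen (W : Set GQ) :=
    Subgroup.isOpen_mono hFW (IntermediateField.fixingSubgroup_isOpen F)
  have hclosed : IsClosed (W : Set GQ) := Subgroup.isClosed_of_isOpen W hopen
  have hfix : (IntermediateField.fixedField W).fixingSubgroup = W :=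
    InfiniteGalois.fixingSubgroup_fixedField (⟨W, hclosed⟩ : ClosedSubgroup GQ)
  have hle : IntermediateField.fixedField W ≤ F := by
    rw [← InfiniteGalois.fixedField_fixingSubgroup F]
    exact IntermediateField.fixedField_antitone hFW
  have hgal : IsGalois ℚ (IntermediateField.fixedField W) :=
    IsGalois.of_fixedField_normal_subgroup W
  refine ⟨IntermediateField.fixedField W, ?_, hgal.to_normal, hfix, fun x => ?_⟩
  · exact FiniteDimensional.of_injective (IntermediateField.inclusion hle).toLinearMap
      (IntermediateField.inclusion_injective hle)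
  · rw [IntermediateField.mem_fixedField_iff]

end Fermat.Agent.TW56.EC

end
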