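/-
TEAM TW56 -> S56, block EC, task EC-U5 (1507): `Stmt_decQ`
(the decomposition group = the isometries of `L = ℚ̄^W`).
-/
import Fermat.Agent.TW56.EC.Interface
import Fermat.Agent.TW56.EC.FixW
import Fermat.Agent.CFT.LocalBridge
import Fermat.Agent.CFT.GN.DictD
import Fermat.Agent.CFT.GN.DictAB

set_option autoImplicit false

noncomputable section

namespace Fermat.Agent.TW56.EC

open Fermat.Agent.CFT Fermat.Agent.CFT.Top Fermat.Agent.CFT.Pos Fermat.Agent.CFT.Local
  Fermat.Agent.TW56.Loc Module CategoryTheory ExtCitation NumberField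

open scoped Pointwise

attribute [local instance] Units.mulDistribMulActionRight
attribute [local instance] quotAct
attribute [local instance] addAct
attribute [local instance] funAct

namespace DecQ

/-- the range of `primeLocalToGlobal q` is the decomposition group of `padicPlace q`. -/
theorem range_eq (q : Nat.Primes) :
    letI : Fact (q : ℕ).Prime := ⟨q.2⟩
    (primeLocalToGlobal q).range = (padicPlace (q : ℕ)).decompositionSubgroup ℚ :=
  letI : Fact (q : ℕ).Prime := ⟨q.2⟩
  range_localGaloisToGlobal (q : ℕ)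

theorem mem_place_iff (q : Nat.Primes) (x : Qb) :
    letI : Fact (q : ℕ).Prime := ⟨q.2⟩
    x ∈ padicPlace (q : ℕ) ↔ nrmQ q x ≤ 1 :=
  letI : Fact (q : ℕ).Prime := ⟨q.2⟩
  lb_mem_padicPlace_iff (q : ℕ)

/-- membership in `Dq`. -/
theorem mem_Dq_iff (W : Subgroup GQ) [W.Normal] (q : Nat.Primes) (g : GQ) :
    (g : GQ ⧸ W) ∈ Dq W q ↔ ∃ d ∈ (primeLocalToGlobal q).range, ∃ w ∈ W, g = d * w := by
  constructor
  · rintro ⟨d, hd, hdg⟩
    refine ⟨d, hd, d⁻¹ * g, ?_, by group⟩
    exact QuotientGroup.eq.1 hdg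
  · rintro ⟨d, hd, w, hw, rfl⟩
    refine ⟨d, hd, ?_⟩
    show ((d : GQ) : GQ ⧸ W) = ((d * w : GQ) : GQ ⧸ W)
    rw [QuotientGroup.eq]
    simpa using hw

end DecQ

open DecQ in
/-- U5. -/
theorem stmt_decQ : Stmt_decQ := by
  intro W _ hW q
  have : Fact (q : ℕ).Prime := ⟨q.2⟩
  constructor
  · intro g hg x hx
    obtain ⟨d, hd, w, hw, rfl⟩ := (mem_Dq_iff W q g).1 hg
    rw [range_eq] at hd
    have e : (d * w) x = d x := by
      rw [AlgEquiv.mul_apply, hx w hw]
    rw [e]
    exact norm_padicEmbedding_of_mem_decomposition (q : ℕ) hd x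
  · intro g hg
    obtain ⟨k, hkfd, hknor, hkW, hk⟩ := stmt_fixW W hW
    have : NumberField k := { to_charZero := inferInstance, to_finiteDimensional := hkfd }
    -- `k` is stable under `G_ℚ`
    have hstab : ∀ (σ : GQ) (x : Qb), x ∈ k → σ x ∈ k := by
      intro σ x hx
      rw [hk] at hx ⊢
      intro w hw
      have h1 : σ⁻¹ * w * σ ∈ W := by
        have := (inferInstance : W.Normal).conj_mem w hw σ⁻¹
        simpa using this
      have h2 := hx _ h1
      rw [AlgEquiv.mul_apply, AlgEquiv.mul_apply] at h2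
      have h3 := congrArg σ h2
      rw [← AlgEquiv.mul_apply σ σ⁻¹, mul_inv_cancel, AlgEquiv.one_apply] at h3
      exact h3
    have hg' : ∀ x ∈ k, nrmQ q x ≤ 1 → nrmQ q (g x) ≤ 1 := fun x hx => hg x ((hk x).1 hx)
    -- iterates
    have hpow : ∀ (n : ℕ) (x : Qb), x ∈ k → nrmQ q x ≤ 1 → nrmQ q ((g ^ n) x) ≤ 1 := by
      intro n
      induction n with
      | zero => intro x _ h; simpa using h
      | succ n ih =>
        intro x hx h
        rw [pow_succ', AlgEquiv.mul_apply]
        exact hg' _ (hstab _ _ hx) (ih x hx h)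
    -- a power of `g` lies in `W`
    have : W.FiniteIndex := levAll.fin W hW
    obtain ⟨n, hn0, hn⟩ : ∃ n : ℕ, 0 < n ∧ g ^ n ∈ W := by
      refine ⟨W.index, Nat.pos_of_ne_zero Subgroup.FiniteIndex.index_ne_zero, ?_⟩
      exact Subgroup.pow_index_mem W g
    have hiff : ∀ x ∈ k, (nrmQ q (g x) ≤ 1 ↔ nrmQ q x ≤ 1) := by
      intro x hx
      refine ⟨fun h => ?_, hg' x hx⟩
      have h1 := hpow (n - 1) (g x) (hstab g x hx) h
      rw [← AlgEquiv.mul_apply, ← pow_succ, Nat.sub_add_cancel hn0, (hk x).1 hx _ hn] at h1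
      exact h1
    -- the two valuation rings
    set A : ValuationSubring Qb := padicPlace (q : ℕ) with hA
    set A' : ValuationSubring Qb := A.comap (g : Qb →+* Qb) with hA'
    have hmemA' : ∀ x, x ∈ A' ↔ g x ∈ A := fun x => Iff.rfl
    obtain ⟨v, hv⟩ := (GN.dictA k).2.1 A (q : ℕ) q.2 (padicPlace_liesOverPrime (q : ℕ))
    have hv' : GN.Over A' v := by
      intro x
      rw [hv x, ValuationSubring.mem_nonunits_iff_or, ValuationSubring.mem_nonunits_iff_or,
        hmemA', mem_place_iff, mem_place_iff,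
        hiff _ (inv_mem (x : k).2)]
    obtain ⟨w, hw, hwA⟩ := GN.dictD k A' A v hv' hv
    rw [hkW] at hw
    rw [mem_Dq_iff]
    refine ⟨g * w⁻¹, ?_, w, hw, by group⟩
    rw [range_eq]
    refine MulAction.mem_stabilizer_iff.2 ?_
    ext x
    rw [ValuationSubring.mem_pointwise_smul_iff_inv_smul_mem]
    have e1 : (g * w⁻¹)⁻¹ • x = w (g⁻¹ x) := by
      rw [mul_inv_rev, inv_inv]
      rfl
    rw [e1, hwA, hmemA', ← AlgEquiv.mul_apply, mul_inv_cancel, AlgEquiv.one_apply]

end Fermat.Agent.TW56.EC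

end
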