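/-
TEAM TW56 -> S56, block [EC] (architect helper56).  File 3: the output of EC in the form consumed by
helper62's `GW.Stmt_GWmat` and helper55's `Top/Asm.lean`.

`GW.ECHyp p rb Smin'` is delivered for all `Smin' ⊇ Smin ∪ A₀`, `A₀` a finite set of auxiliary primes depending
only on `rb`: apply `GW.Stmt_GWmat` to `Smin' = Smin ∪ A₀` (`GW.GWHyp` is monotone in `Smin`), with the
unramified local condition at the primes of `A₀ \ Smin`.
-/
import Fermat.Agent.TW56.EC.Interface
import Fermat.Agent.TW56.GW.BInterface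

set_option autoImplicit false

noncomputable section

namespace Fermat.Agent.TW56.EC

open Fermat.Agent.CFT Fermat.Agent.CFT.Top Fermat.Agent.CFT.Pos Module CategoryTheory ExtCitation
open _root_.Fermat.Agent.S53 (M2)

/-- AD1. `dim_{𝔽_p} (ad⁰(1))^{c=-1} = [k : 𝔽_p]`.
[`J = rb c`: `J * J = 1` (`complexConjugation_mul_self`), `det J = -1` (`GWHyp.det`, C4).  The action of `c` on
`Xtw p rb` is `m ↦ -(J m J)` (`GW.adRep_ρ_coe`), so `ker (ρ c + 1) = {m : tr m = 0, J m = m J}`.  `tr J = 0`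
(Cayley-Hamilton: `J² - tr J • J + det J = 0` gives `tr J • J = 0`), and the commutant of the non scalar matrix
`J` is `k 1 + k J`; so the kernel is `k J`: `t ↦ t • J` is an `𝔽_p`-linear bijection from `k`.] -/
def Stmt_negAd : Prop :=
  ∀ (p : ℕ) [Fact p.Prime] (k : Type) [Field k] [Finite k] [Algebra (ZMod p) k]
    (rb : GQ →* M2 k) (Smin : Finset Nat.Primes), GW.GWHyp p rb Smin →
    negDim (complexConjugation : GQ) (GW.Xtw p rb) = finrank (ZMod p) k

/-- AD2. **EC for `ad⁰(1)`, with auxiliary primes.**  [`Stmt_EC` for `X = GW.Xtw p rb`, `S₀ = Smin`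
(`GW.Stmt_adGood`, proved in `GW/AdGood.lean`), AD1; `pPrime p ∈ Smin` by `GWHyp.pS`.] -/
def Stmt_ECadAux : Prop :=
  ∀ (p : ℕ) [Fact p.Prime] (k : Type) [Field k] [Finite k] [Algebra (ZMod p) k]
    (rb : GQ →* M2 k) (Smin : Finset Nat.Primes), GW.GWHyp p rb Smin →
    ∃ A₀ : Finset Nat.Primes, ∀ Smin' : Finset Nat.Primes, Smin ⊆ Smin' → A₀ ⊆ Smin' →
      GW.GWHyp p rb Smin' ∧ GW.ECHyp p rb Smin'

end Fermat.Agent.TW56.EC

end
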