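/-
TEAM TW56 -> S56, block [EC].  EC-AD2 : EC for `ad⁰(1)`, with auxiliary primes (`Stmt_ECadAux`).
-/
import Fermat.Agent.TW56.EC.Interface2
import Fermat.Agent.TW56.GW.AdGood

set_option autoImplicit false

noncomputable section

namespace Fermat.Agent.TW56.EC

open Fermat.Agent.CFT Fermat.Agent.CFT.Top Fermat.Agent.CFT.Pos Module CategoryTheory ExtCitation
open _root_.Fermat.Agent.S53 (M2)

namespace ECadAux

/-- `GW.GWHyp` is monotone in `Smin`. -/
theorem gwHyp_mono (p : ℕ) [Fact p.Prime] (k : Type) [Field k] [Algebra (ZMod p) k]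
    (rb : GQ →* M2 k) (Smin Smin' : Finset Nat.Primes) (h : GW.GWHyp p rb Smin)
    (hS : Smin ⊆ Smin') : GW.GWHyp p rb Smin' where
  p2 := h.p2
  pS := hS h.pS
  lev := h.lev
  unr := fun q hq A hA s hs => h.unr q (fun hq' => hq (hS hq')) A hA s hs
  det := h.det
  h0 := h.h0

end ECadAux

/-- AD2. **EC for `ad⁰(1)`, with auxiliary primes.** -/
theorem stmt_ECadAux (hE : Stmt_EC) (hN : Stmt_negAd) : Stmt_ECadAux := by
  intro p _ k _ _ _ rb Smin h
  obtain ⟨A₀, hA₀⟩ := hE p h.p2 Smin (GW.Xtw p rb)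
    (GW.stmt_adGood p k rb Smin h Smin (Finset.Subset.refl _)).2
  refine ⟨A₀, fun Smin' hS hA => ⟨ECadAux.gwHyp_mono p k rb Smin Smin' h hS, fun S hSS => ?_⟩⟩
  rw [hA₀ S (hS.trans hSS) (hA.trans hSS) (hSS (hS h.pS)), hN p k rb Smin h]

end Fermat.Agent.TW56.EC
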