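/-
TEAM TW56 -> S56, block EC, task EC-A1: the relative index lemma (`Stmt_eIndexRel`):
`# e(A/p) = # e(B/p) # e(A[p])` for `B ≤ A` of finite index without `p`-torsion.
This is `Loc/EIndex.lean` (`stmt_eIndex`) with `⊤` replaced by a stable subgroup `A`.
-/
import Fermat.Agent.TW56.EC.Interface
import Fermat.Agent.TW56.Loc.EIndex
import Fermat.Agent.TW56.Loc.EMul
import Fermat.Agent.TW56.Loc.ETransport
import Fermat.Agent.TW56.Loc.EFinite

set_option autoImplicit false

noncomputable section

namespace Fermat.Agent.TW56.EC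

open Fermat.Agent.CFT Fermat.Agent.CFT.Top Fermat.Agent.CFT.Pos Fermat.Agent.CFT.Local
  Fermat.Agent.TW56.Loc Module CategoryTheory ExtCitation NumberField

attribute [local instance] Units.mulDistribMulActionRight
attribute [local instance] quotAct
attribute [local instance] addAct
attribute [local instance] funAct

namespace EIndexRel

variable {Γ : Type} [Group Γ] {X : Type} [AddCommGroup X] [DistribMulAction Γ X]

lemma stab_inf {A B : AddSubgroup X} (hA : Stab Γ A) (hB : Stab Γ B) : Stab Γ (A ⊓ B) := by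
  intro γ x hx
  obtain ⟨h1, h2⟩ := AddSubgroup.mem_inf.1 hx
  exact AddSubgroup.mem_inf.2 ⟨hA γ x h1, hB γ x h2⟩

end EIndexRel

open Loc.EIndex EIndexRel

theorem stmt_eIndexRel : Stmt_eIndexRel := by
  have h0 : Stmt_opZ := stmt_opZ
  have h1 : Stmt_eMul := stmt_eMul h0
  have h2 : Stmt_eTransport := stmt_eTransport h0
  have h3 : Stmt_eFinite := stmt_eFinite h0 h1 h2
  intro p _ Γ _ _ X _ _ a ha A B hA hB hle hidx htf
  set K : AddSubgroup X := A ⊓ (nsmulAddMonoidHom (α := X) p).ker with hK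
  have hKs : Stab Γ K := stab_inf hA (stab_ker p)
  have hKA : ∀ z ∈ K, z ∈ A := fun z hz => (AddSubgroup.mem_inf.1 hz).1
  have hKp : ∀ z ∈ K, p • z = 0 := fun z hz => mem_ker.1 (AddSubgroup.mem_inf.1 hz).2
  have hpB : Stab Γ (pS p B) := stab_pS p hB
  have key := h3 p Γ X a ha A (pS p B) hA hpB ((pS_le p B).trans hle) hidx
  have e1 : pDiv p A (pS p B) = B ⊔ K := by
    apply le_antisymm
    · intro x hx
      obtain ⟨hx1, hx2⟩ := AddSubgroup.mem_inf.1 hx
      rw [AddSubgroup.mem_comap, nsmulAddMonoidHom_apply] at hx2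
      obtain ⟨y, hy, hyx⟩ := mem_pS.1 hx2
      refine AddSubgroup.mem_sup.2 ⟨y, hy, x - y, ?_, by abel⟩
      refine AddSubgroup.mem_inf.2 ⟨A.sub_mem hx1 (hle hy), ?_⟩
      rw [mem_ker, smul_sub, hyx, sub_self]
    · intro x hx
      obtain ⟨y, hy, z, hz, rfl⟩ := AddSubgroup.mem_sup.1 hx
      refine AddSubgroup.mem_inf.2 ⟨A.add_mem (hle hy) (hKA z hz), ?_⟩
      rw [AddSubgroup.mem_comap, nsmulAddMonoidHom_apply]
      exact mem_pS.2 ⟨y, hy, by rw [smul_add, hKp z hz, add_zero]⟩
  have e2 : pS p A ⊔ pS p B = pS p A := sup_eq_left.2 (pS_mono p hle)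
  rw [e1, e2] at key
  -- multiplicativity
  have hmul := h1 p Γ X a ha (B ⊔ K) (pS p B ⊔ K) (pS p B) (stab_sup hB hKs) (stab_sup hpB hKs) hpB
    le_sup_left (sup_le_sup_right (pS_le p B) K) (by
      intro x hx
      obtain ⟨w, hw, rfl⟩ := mem_pS.1 hx
      obtain ⟨y, hy, z, hz, rfl⟩ := AddSubgroup.mem_sup.1 hw
      exact mem_pS.2 ⟨y, hy, by rw [smul_add, hKp z hz, add_zero]⟩)
  -- first transport
  have ht1 : eCard a B (pS p B) = eCard a (B ⊔ K) (pS p B ⊔ K) := by
    refine h2 p Γ X X a B (pS p B) (B ⊔ K) (pS p B ⊔ K) id hB hpB (stab_sup hB hKs)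
      (stab_sup hpB hKs) (pS_le p B) (sup_le_sup_right (pS_le p B) K) ?_ ?_ ?_ ?_ ?_
    · intro x hx
      exact (le_sup_left : B ≤ B ⊔ K) hx
    · intro x _ y _
      simp only [id, add_sub_cancel_left, sub_self]
      exact AddSubgroup.zero_mem _
    · intro γ x _
      simp only [id, sub_self]
      exact AddSubgroup.zero_mem _
    · intro x hx
      constructor
      · intro hx'
        obtain ⟨y, hy, z, hz, hyz⟩ := AddSubgroup.mem_sup.1 (show x ∈ pS p B ⊔ K from hx')
        have hzB : z ∈ B := by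
          have : z = x - y := by rw [← hyz]; abel
          rw [this]
          exact B.sub_mem hx (pS_le p B hy)
        have hz0 := htf z hzB (hKp z hz)
        rw [hz0, add_zero] at hyz
        rw [← hyz]
        exact hy
      · intro hx'
        exact (le_sup_left : pS p B ≤ pS p B ⊔ K) hx'
    · intro y hy
      obtain ⟨b, hb, z, hz, rfl⟩ := AddSubgroup.mem_sup.1 hy
      refine ⟨b, hb, ?_⟩
      simp only [id, add_sub_cancel_left]
      exact (le_sup_right : K ≤ pS p B ⊔ K) hz
  -- second transport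
  have ht2 : eCard a K ⊥ = eCard a (pS p B ⊔ K) (pS p B) := by
    refine h2 p Γ X X a K ⊥ (pS p B ⊔ K) (pS p B) id hKs stab_bot (stab_sup hpB hKs) hpB
      bot_le le_sup_left ?_ ?_ ?_ ?_ ?_
    · intro x hx
      exact (le_sup_right : K ≤ pS p B ⊔ K) hx
    · intro x _ y _
      simp only [id, add_sub_cancel_left, sub_self]
      exact AddSubgroup.zero_mem _
    · intro γ x _
      simp only [id, sub_self]
      exact AddSubgroup.zero_mem _
    · intro x hx
      constructor
      · intro hx'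
        exact AddSubgroup.mem_bot.2 (htf x (pS_le p B hx') (hKp x hx))
      · intro hx'
        rw [AddSubgroup.mem_bot.1 hx']
        exact AddSubgroup.zero_mem _
    · intro y hy
      obtain ⟨b, hb, z, hz, rfl⟩ := AddSubgroup.mem_sup.1 hy
      refine ⟨z, hz, ?_⟩
      simp only [id, add_sub_cancel_right]
      exact hb
  have hbot : eCard a K ⊥ = Nat.card (K.map (opZ a)) := by
    unfold eCard
    rw [bot_sup_eq, AddSubgroup.relIndex_bot_left]
  rw [← key, hmul, ← ht1, ← ht2, hbot]

end Fermat.Agent.TW56.EC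

end
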