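/-
TEAM TW56 -> S56, block [EC], task EC-T2 (helper91): the key lemma
`ψ(P) = 0` for retracts of `perm W`.
-/
import Fermat.Agent.TW56.EC.Interface
import Fermat.Agent.TW56.Loc.LecKey
import Fermat.Agent.TW56.Loc.LecAdd
import Fermat.Agent.TW56.GW.PTFull
import Fermat.Agent.CFT.Wire.All

set_option autoImplicit false

noncomputable section

namespace Fermat.Agent.TW56.EC

open Fermat.Agent.CFT Fermat.Agent.CFT.Top Fermat.Agent.CFT.Pos Fermat.Agent.CFT.Local
  Fermat.Agent.TW56.Loc Module CategoryTheory ExtCitation NumberField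

attribute [local instance] Units.mulDistribMulActionRight
attribute [local instance] quotAct
attribute [local instance] addAct
attribute [local instance] funAct

namespace EcKey

/-- the finite level Hasse principle, unconditionally (as in `CFT/Wire`). -/
theorem hpfin : HPG.Stmt_HPfin :=
  HPG.final_hpfin_of_hpp
    (Wire.hpp_of (Wire.layerNorm_of HNQ.nearDict HNQ.nearInv HNQ.galDict))

/-- **all the arithmetic inputs for `qDatum`, unconditionally** (same wiring as `CFT.Wire.s55`). -/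
theorem arith2 : Top.Stmt_arith2 :=
  Wire.arith2_of_rest TW.twOrb
    (GR.all_grw (GR.hpnGlue (HPG.final_hpraw2 hpfin) GR.locStd GR.locConj GN.dictA GN.dictD))
    (HPG.final_gn hpfin)

/-- `μ_p` is `μ_p`. -/
theorem isMu (p : ℕ) [Fact p.Prime] : IsMu (cycloChar p) (muQ p) :=
  ⟨finrank_self (ZMod p), fun _ _ => rfl⟩

/-- `2 ≠ 0` in `𝔽_p`, `p` odd. -/
theorem two_ne_zero' (p : ℕ) [hp : Fact p.Prime] (hp2 : p ≠ 2) : (2 : ZMod p) ≠ 0 := by
  intro h
  have h2 : ((2 : ℕ) : ZMod p) = 0 := by exact_mod_cast h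
  rw [ZMod.natCast_eq_zero_iff] at h2
  exact hp2 ((Nat.prime_dvd_prime_iff_eq hp.out Nat.prime_two).1 h2)

/-- the core, with the arithmetic inputs as a hypothesis. -/
theorem core (ha : Top.Stmt_arith2) (hL : Stmt_ecLe) (h1 : Stmt_chiAdd) (h2 : Stmt_negAdd)
    (h5 : Stmt_chiPerm) (h6 : Stmt_negPerm) (hc : Stmt_cycConj) : Stmt_ecKey := by
  intro p _ hp2 S hpS h W _ _ hW hSha P i r hri
  obtain ⟨lam, hPT⟩ := GW.stmt_PTFull p (qDatum p S h) (ha p hp2 S hpS h)
  have hMu : IsMu (cycloChar p) (muQ p) := isMu p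
  have h20 : (2 : ZMod p) ≠ 0 := two_ne_zero' p hp2
  have hcc : (complexConjugation : GQ) * complexConjugation = 1 := complexConjugation_mul_self
  obtain ⟨e, he⟩ := Loc.stmt_twMuPerm (ZMod p) GQ (cycloChar p) (muQ p) hMu W hW.2
  obtain ⟨e', he1, he2⟩ := stmt_inv (ZMod p) GQ _ _ e he
  -- the transported retract
  let i' : P ⟶ tw W (muQ p) := i ≫ e
  let r' : tw W (muQ p) ⟶ P := e' ≫ r
  have hri' : ∀ x, r'.hom (i'.hom x) = x := by
    intro x
    change r.hom (e'.hom (e.hom (i.hom x))) = x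
    rw [he1, hri]
  have hsurj : Function.Surjective r'.hom := fun x => ⟨i'.hom x, hri' x⟩
  -- goodness
  have hNfin : Module.Finite (ZMod p) (muQ p) :=
    Module.finite_of_finrank_pos (by rw [hMu.1]; exact one_pos)
  have hN : GoodW W (muQ p) :=
    ⟨hNfin, fun w hw x => by rw [hMu.2, hW.2 w hw, Units.val_one, one_smul]⟩
  have hTw : GoodW W (tw W (muQ p)) := goodW_tw le_rfl hN
  have hPerm : GoodW W (perm W : Rep.{0} (ZMod p) GQ) := goodW_perm le_rfl
  have hP : GoodW W P := LecKey.goodW_retract i' r' hri' hTw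
  have hP' : GoodW W (kerRep r') := goodW_ker r' hTw
  -- additivity of `ψ`
  have hadd : ∀ (X₁ X₂ X₃ : Rep.{0} (ZMod p) GQ) (i : X₁ ⟶ X₂) (q : X₂ ⟶ X₃), GoodW W X₁ →
      GoodW W X₂ → GoodW W X₃ → IsSES i q → psi S X₂ = psi S X₁ + psi S X₃ := by
    intro X₁ X₂ X₃ i q g1 g2 g3 hs
    have e1 : chi (levS S) X₂ = chi (levS S) X₁ + chi (levS S) X₃ :=
      h1 p (qDatum p S h) lam hPT X₁ X₂ X₃ i q (LecKey.good_of_goodW hW.1 g1)
        (LecKey.good_of_goodW hW.1 g2) (LecKey.good_of_goodW hW.1 g3) hs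
    have e2 := h2 (ZMod p) h20 GQ complexConjugation hcc X₁ X₂ X₃ i q g2.1 hs
    unfold psi
    rw [e1, e2]
    push_cast
    ring
  -- the two inequalities
  have l1 := hL p hp2 S hpS h W hW hSha P i' r' hri'
  have l2 := hL p hp2 S hpS h W hW hSha (kerRep r') (kerι r') (LecKey.compl i' r' hri')
    (LecKey.compl_kerι i' r' hri')
  have a3 := hadd (kerRep r') (tw W (muQ p)) P (kerι r') r' hP' hTw hP (isSES_ker r' hsurj)
  -- the zero module
  have hZ : GoodW W (zeroRep : Rep.{0} (ZMod p) GQ) := goodW_of_subsingleton W _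
  have a5 := hadd zeroRep zeroRep zeroRep (𝟙 _) (𝟙 _) hZ hZ hZ
    ⟨fun _ _ _ => Subsingleton.elim _ _, fun x => ⟨x, Subsingleton.elim _ _⟩,
      fun x => ⟨fun _ => ⟨x, Subsingleton.elim _ _⟩, fun _ => Subsingleton.elim _ _⟩⟩
  have a6 := hadd (perm W) (tw W (muQ p)) zeroRep e 0 hPerm hTw hZ
    ⟨he.1, fun x => ⟨0, Subsingleton.elim _ _⟩,
      fun x => ⟨fun _ => he.2 x, fun _ => Subsingleton.elim _ _⟩⟩
  -- `ψ(perm W) = 0`
  have hcW : (complexConjugation : GQ) ∉ W := by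
    intro hmem
    have e1 := hW.2 _ hmem
    rw [hc p] at e1
    have e2 : ((-1 : (ZMod p)ˣ) : ZMod p) = ((1 : (ZMod p)ˣ) : ZMod p) := by rw [e1]
    rw [Units.val_neg, Units.val_one] at e2
    apply h20
    linear_combination (-1 : ZMod p) * e2
  have n1 := h5 p hp2 S hpS W hW
  have n2 := h6 (ZMod p) h20 GQ W complexConjugation hcc hcW
  have n3 : psi S (perm W : Rep.{0} (ZMod p) GQ) = 0 := by
    unfold psi
    have n2' : (2 : ℤ) * (negDim (complexConjugation : GQ) (perm W : Rep.{0} (ZMod p) GQ) : ℤ)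
        = (W.index : ℤ) := by exact_mod_cast n2
    linarith
  linarith

end EcKey

/-- T2. **the key lemma**: `ψ(P) = 0` for every retract `P` of `perm W`. -/
theorem stmt_ecKey (hL : Stmt_ecLe) (h1 : Stmt_chiAdd) (h2 : Stmt_negAdd) (h5 : Stmt_chiPerm)
    (h6 : Stmt_negPerm) (hc : Stmt_cycConj) : Stmt_ecKey :=
  EcKey.core EcKey.arith2 hL h1 h2 h5 h6 hc

end Fermat.Agent.TW56.EC

end
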