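/-
TEAM TW56 -> S56, block [EC], T1 : the inequality `ψ(P) ≤ 0` for a retract `P` of `Map(Γ, μ_p)`.
-/
import Fermat.Agent.TW56.EC.Interface
import Fermat.Agent.TW56.Loc.EndTw
import Fermat.Agent.TW56.Loc.H0Tw
import Fermat.Agent.TW56.Loc.RkTw
import Fermat.Agent.TW56.Loc.LecAdd
import Fermat.Agent.TW56.Loc.LecKey
import Fermat.Agent.TW56.GW.PTFull

set_option autoImplicit false

noncomputable section

namespace Fermat.Agent.TW56.EC

open Fermat.Agent.CFT Fermat.Agent.CFT.Top Fermat.Agent.CFT.Pos Fermat.Agent.CFT.Local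
  Fermat.Agent.TW56.Loc Module CategoryTheory ExtCitation NumberField

attribute [local instance] Units.mulDistribMulActionRight
attribute [local instance] quotAct
attribute [local instance] addAct
attribute [local instance] funAct

namespace EcLe

/-- the bookkeeping. -/
theorem numerics (p : ℕ) (hp : 1 < p) (h0 h1 h2 t s rc m E : ℕ) (k0 : p ^ h0 ≤ m)
    (k1 : E ≤ p ^ h1) (ku : E * p ^ t = m * p ^ (s + rc)) (k2 : h2 + t = s) :
    (h0 : ℤ) - h1 + h2 + rc ≤ 0 := by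
  have key : p ^ (h0 + (s + rc)) ≤ p ^ (h1 + t) := by
    rw [pow_add, pow_add p h1]
    calc p ^ h0 * p ^ (s + rc) ≤ m * p ^ (s + rc) := Nat.mul_le_mul_right _ k0
      _ = E * p ^ t := ku.symm
      _ ≤ p ^ h1 * p ^ t := Nat.mul_le_mul_right _ k1
  have := (Nat.pow_le_pow_iff_right hp).1 key
  omega

theorem isMu (p : ℕ) [Fact p.Prime] : IsMu (cycloChar p) (muQ p) :=
  ⟨finrank_self (ZMod p), fun _ _ => rfl⟩

/-- T1, with `mapRep (GQ ⧸ W) (muQ p)` instead of `tw W (muQ p)`. -/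
theorem main (ha2 : Top.Stmt_arith2) (hmu : Stmt_muEmbQ) (hk : Stmt_kumS)
    (hU : Stmt_unitFormula) (hF3 : Stmt_h2Formula) (hF4 : Stmt_shaRetract) (hH5 : Stmt_eqHomTw)
    (hH1 : Stmt_rkTranspose) (hH2 : Stmt_rkTop) (hH6 : Stmt_negTw) (hC4 : Stmt_cycConj)
    (p : ℕ) [Fact p.Prime] (hp2 : p ≠ 2) (S : Finset Nat.Primes) (hpS : pPrime p ∈ S)
    (h : CycloTriv p S) (W : Subgroup GQ) [W.Normal] [W.FiniteIndex] (hW : GoodLev p S W)
    (hSha : ∀ x ∈ (qDatum p S h).Sha (permRep (ZMod p) W) 2, x = 0)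
    (P : Rep.{0} (ZMod p) GQ) (i : P ⟶ mapRep (GQ ⧸ W) (muQ p))
    (r : mapRep (GQ ⧸ W) (muQ p) ⟶ P) (hri : ∀ x, r.hom (i.hom x) = x) : psi S P ≤ 0 := by
  have hp : p.Prime := Fact.out
  have hMu := isMu p
  obtain ⟨lam, hPT⟩ := GW.stmt_PTFull p (qDatum p S h) (ha2 p hp2 S hpS h)
  -- the idempotent
  obtain ⟨a, ha, hidem⟩ := stmt_endTw p GQ (cycloChar p) (muQ p) hMu W (r ≫ i)
  have hcomp : ∀ F, (r ≫ i).hom F = i.hom (r.hom F) := fun F => rfl
  have hIdem : IsIdem a := hidem fun F => by rw [hcomp, hcomp, hri]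
  have hir : ∀ F, i.hom (r.hom F) = (rtOp W (muQ p) a).hom F := fun F => by rw [← ha, hcomp]
  obtain ⟨-, eH⟩ := stmt_retract (ZMod p) GQ (levS S) P (mapRep (GQ ⧸ W) (muQ p)) i r
    (rtOp W (muQ p) a) hri (fun x => (hir x).symm)
  -- goodness and finiteness
  have hNfin : Module.Finite (ZMod p) (muQ p) :=
    Module.finite_of_finrank_pos (by rw [hMu.1]; exact one_pos)
  have hN : GoodW W (muQ p) :=
    ⟨hNfin, fun w hw x => by rw [hMu.2, hW.2 w hw, Units.val_one, one_smul]⟩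
  have hTwW : GoodW W (tw W (muQ p)) := goodW_tw le_rfl hN
  have hPW : GoodW W P := LecKey.goodW_retract (X := tw W (muQ p)) i r hri hTwW
  have hTw : Good (levS S) (mapRep (GQ ⧸ W) (muQ p)) := LecKey.good_of_goodW hW.1 hTwW
  have hP : Good (levS S) P := LecKey.good_of_goodW hW.1 hPW
  have hfd : FD (levS S) (mapRep (GQ ⧸ W) (muQ p)) := hPT.ctx.gfd _ hTw
  have card_range : ∀ n ≤ 2, Nat.card (LinearMap.range (HM (levS S) (rtOp W (muQ p) a) n)) =
      p ^ finrank (ZMod p) (Hlc (levS S) P n) := by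
    intro n hn
    have : Module.Finite (ZMod p) (Hlc (levS S) (mapRep (GQ ⧸ W) (muQ p)) n) := hfd n hn
    obtain ⟨e⟩ := eH n
    rw [e.finrank_eq, Module.natCard_eq_pow_finrank (K := ZMod p), Nat.card_zmod]
  -- `h⁰`, `h¹`
  obtain ⟨e, he⟩ := hmu p
  have k0 := stmt_h0Tw GQ Qb (levS S) p (muQ p) e he W a
  have k1 := hk p S hpS W hW.1 a (hfd 1 (by norm_num))
  rw [card_range 0 (by norm_num)] at k0
  rw [card_range 1 (by norm_num)] at k1
  -- the unit theorem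
  have ku := hU p W (levS_subset_levAll S hW.1) a hIdem S
  have ht : (if aug a = 0 then 1 else p) = p ^ rkL a (⊤ : Subgroup (GQ ⧸ W)) := by
    rw [hH2 p (GQ ⧸ W) a]
    split_ifs <;> simp
  rw [ht] at ku
  -- `Ш²(P) = 0`
  obtain ⟨ε, hε⟩ := stmt_twMuPerm (ZMod p) GQ (cycloChar p) (muQ p) hMu W hW.2
  obtain ⟨ε', hε1, hε2⟩ := stmt_inv (ZMod p) GQ _ _ ε hε
  have hShaTw : ∀ x ∈ (qDatum p S h).Sha (tw W (muQ p)) 2, x = 0 :=
    hF4 p (qDatum p S h) (tw W (muQ p)) (perm W) ε' ε hε2 hSha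
  have hShaP : ∀ x ∈ (qDatum p S h).Sha P 2, x = 0 :=
    hF4 p (qDatum p S h) P (tw W (muQ p)) i r hri hShaTw
  -- `h²`
  have k2 := hF3 p (qDatum p S h) lam hPT P hP hShaP
  have hloc : ∀ v : ↥S, finrank (ZMod p) (EqHom (Rep.res (primeLocalToGlobal v.1) P)
      (Rep.res (primeLocalToGlobal v.1) (muQ p))) = rkL a (Dq W v.1) := fun v => by
    rw [← hH1 p (GQ ⧸ W) a]
    exact hH5 p GQ (primeLocalGaloisGroup v.1) (cycloChar p) (muQ p) hMu W
      (primeLocalToGlobal v.1) a P i r hri hir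
  have hsum : ∑ v : (qDatum p S h).ι, finrank (ZMod p)
      (EqHom (Rep.res ((qDatum p S h).φ v) P) (Rep.res ((qDatum p S h).φ v) (qDatum p S h).mu))
      = ∑ q ∈ S, rkL a (Dq W q) := by
    calc _ = ∑ v : ↥S, rkL a (Dq W v.1) := Finset.sum_congr rfl (fun v _ => hloc v)
      _ = _ := Finset.sum_coe_sort S (fun q => rkL a (Dq W q))
  have hglob : finrank (ZMod p) (EqHom P (qDatum p S h).mu) = rkL a (⊤ : Subgroup (GQ ⧸ W)) := by
    have h1 := hH5 p GQ GQ (cycloChar p) (muQ p) hMu W (MonoidHom.id GQ) a P i r hri hir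
    have h2 : imQ W (MonoidHom.id GQ) = ⊤ := by
      unfold imQ
      rw [MonoidHom.range_eq_top.2 (fun x => ⟨x, rfl⟩), ← MonoidHom.range_eq_map,
        QuotientGroup.range_mk']
    rw [h2, hH1 p (GQ ⧸ W) a] at h1
    exact h1
  rw [hsum] at k2
  have k2' : finrank (ZMod p) (Hlc (levS S) P 2) + rkL a (⊤ : Subgroup (GQ ⧸ W))
      = ∑ q ∈ S, rkL a (Dq W q) := by
    rw [← hglob]
    exact k2
  -- `dim P^{c = -1}`
  have kc := hH6 p GQ (cycloChar p) (muQ p) hMu W complexConjugation (hC4 p) a P i r hri hir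
  show ((finrank (ZMod p) (Hlc (levS S) P 0) : ℤ) - finrank (ZMod p) (Hlc (levS S) P 1)
    + finrank (ZMod p) (Hlc (levS S) P 2)) + (negDim (complexConjugation : GQ) P : ℤ) ≤ 0
  rw [kc]
  exact numerics p hp.one_lt _ _ _ _ _ _ _ _ k0 k1 ku k2'

end EcLe

/-- **T1**. -/
theorem stmt_ecLe (ha2 : Top.Stmt_arith2) (hmu : Stmt_muEmbQ) (hk : Stmt_kumS)
    (hU : Stmt_unitFormula) (hF3 : Stmt_h2Formula) (hF4 : Stmt_shaRetract) (hH5 : Stmt_eqHomTw)
    (hH1 : Stmt_rkTranspose) (hH2 : Stmt_rkTop) (hH6 : Stmt_negTw) (hC4 : Stmt_cycConj) :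
    Stmt_ecLe :=
  fun p _ hp2 S hpS h W _ _ hW hSha P i r hri =>
    EcLe.main ha2 hmu hk hU hF3 hF4 hH5 hH1 hH2 hH6 hC4 p hp2 S hpS h W hW hSha P i r hri

end Fermat.Agent.TW56.EC

end

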