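/-
TEAM TW56 -> S56, block [EC], package EC-T3 (helper44): `ψ = 0` on all modules trivial on `W`
(`Stmt_ecW`), and the final statement `Stmt_EC` (the global Euler characteristic formula).
-/
import Fermat.Agent.TW56.EC.Interface
import Fermat.Agent.TW56.GW.PTFull
import Fermat.Agent.CFT.Top.CycloTriv
import Fermat.Agent.CFT.Num.FieldOf
import Fermat.Agent.CFT.Wire.All

set_option autoImplicit false

noncomputable section

namespace Fermat.Agent.TW56.EC

open Fermat.Agent.CFT Fermat.Agent.CFT.Top Fermat.Agent.CFT.Pos Fermat.Agent.CFT.Local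
  Fermat.Agent.TW56.Loc Module CategoryTheory ExtCitation NumberField

attribute [local instance] Units.mulDistribMulActionRight
attribute [local instance] quotAct
attribute [local instance] addAct
attribute [local instance] funAct

namespace EcW

/-- a module which is good for a level is good. -/
lemma good_of_goodW {k : Type} [Field k] {G : Type} [Group G] {𝒰 : LevelSys G} {W : Subgroup G}
    (hW : W ∈ 𝒰.S) {X : Rep.{0} k G} (h : GoodW W X) : Good 𝒰 X :=
  ⟨h.1, W, hW, h.2⟩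

/-- `2 ≠ 0` in `𝔽_p`, `p` odd. -/
lemma two_ne_zero' (p : ℕ) [Fact p.Prime] (hp2 : p ≠ 2) : (2 : ZMod p) ≠ 0 := by
  intro h
  have h2 : ((2 : ℕ) : ZMod p) = 0 := by exact_mod_cast h
  rw [ZMod.natCast_eq_zero_iff] at h2
  exact hp2 ((Nat.prime_dvd_prime_iff_eq Fact.out Nat.prime_two).1 h2)

/-- **all the arithmetic inputs for `qDatum`**, unconditionally (same wiring as `CFT.Wire.s55`). -/
theorem arith2 : Top.Stmt_arith2 :=
  have h : HPG.Stmt_HPfin := HPG.final_hpfin_of_hpp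
    (Wire.hpp_of (Wire.layerNorm_of HNQ.nearDict HNQ.nearInv HNQ.galDict))
  Wire.arith2_of_rest TW.twOrb
    (GR.all_grw (GR.hpnGlue (HPG.final_hpraw2 h) GR.locStd GR.locConj GN.dictA GN.dictD))
    (HPG.final_gn h)

end EcW

/-- T3, with the arithmetic inputs as a hypothesis. -/
theorem stmt_ecW_of_arith2 (ha : Top.Stmt_arith2) (hI : Loc.Stmt_INDproj) (hK : Stmt_ecKey)
    (h1 : Stmt_chiAdd) (h2 : Stmt_negAdd) : Stmt_ecW := by
  intro p _ hp2 S hpS h W _ _ hGood hSha X hX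
  obtain ⟨lam, hPT⟩ := GW.stmt_PTFull p (qDatum p S h) (ha p hp2 S hpS h)
  have hW : W ∈ (levS S).S := hGood.1
  exact hI p GQ W (fun X => psi S X)
    (fun X₁ X₂ X₃ i q g1 g2 g3 hs => by
      have e1 : chi (levS S) X₂ = chi (levS S) X₁ + chi (levS S) X₃ :=
        h1 p (qDatum p S h) lam hPT X₁ X₂ X₃ i q (EcW.good_of_goodW hW g1)
          (EcW.good_of_goodW hW g2) (EcW.good_of_goodW hW g3) hs
      have e2 := h2 (ZMod p) (EcW.two_ne_zero' p hp2) GQ complexConjugation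
        complexConjugation_mul_self X₁ X₂ X₃ i q g2.1 hs
      show psi S X₂ = psi S X₁ + psi S X₃
      unfold psi
      rw [e1, e2]
      push_cast
      ring)
    (fun P i r hir => hK p hp2 S hpS h W hGood hSha P i r hir)
    X hX

/-- T3. `ψ = 0` on all modules trivial on `W`. -/
theorem stmt_ecW (hI : Loc.Stmt_INDproj) (hK : Stmt_ecKey) (h1 : Stmt_chiAdd) (h2 : Stmt_negAdd) :
    Stmt_ecW :=
  stmt_ecW_of_arith2 EcW.arith2 hI hK h1 h2

/-- **EC : the global Euler characteristic formula** (for `S` large enough). -/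
theorem stmt_EC (hW : Stmt_ecW) (hC : Stmt_clGen) (hM : Stmt_mono) (h7 : Stmt_sha2Zero) :
    Stmt_EC := by
  intro p _ hp2 S₀ X hX
  obtain ⟨hfin, U, hU, hUX⟩ := hX
  have hpS₁ : pPrime p ∈ insert (pPrime p) S₀ := Finset.mem_insert_self _ _
  have hc₁ : CycloTriv p (insert (pPrime p) S₀) := stmt_cycloTriv p _ hpS₁
  have hU₁ : U ∈ (levS (insert (pPrime p) S₀)).S :=
    (hM S₀ _ (Finset.subset_insert _ _)).2.1 hU
  obtain ⟨U', hU', hχ⟩ := hc₁
  obtain ⟨W, hW₁, hWU, hWU'⟩ := (levS (insert (pPrime p) S₀)).dir U hU₁ U' hU'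
  obtain ⟨k, hnf, ζ, hkW, hBase, -⟩ := Num.fieldOf p hp2 _ hpS₁ ⟨U', hU', hχ⟩ W
    ⟨⟨W, hW₁, le_rfl⟩, fun w hw => hχ w (hWU' hw)⟩
  obtain ⟨A₀, hA₀⟩ := hC k
  refine ⟨A₀, fun S hS₀ hA hpS => ?_⟩
  have hS₁ : insert (pPrime p) S₀ ⊆ S := Finset.insert_subset hpS hS₀
  obtain ⟨-, hlev, hbase⟩ := hM _ S hS₁
  have hWS : W ∈ (levS S).S := hlev hW₁
  have hc : CycloTriv p S := stmt_cycloTriv p S hpS
  have := (levS S).normal W hWS
  have := (levS S).fin W hWS
  have hSha : ∀ x ∈ (qDatum p S hc).Sha (permRep (ZMod p) W) 2, x = 0 := by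
    subst hkW
    exact h7 p hp2 S hc k ζ (hbase p k ζ hBase) ⟨_, hWS, le_rfl⟩ (hA₀ S hA p)
  have key : psi S X = 0 := hW p hp2 S hpS hc W ⟨hWS, fun w hw => hχ w (hWU' hw)⟩ hSha X
    ⟨hfin, fun w hw x => hUX w (hWU hw) x⟩
  unfold psi at key
  linarith

end Fermat.Agent.TW56.EC

end
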