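/-
TEAM TW56 -> S56, block [EC] (architect helper56), task EC-H5 (helper77):
`dim Hom_{G'}(P, N) = rkT a (image of G' in G/W)` for the retract `P = e (tw W N)` (`Stmt_eqHomTw`).

`T ν = (x ↦ ψ (ν (r (δ_x n₀))))` (`ψ : N ≃ 𝔽_p`, `ψ n₀ = 1`) is injective on `Hom(P, N)` and maps
`Hom_{G'}(P, N)` onto `regOpT a (invL p D)`.
-/
import Fermat.Agent.TW56.EC.Interface

set_option autoImplicit false
set_option linter.unusedSectionVars false

noncomputable section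

namespace Fermat.Agent.TW56.EC

open Fermat.Agent.CFT Fermat.Agent.CFT.Top Fermat.Agent.CFT.Pos Fermat.Agent.CFT.Local
  Fermat.Agent.TW56.Loc Module CategoryTheory ExtCitation NumberField

attribute [local instance] Units.mulDistribMulActionRight
attribute [local instance] quotAct
attribute [local instance] addAct
attribute [local instance] funAct

namespace EqHomTw

section Abs

variable {p : ℕ} [Fact p.Prime] {Γ : Type} [Group Γ] [Fintype Γ] [DecidableEq Γ]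
  {N P : Type} [AddCommGroup N] [Module (ZMod p) N] [AddCommGroup P] [Module (ZMod p) P]

lemma regOpT_apply' (a ℓ : Γ → ZMod p) (x : Γ) :
    regOpT a ℓ x = ∑ c, a (c⁻¹ * x) * ℓ c := by
  show ∑ᶠ γ : Γ, a γ⁻¹ * ℓ (x * γ) = _
  rw [finsum_eq_sum_of_fintype]
  refine Fintype.sum_equiv (Equiv.mulLeft x) _ _ fun γ => ?_
  simp

/-- `F ↦ ∑_x ℓ(x) F(x)`. -/
def lam (ℓ : Γ → ZMod p) : (Γ → N) →ₗ[ZMod p] N := ∑ x, ℓ x • LinearMap.proj x

lemma lam_apply (ℓ : Γ → ZMod p) (F : Γ → N) : lam ℓ F = ∑ x, ℓ x • F x := by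
  simp [lam, LinearMap.sum_apply]

/-- `ν ↦ (x ↦ ψ (ν (r (δ_x n₀))))`. -/
def T (ψ : N ≃ₗ[ZMod p] ZMod p) (r : (Γ → N) →ₗ[ZMod p] P) :
    (P →ₗ[ZMod p] N) →ₗ[ZMod p] (Γ → ZMod p) :=
  LinearMap.pi fun x => ψ.toLinearMap ∘ₗ LinearMap.applyₗ (r (Pi.single x (ψ.symm 1)))

lemma T_apply (ψ : N ≃ₗ[ZMod p] ZMod p) (r : (Γ → N) →ₗ[ZMod p] P) (ν : P →ₗ[ZMod p] N) (x : Γ) :
    T ψ r ν x = ψ (ν (r (Pi.single x (ψ.symm 1)))) := rfl

lemma expand (ψ : N ≃ₗ[ZMod p] ZMod p) (F : Γ → N) :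
    F = ∑ c, ψ (F c) • (Pi.single c (ψ.symm 1) : Γ → N) := by
  conv_lhs => rw [← Finset.univ_sum_single F]
  refine Finset.sum_congr rfl fun c _ => ?_
  rw [← Pi.single_smul, ← map_smul, smul_eq_mul, mul_one, LinearEquiv.symm_apply_apply]

lemma comp_apply_eq (ψ : N ≃ₗ[ZMod p] ZMod p) (r : (Γ → N) →ₗ[ZMod p] P) (ν : P →ₗ[ZMod p] N)
    (F : Γ → N) : ψ (ν (r F)) = ∑ c, ψ (F c) * T ψ r ν c := by
  conv_lhs => rw [expand ψ F]
  simp only [map_sum, map_smul, smul_eq_mul, T_apply]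

lemma T_injective (ψ : N ≃ₗ[ZMod p] ZMod p) (i : P →ₗ[ZMod p] (Γ → N))
    (r : (Γ → N) →ₗ[ZMod p] P) (h1 : ∀ x, r (i x) = x) : Function.Injective (T ψ r) := by
  rw [← LinearMap.ker_eq_bot, LinearMap.ker_eq_bot']
  intro ν hν
  ext y
  apply ψ.injective
  rw [← h1 y, comp_apply_eq, hν]
  simp

lemma E_single (a : Γ → ZMod p) (x c : Γ) (n : N) :
    ∑ γ, a γ • (Pi.single x n : Γ → N) (c * γ) = a (c⁻¹ * x) • n := by
  rw [Finset.sum_eq_single (c⁻¹ * x)]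
  · simp
  · intro γ _ hγ
    rw [Pi.single_eq_of_ne, smul_zero]
    intro h
    apply hγ
    rw [← h]
    simp
  · intro h
    exact absurd (Finset.mem_univ _) h

theorem abs_finrank (ψ : N ≃ₗ[ZMod p] ZMod p) (a : Γ → ZMod p) (i : P →ₗ[ZMod p] (Γ → N))
    (r : (Γ → N) →ₗ[ZMod p] P) (h1 : ∀ x, r (i x) = x)
    (h2 : ∀ F c, i (r F) c = ∑ γ, a γ • F (c * γ))
    (D : Subgroup Γ) (H : Submodule (ZMod p) (P →ₗ[ZMod p] N))
    (hH1 : ∀ ν ∈ H, ∀ d ∈ D, ∀ x n, ν (r (Pi.single (d * x) n)) = ν (r (Pi.single x n)))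
    (hH2 : ∀ ℓ : Γ → ZMod p, (∀ d ∈ D, ∀ x, ℓ (d * x) = ℓ x) → (lam ℓ) ∘ₗ i ∈ H) :
    finrank (ZMod p) H = rkT a D := by
  have hinj := T_injective ψ i r h1
  rw [(Submodule.equivMapOfInjective (T ψ r) hinj H).finrank_eq, rkT]
  suffices e : H.map (T ψ r) = (invL p D).map (regOpT a) by rw [e]
  ext ℓ
  constructor
  · rintro ⟨ν, hν, rfl⟩
    refine ⟨T ψ r ν, ?_, ?_⟩
    · intro d hd x
      rw [T_apply, T_apply, hH1 ν hν d hd]
    · funext x
      rw [regOpT_apply']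
      conv_rhs => rw [T_apply, ← h1 (r _), comp_apply_eq]
      refine Finset.sum_congr rfl fun c _ => ?_
      rw [h2, E_single, map_smul, LinearEquiv.apply_symm_apply, smul_eq_mul, mul_one]
  · rintro ⟨ℓ₀, hℓ₀, rfl⟩
    refine ⟨lam ℓ₀ ∘ₗ i, hH2 ℓ₀ hℓ₀, ?_⟩
    funext x
    rw [regOpT_apply', T_apply, LinearMap.comp_apply, lam_apply, map_sum]
    refine Finset.sum_congr rfl fun c _ => ?_
    rw [h2, E_single, map_smul, map_smul, LinearEquiv.apply_symm_apply, smul_eq_mul, smul_eq_mul,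
      mul_one, mul_comm]

end Abs

lemma smul_eq_mk_mul {G : Type} [Group G] (W : Subgroup G) [W.Normal] (g : G) (c : G ⧸ W) :
    g • c = (g : G ⧸ W) * c := by
  induction c using QuotientGroup.induction_on
  rfl

end EqHomTw

open EqHomTw in
/-- EC-H5. -/
theorem stmt_eqHomTw : Stmt_eqHomTw := by
  intro p _ G G' _ _ χ N hN W _ _ φ a P i r h1 h2
  classical
  cases nonempty_fintype (G ⧸ W)
  have hfin : Module.Finite (ZMod p) N := Module.finite_of_finrank_pos (by rw [hN.1]; exact one_pos)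
  let ψ : N ≃ₗ[ZMod p] ZMod p := LinearEquiv.ofFinrankEq _ _ (by rw [hN.1, finrank_self])
  refine abs_finrank (N := N) (P := P) ψ a i.hom.toLinearMap r.hom.toLinearMap h1 ?_ (imQ W φ)
    (EqHom (Rep.res φ P) (Rep.res φ N)) ?_ ?_
  · intro F c
    have := congrFun (h2 F) c
    rw [rtOp_apply, finsum_eq_sum_of_fintype] at this
    exact this
  · rintro ν hν _ ⟨_, ⟨g', rfl⟩, rfl⟩ x n
    have e1 : (tw W N).ρ (φ g') (Pi.single x n) = Pi.single ((φ g' : G ⧸ W) * x) (N.ρ (φ g') n) := by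
      funext c
      rw [tw_ρ_apply, smul_eq_mk_mul]
      by_cases hc : c = (φ g' : G ⧸ W) * x
      · subst hc
        simp
      · rw [Pi.single_eq_of_ne hc, Pi.single_eq_of_ne, map_zero]
        intro h
        apply hc
        rw [← h]
        simp
    have e2 := Rep.hom_comm_apply r (φ g') (Pi.single x n)
    have e3 : ν (P.ρ (φ g') (r.hom (Pi.single x n))) = N.ρ (φ g') (ν (r.hom (Pi.single x n))) :=
      hν g' (r.hom (Pi.single x n))
    rw [← e2, e1, hN.2, hN.2, Pi.single_smul, map_smul, map_smul] at e3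
    have hu : ((χ (φ g') : (ZMod p)ˣ) : ZMod p) ≠ 0 := Units.ne_zero _
    exact smul_right_injective _ hu e3
  · intro ℓ hℓ g' y
    show lam ℓ (i.hom (P.ρ (φ g') y)) = N.ρ (φ g') (lam ℓ (i.hom y))
    rw [Rep.hom_comm_apply i (φ g') y, lam_apply, lam_apply, map_sum]
    refine (Fintype.sum_equiv (Equiv.mulLeft (φ g' : G ⧸ W)) _ _ fun c => ?_).symm
    have hd : ((φ g' : G) : G ⧸ W) ∈ imQ W φ := ⟨_, ⟨g', rfl⟩, rfl⟩
    rw [tw_ρ_apply, smul_eq_mk_mul, map_smul, Equiv.coe_mulLeft]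
    show _ = ℓ ((φ g' : G ⧸ W) * c) • N.ρ (φ g') (i.hom y (((φ g')⁻¹ : G) * ((φ g' : G ⧸ W) * c)))
    rw [hℓ _ hd, QuotientGroup.mk_inv, inv_mul_cancel_left]

end Fermat.Agent.TW56.EC
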