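/-
TEAM TW56 -> S56, block EC, task EC-K3 (helper76): `# e H¹(G_S, Map(Γ, μ_p)) ≥ # e(U_S(L)/p)`.
`stmt_kumS : Stmt_muEmbQ → Stmt_suBasic → Stmt_kumS`  (global twin of `Loc/KumTw.lean`).
-/
import Fermat.Agent.TW56.EC.Interface
import Fermat.Agent.TW56.Loc.KumNat
import Fermat.Agent.TW56.Loc.KumTw

set_option autoImplicit false

noncomputable section

namespace Fermat.Agent.TW56.EC

open Fermat.Agent.CFT Fermat.Agent.CFT.Top Fermat.Agent.CFT.Pos Fermat.Agent.CFT.Local
  Fermat.Agent.TW56.Loc Module CategoryTheory ExtCitation NumberField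

attribute [local instance] Units.mulDistribMulActionRight
attribute [local instance] quotAct
attribute [local instance] addAct
attribute [local instance] funAct

namespace KumS

/-- the counting argument, relative form. -/
lemma card_le_rel {X H : Type} [AddCommGroup X] [AddCommGroup H] (A : AddSubgroup X) (φ : A →+ H)
    (C : AddSubgroup X) (hCA : C ≤ A) (hC : ∀ x : A, φ x = 0 ↔ x.1 ∈ C) (E : X →+ X)
    (hE : ∀ x ∈ A, E x ∈ A) (R : AddSubgroup H) [Finite R]
    (hR : ∀ x : A, φ ⟨E x.1, hE x.1 x.2⟩ ∈ R) :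
    C.relIndex (C ⊔ A.map E) ≤ Nat.card R := by
  have hKA : C ⊔ A.map E ≤ A := by
    refine sup_le hCA ?_
    rintro _ ⟨x, hx, rfl⟩
    exact hE x hx
  have hk : C.addSubgroupOf (C ⊔ A.map E) = (φ.comp (AddSubgroup.inclusion hKA)).ker := by
    ext x
    rw [AddMonoidHom.mem_ker, AddMonoidHom.comp_apply, hC, AddSubgroup.mem_addSubgroupOf]
    rfl
  rw [AddSubgroup.relIndex, hk, AddSubgroup.index_ker]
  have hle : (φ.comp (AddSubgroup.inclusion hKA)).range ≤ R := by
    rintro _ ⟨⟨x, hx⟩, rfl⟩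
    rw [AddMonoidHom.comp_apply]
    obtain ⟨y, hy, z, ⟨w, hw, rfl⟩, rfl⟩ := AddSubgroup.mem_sup.1 hx
    have e : AddSubgroup.inclusion hKA ⟨y + E w, hx⟩
        = (⟨y, hCA hy⟩ : A) + ⟨E w, hE w hw⟩ := rfl
    rw [e, map_add, (hC ⟨y, hCA hy⟩).2 hy, zero_add]
    exact hR ⟨w, hw⟩
  exact Nat.card_le_card_of_injective (AddSubgroup.inclusion hle)
    (AddSubgroup.inclusion_injective hle)

lemma hom_smul {p : ℕ} [NeZero p] {N Y : Type} [AddCommGroup N] [Module (ZMod p) N]
    [AddCommGroup Y] (f : N →+ Y) (t : ZMod p) (n : N) : f (t • n) = (t.val : ℤ) • f n := by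
  conv_lhs => rw [← ZMod.natCast_zmod_val t, Nat.cast_smul_eq_nsmul, map_nsmul]
  rw [natCast_zsmul]

section

variable (S : Finset Nat.Primes) (W : Subgroup GQ) [W.Normal]

/-- the third clause of `Stmt_suBasic`. -/
def HSU : Prop := ∀ u ∈ US S W, ∀ θ : Qbˣ, (θ : Qb) = u.val → θ ∈ SU S

/-- the inclusion of the `S`-units of `ℚ_S` into `ℚ̄ˣ`, additively. -/
def vS : suRep S →+ unitsRep GQ Qb :=
  (MonoidHom.toAdditive (SU S).subtype : Additive (SU S) →+ Additive Qbˣ)

lemma vS_injective : Function.Injective (vS S) := fun (_ _ : Additive (SU S)) h =>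
  congrArg Additive.ofMul (Subtype.ext (congrArg Additive.toMul h))

variable {S W}

lemma incl_mem (hSU : HSU S W) {u : XL W} (hu : u ∈ US S W) (c : GQ ⧸ W) :
    KumTw.incl W (c • Additive.toMul u) ∈ SU S := by
  induction c using QuotientGroup.induction_on with
  | H g =>
    rw [KumTw.incl_smul]
    exact smul_mem_SU S g (hSU u hu _ rfl)

lemma stab (hSU : HSU S W) : Stab (GQ ⧸ W) (US S W) := by
  intro c u hu q hq
  have h := ((incl_mem hSU hu c) 1).2 q hq
  rw [one_smul] at h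
  exact h

lemma opZ_mem (hSU : HSU S W) [W.FiniteIndex] {p : ℕ} (a : GQ ⧸ W → ZMod p) (u : XL W)
    (hu : u ∈ US S W) : opZ a u ∈ US S W := by
  cases nonempty_fintype (GQ ⧸ W)
  rw [opZ_apply, finsum_eq_sum_of_fintype]
  exact AddSubgroup.sum_mem _ fun γ _ => AddSubgroup.nsmul_mem _ (stab hSU γ u hu) _

/-- `u ↦ (c ↦ c u)`. -/
def iotaFun (hSU : HSU S W) : ↥(US S W) →+ (GQ ⧸ W → suRep S) where
  toFun u c := (Additive.ofMul
    (⟨KumTw.incl W (c • Additive.toMul u.1), incl_mem hSU u.2 c⟩ : SU S) : Additive (SU S))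
  map_zero' := by
    funext c
    refine congrArg Additive.ofMul (Subtype.ext ?_)
    show KumTw.incl W (c • (1 : (FixedPoints.subfield W Qb)ˣ)) = 1
    rw [smul_one, map_one]
  map_add' u v := by
    funext c
    refine congrArg Additive.ofMul (Subtype.ext ?_)
    show KumTw.incl W (c • (Additive.toMul u.1 * Additive.toMul v.1)) =
      KumTw.incl W (c • Additive.toMul u.1) * KumTw.incl W (c • Additive.toMul v.1)
    rw [smul_mul', map_mul]

lemma vS_iotaFun (hSU : HSU S W) (u : ↥(US S W)) (c : GQ ⧸ W) :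
    vS S (iotaFun hSU u c) = KumTw.iotaFun W u.1 c := rfl

lemma iotaFun_inv (hSU : HSU S W) (u : ↥(US S W)) (g : GQ) :
    (mapRep (GQ ⧸ W) (suRep S)).ρ g (iotaFun hSU u) = iotaFun hSU u := by
  funext c
  apply vS_injective S
  rw [vS_iotaFun]
  exact congrFun (KumTw.iotaFun_inv W u.1 g) c

/-- `ι : U_S(L) → M^G`. -/
def iota (hSU : HSU S W) : ↥(US S W) →+ ↥(invAdd (mapRep (GQ ⧸ W) (suRep S))) :=
  (iotaFun hSU).codRestrict _ fun x g => iotaFun_inv hSU x g

lemma iota_val (hSU : HSU S W) (x : ↥(US S W)) : (iota hSU x).1 = iotaFun hSU x := rfl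

lemma one_fixed (m : ↥(invAdd (mapRep (GQ ⧸ W) (suRep S)))) (w : GQ) (hw : w ∈ W) :
    w • Additive.toMul ((show GQ ⧸ W → Additive (SU S) from m.1) 1) =
      Additive.toMul ((show GQ ⧸ W → Additive (SU S) from m.1) 1) := by
  have h1 := congrFun (m.2 w) 1
  have h2 : w⁻¹ • (1 : GQ ⧸ W) = 1 := by
    show ((w⁻¹ * 1 : GQ) : GQ ⧸ W) = ((1 : GQ) : GQ ⧸ W)
    rw [QuotientGroup.eq]
    simpa using hw
  rw [mapRep_ρ_apply, h2] at h1
  exact congrArg Additive.toMul h1

lemma iota_div (hSU : HSU S W) (p : ℕ) (x : ↥(US S W)) :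
    (∃ m' : ↥(invAdd (mapRep (GQ ⧸ W) (suRep S))), p • m' = iota hSU x) ↔
      x.1 ∈ pS p (US S W) := by
  constructor
  · rintro ⟨m', hm'⟩
    set y : SU S := Additive.toMul ((show GQ ⧸ W → Additive (SU S) from m'.1) 1) with hy
    have hfix : ∀ w : W, w • ((y : Qbˣ) : Qb) = ((y : Qbˣ) : Qb) := fun w =>
      congrArg (fun u : SU S => ((u : Qbˣ) : Qb)) (one_fixed m' w.1 w.2)
    let y0 : FixedPoints.subfield W Qb := ⟨((y : Qbˣ) : Qb), hfix⟩
    have hy0 : y0 ≠ 0 := fun h => (y : Qbˣ).ne_zero (congrArg Subtype.val h)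
    have hi : KumTw.incl W (Units.mk0 y0 hy0) = (y : Qbˣ) := Units.ext rfl
    refine ⟨Additive.ofMul (Units.mk0 y0 hy0), ?_, ?_⟩
    · intro q hq
      have h := (y.2 1).2 q hq
      rw [one_smul] at h
      exact h
    · have h1 : (p • m').1 = iotaFun hSU x := by rw [hm', iota_val]
      have h2 := congrArg (vS S) (congrFun h1 1)
      rw [vS_iotaFun, KumTw.iotaFun_apply, one_smul] at h2
      have h3 : (y : Qbˣ) ^ p = KumTw.incl W (Additive.toMul x.1) := congrArg Additive.toMul h2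
      rw [← hi, ← map_pow] at h3
      exact congrArg Additive.ofMul (KumTw.incl_injective W h3)
  · rintro ⟨x', hx', hxx⟩
    refine ⟨iota hSU ⟨x', hx'⟩, ?_⟩
    rw [← map_nsmul]
    exact congrArg _ (Subtype.ext hxx)

lemma iota_opZ (hSU : HSU S W) {p : ℕ} [W.FiniteIndex] (a : GQ ⧸ W → ZMod p) (x : ↥(US S W)) :
    rtLin W (suRep S) (fun γ => ((a γ).val : ℤ)) (iotaFun hSU x)
      = iotaFun hSU ⟨opZ a x.1, opZ_mem hSU a x.1 x.2⟩ := by
  funext c
  apply vS_injective S
  rw [vS_iotaFun, ← KumTw.iota_opZ, rtLin_apply, rtLin_apply, map_finsum (vS S) (Set.toFinite _)]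
  refine finsum_congr fun γ => ?_
  exact map_zsmul (vS S) _ _

/-- `μ_p → ` the `S`-units of `ℚ_S`. -/
def eS {p : ℕ} [Fact p.Prime] (e : muQ p →+ Additive Qbˣ) (he : ∀ n, (e n).toMul ∈ SU S) :
    muQ p →+ suRep S where
  toFun n := (Additive.ofMul (⟨(e n).toMul, he n⟩ : SU S) : Additive (SU S))
  map_zero' := by
    refine congrArg Additive.ofMul (Subtype.ext ?_)
    show (e 0).toMul = 1
    rw [map_zero]
    rfl
  map_add' m n := by
    refine congrArg Additive.ofMul (Subtype.ext ?_)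
    show (e (m + n)).toMul = (e m).toMul * (e n).toMul
    rw [map_add]
    rfl

lemma vS_eS {p : ℕ} [Fact p.Prime] (e : muQ p →+ Additive Qbˣ) (he : ∀ n, (e n).toMul ∈ SU S)
    (n : muQ p) : vS S (eS e he n) = e n := rfl

variable (W) in
/-- `j = e ∘ -`. -/
def jHom {p : ℕ} [Fact p.Prime] (f : muQ p →+ suRep S) :
    (mapRep (GQ ⧸ W) (muQ p)) →+ (mapRep (GQ ⧸ W) (suRep S)) where
  toFun F := fun c => f ((show GQ ⧸ W → muQ p from F) c)
  map_zero' := by
    funext c
    exact map_zero f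
  map_add' F F' := by
    funext c
    exact map_add f _ _

end

end KumS

open KumS in
theorem stmt_kumS (h1 : Stmt_muEmbQ) (h2 : Stmt_suBasic) : Stmt_kumS := by
  intro p _ S hpS W _ _ hW a hfin
  have hpp : p.Prime := Fact.out
  obtain ⟨e, he1, he2, he3⟩ := h1 p
  obtain ⟨hroot, hdisc0, hSU0⟩ := h2 p S hpp ⟨pPrime p, hpS, rfl⟩
  have hSU : HSU S W := hSU0 W hW
  have hp0 : ∀ n : muQ p, p • n = 0 := fun n => by
    rw [← Nat.cast_smul_eq_nsmul (ZMod p), ZMod.natCast_self, zero_smul]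
  have he : ∀ n, (e n).toMul ∈ SU S := by
    intro n
    refine hroot 1 (one_mem _) _ ?_
    have h := congrArg e (hp0 n)
    rw [map_nsmul, map_zero] at h
    exact congrArg Additive.toMul h
  have hsurj0 : ∀ m : suRep S, ∃ m' : suRep S, p • m' = m := by
    intro m
    obtain ⟨w, hw⟩ := IsAlgClosed.exists_pow_nat_eq
      (((Additive.toMul (m : Additive (SU S)) : SU S) : Qbˣ) : Qb) hpp.pos
    have hw0 : w ≠ 0 := by
      rintro rfl
      rw [zero_pow hpp.ne_zero] at hw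
      exact ((Additive.toMul (m : Additive (SU S)) : SU S) : Qbˣ).ne_zero hw.symm
    have ht : (Units.mk0 w hw0) ^ p = ((Additive.toMul (m : Additive (SU S)) : SU S) : Qbˣ) :=
      Units.ext hw
    refine ⟨(Additive.ofMul (⟨Units.mk0 w hw0, hroot _ (Additive.toMul (m : Additive (SU S))).2 _ ht⟩ :
      SU S) : Additive (SU S)), ?_⟩
    exact congrArg Additive.ofMul (Subtype.ext ht)
  have htors0 : ∀ m : suRep S, p • m = 0 ↔ ∃ t, eS e he t = m := by
    intro m
    constructor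
    · intro hm
      obtain ⟨n, hn⟩ := he3 ((Additive.toMul (m : Additive (SU S)) : SU S) : Qbˣ)
        (congrArg (fun x : Additive (SU S) => ((Additive.toMul x : SU S) : Qbˣ)) hm)
      exact ⟨n, vS_injective S hn⟩
    · rintro ⟨t, rfl⟩
      rw [← map_nsmul, hp0, map_zero]
  have hdisc : IsDisc (levS S) (mapRep (GQ ⧸ W) (suRep S)) :=
    toolShDisc_mapRep hdisc0 _ (toolShDisc_stab (levS S) W hW)
  have hsurj : ∀ m : mapRep (GQ ⧸ W) (suRep S),
      ∃ m' : mapRep (GQ ⧸ W) (suRep S), p • m' = m := by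
    intro m
    choose f hf using fun c => hsurj0 ((show GQ ⧸ W → suRep S from m) c)
    exact ⟨f, funext hf⟩
  have hinj : Function.Injective (jHom W (eS e he)) := by
    intro F F' hFF
    funext c
    exact he1 (congrArg (vS S) (congrFun hFF c))
  have heq : ∀ (g : GQ) (t : mapRep (GQ ⧸ W) (muQ p)),
      jHom W (eS e he) ((mapRep (GQ ⧸ W) (muQ p)).ρ g t) =
        (mapRep (GQ ⧸ W) (suRep S)).ρ g (jHom W (eS e he) t) := by
    intro g t
    funext c
    apply vS_injective S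
    exact he2 g _
  have htors : ∀ m : mapRep (GQ ⧸ W) (suRep S), p • m = 0 ↔ ∃ t, jHom W (eS e he) t = m := by
    intro m
    constructor
    · intro hm
      choose f hf using fun c => (htors0 ((show GQ ⧸ W → suRep S from m) c)).1 (congrFun hm c)
      exact ⟨f, funext hf⟩
    · rintro ⟨t, rfl⟩
      funext c
      exact (htors0 _).2 ⟨_, rfl⟩
  obtain ⟨κ, hκ1, hκ2⟩ := stmt_kumNat p GQ (levS S) (mapRep (GQ ⧸ W) (suRep S))
    (mapRep (GQ ⧸ W) (muQ p)) (jHom W (eS e he)) hdisc hsurj hinj heq htors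
  have hjE : ∀ t : mapRep (GQ ⧸ W) (muQ p), jHom W (eS e he) ((rtOp W (muQ p) a).hom t) =
      (rtLin W (suRep S) (fun γ => ((a γ).val : ℤ))).toAddMonoidHom (jHom W (eS e he) t) := by
    intro t
    funext c
    show eS e he (∑ᶠ γ : GQ ⧸ W, a γ • (show GQ ⧸ W → muQ p from t) (c * γ)) =
      ∑ᶠ γ : GQ ⧸ W, ((a γ).val : ℤ) • (eS e he ((show GQ ⧸ W → muQ p from t) (c * γ)) : suRep S)
    rw [map_finsum (eS e he) (Set.toFinite _)]
    refine finsum_congr fun γ => ?_
    exact hom_smul (eS e he) (a γ) _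
  have key := hκ2 (rtOp W (muQ p) a) (rtLin W (suRep S) (fun γ => ((a γ).val : ℤ))).toAddMonoidHom
    (fun g m => rtLin_comm W (suRep S) _ g m) hjE
  have hF : Finite (Hlc (levS S) (mapRep (GQ ⧸ W) (muQ p)) 1) := Module.finite_of_finite (ZMod p)
  have hF' : Finite (LinearMap.range (HM (levS S) (rtOp W (muQ p) a) 1)).toAddSubgroup :=
    Subtype.finite
  refine card_le_rel (US S W) (κ.comp (iota hSU)) _ ?_ (fun x => ?_) (opZ a)
    (fun x hx => opZ_mem hSU a x hx)
    (LinearMap.range (HM (levS S) (rtOp W (muQ p) a) 1)).toAddSubgroup (fun x => ?_)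
  · rintro _ ⟨x, hx, rfl⟩
    exact AddSubgroup.nsmul_mem _ hx p
  · rw [AddMonoidHom.comp_apply, hκ1, iota_div]
  · refine ⟨κ (iota hSU x), ?_⟩
    rw [key, AddMonoidHom.comp_apply]
    congr 1
    exact Subtype.ext (iota_opZ hSU a x)

end Fermat.Agent.TW56.EC

end
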