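/-
TEAM TW56 -> S56, block [EC] (architect helper56).  H2 (`rkL a ⊤`) and H4 (the constants).
-/
import Fermat.Agent.TW56.EC.Interface
import Fermat.Agent.TW56.Loc.EMul

set_option autoImplicit false
set_option linter.unusedSectionVars false

noncomputable section

namespace Fermat.Agent.TW56.EC

open Fermat.Agent.CFT Fermat.Agent.CFT.Top Fermat.Agent.CFT.Pos Fermat.Agent.CFT.Local
  Fermat.Agent.TW56.Loc Module CategoryTheory ExtCitation NumberField

attribute [local instance] Units.mulDistribMulActionRight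
attribute [local instance] quotAct
attribute [local instance] addAct
attribute [local instance] funAct

namespace LatConst

variable {p : ℕ} [Fact p.Prime] {Γ : Type} [Group Γ] [Finite Γ]

lemma regOp_const (a : Γ → ZMod p) (t : ZMod p) :
    regOp a (fun _ => t) = fun _ => aug a * t := by
  funext c
  show ∑ᶠ γ : Γ, a γ * t = aug a * t
  rw [aug, finsum_mul' _ _ (Set.toFinite _)]

/-- `s = ∑ (a γ).val`. -/
def sN (a : Γ → ZMod p) : ℕ := ∑ᶠ γ : Γ, (a γ).val

lemma sN_cast (a : Γ → ZMod p) : ((sN a : ℕ) : ZMod p) = aug a := by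
  cases nonempty_fintype Γ
  rw [sN, aug, finsum_eq_sum_of_fintype, finsum_eq_sum_of_fintype, Nat.cast_sum]
  exact Finset.sum_congr rfl fun γ _ => ZMod.natCast_zmod_val (a γ)

lemma opZ_const (a : Γ → ZMod p) (n : ℤ) :
    opZ a (fun _ : Γ => n) = fun _ => (sN a : ℤ) * n := by
  cases nonempty_fintype Γ
  rw [opZ_apply, finsum_eq_sum_of_fintype]
  have h : ∀ γ : Γ, γ • (fun _ : Γ => n) = fun _ : Γ => n := fun γ => rfl
  simp only [h]
  rw [← Finset.sum_smul, sN, finsum_eq_sum_of_fintype]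
  funext x
  simp

lemma stab_latV (D : Subgroup Γ) : Stab Γ (latV D) := by
  intro γ m hm d hd x
  show m (γ⁻¹ * (x * d)) = m (γ⁻¹ * x)
  rw [← mul_assoc]
  exact hm d hd _

lemma const_mem_latV (D : Subgroup Γ) (n : ℤ) : (fun _ : Γ => n) ∈ latV D := fun _ _ _ => rfl

lemma mem_pS' {A : AddSubgroup (Γ → ℤ)} {x : Γ → ℤ} : x ∈ pS p A ↔ ∃ y ∈ A, p • y = x := by
  simp only [AddSubgroup.mem_map, nsmulAddMonoidHom_apply]

lemma opZ_mem_pS (a : Γ → ZMod p) (D : Subgroup Γ) {c : Γ → ℤ} (hc : c ∈ pS p (latV D)) :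
    opZ a c ∈ pS p (latV D) := by
  obtain ⟨m, hm, rfl⟩ := mem_pS'.1 hc
  rw [map_nsmul]
  exact mem_pS'.2 ⟨_, (stmt_opZ p Γ (Γ → ℤ) a (latV D) (stab_latV D)).1 m hm, rfl⟩

/-- evaluation at `1` modulo `p`. -/
def ev (p : ℕ) (Γ : Type) [Group Γ] : (Γ → ℤ) →+ ZMod p where
  toFun m := (m 1 : ZMod p)
  map_zero' := by simp
  map_add' m m' := by simp

lemma ev_apply (m : Γ → ℤ) : ev p Γ m = (m 1 : ZMod p) := rfl

lemma ev_pS (D : Subgroup Γ) {c : Γ → ℤ} (hc : c ∈ pS p (latV D)) : ev p Γ c = 0 := by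
  obtain ⟨m, -, rfl⟩ := mem_pS'.1 hc
  rw [map_nsmul]
  simp

/-- the description of `T = C + e (latC + C)`. -/
lemma mem_T (a : Γ → ZMod p) (D : Subgroup Γ) (m : Γ → ℤ) :
    m ∈ pS p (latV D) ⊔ (latC Γ ⊔ pS p (latV D)).map (opZ a) ↔
      ∃ c ∈ pS p (latV D), ∃ n : ℤ, m = c + fun _ => (sN a : ℤ) * n := by
  constructor
  · intro hm
    obtain ⟨c, hc, y, hy, rfl⟩ := AddSubgroup.mem_sup.1 hm
    obtain ⟨z, hz, rfl⟩ := AddSubgroup.mem_map.1 hy
    obtain ⟨l, ⟨n, hn⟩, c', hc', rfl⟩ := AddSubgroup.mem_sup.1 hz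
    have hl : l = fun _ => n := funext hn
    refine ⟨c + opZ a c', add_mem hc (opZ_mem_pS a D hc'), n, ?_⟩
    rw [map_add, hl, opZ_const]
    abel
  · rintro ⟨c, hc, n, rfl⟩
    refine AddSubgroup.mem_sup.2 ⟨c, hc, _, AddSubgroup.mem_map.2 ⟨fun _ => n, ?_, opZ_const a n⟩,
      rfl⟩
    exact (le_sup_left : latC Γ ≤ latC Γ ⊔ pS p (latV D)) ⟨n, fun _ => rfl⟩

end LatConst

open LatConst

theorem stmt_rkTop : Stmt_rkTop := by
  intro p _ Γ _ _ a
  have key : (invL p (⊤ : Subgroup Γ)).map (regOp a) =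
      Submodule.span (ZMod p) {(fun _ : Γ => aug a)} := by
    ext G
    rw [Submodule.mem_map, Submodule.mem_span_singleton]
    constructor
    · rintro ⟨F, hF, rfl⟩
      have hc : F = fun _ => F 1 := by
        funext x
        have := hF x (Subgroup.mem_top x) 1
        rwa [mul_one] at this
      refine ⟨F 1, ?_⟩
      rw [hc, regOp_const]
      funext x
      simp [mul_comm]
    · rintro ⟨t, rfl⟩
      refine ⟨fun _ => t, fun _ _ _ => rfl, ?_⟩
      rw [regOp_const]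
      funext x
      simp [mul_comm]
  rw [rkL, key]
  split_ifs with h
  · rw [h]
    have : (fun _ : Γ => (0 : ZMod p)) = 0 := rfl
    rw [this, Submodule.span_zero_singleton, finrank_bot]
  · apply finrank_span_singleton
    intro h0
    exact h (congrFun h0 1)

theorem stmt_latConst : Stmt_latConst := by
  intro p _ Γ _ _ a D
  unfold eCard
  set C := pS p (latV D) with hC
  set T := C ⊔ (latC Γ ⊔ C).map (opZ a) with hT
  have hCT : C ≤ T := le_sup_left
  have hker : (ev p Γ).ker ⊓ T = C := by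
    apply le_antisymm
    · intro m hm
      obtain ⟨h1, h2⟩ := AddSubgroup.mem_inf.1 hm
      obtain ⟨c, hc, n, rfl⟩ := (mem_T a D m).1 h2
      rw [AddMonoidHom.mem_ker, map_add, ev_pS D hc, zero_add, ev_apply] at h1
      obtain ⟨t, ht⟩ := (ZMod.intCast_zmod_eq_zero_iff_dvd _ p).1 h1
      refine add_mem hc (mem_pS'.2 ⟨fun _ => t, const_mem_latV D t, ?_⟩)
      funext x
      simp [ht]
    · intro m hm
      exact AddSubgroup.mem_inf.2 ⟨ev_pS D hm, hCT hm⟩
  have h1 : C.relIndex T = Nat.card (T.map (ev p Γ)) := by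
    rw [← AddSubgroup.relIndex_ker, ← AddSubgroup.inf_relIndex_right (ev p Γ).ker T, hker]
  rw [h1]
  split_ifs with h
  · have : T.map (ev p Γ) = ⊥ := by
      rw [eq_bot_iff]
      rintro _ ⟨m, hm, rfl⟩
      obtain ⟨c, hc, n, rfl⟩ := (mem_T a D m).1 hm
      rw [AddSubgroup.mem_bot, map_add, ev_pS D hc, zero_add, ev_apply]
      push_cast
      rw [sN_cast, h, zero_mul]
    rw [this]
    simp
  · have : T.map (ev p Γ) = ⊤ := by
      rw [eq_top_iff]
      intro z _
      refine ⟨fun _ => (sN a : ℤ) * (((aug a)⁻¹ * z).val : ℤ),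
        (mem_T a D _).2 ⟨0, zero_mem _, (((aug a)⁻¹ * z).val : ℤ), (zero_add _).symm⟩, ?_⟩
      rw [ev_apply]
      push_cast
      rw [sN_cast, ZMod.natCast_zmod_val, mul_inv_cancel_left₀ h]
    rw [this, Nat.card_congr (AddSubgroup.topEquiv (G := ZMod p)).toEquiv, Nat.card_zmod]

end Fermat.Agent.TW56.EC

end
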