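/-
TEAM TW56 -> S56, block [EC], package H3 : the permutation lattice, `# e(ℤ[Γ/D]/p) = p^(rkL a D)`
(`Stmt_latPerm`).
-/
import Fermat.Agent.TW56.EC.Interface

set_option autoImplicit false

noncomputable section

namespace Fermat.Agent.TW56.EC

open Fermat.Agent.CFT Fermat.Agent.CFT.Top Fermat.Agent.CFT.Pos Fermat.Agent.CFT.Local
  Fermat.Agent.TW56.Loc Module CategoryTheory ExtCitation NumberField

attribute [local instance] Units.mulDistribMulActionRight
attribute [local instance] quotAct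
attribute [local instance] addAct
attribute [local instance] funAct

namespace LatPerm

variable {p : ℕ} {Γ : Type} [Group Γ]

/-- reduction mod `p` composed with `x ↦ x⁻¹`. -/
def R (p : ℕ) (Γ : Type) [Group Γ] : (Γ → ℤ) →+ (Γ → ZMod p) where
  toFun m x := (m x⁻¹ : ZMod p)
  map_zero' := by
    funext x
    simp
  map_add' m m' := by
    funext x
    simp

lemma R_apply (m : Γ → ℤ) (x : Γ) : R p Γ m x = (m x⁻¹ : ZMod p) := rfl

lemma smul_apply (γ : Γ) (m : Γ → ℤ) (x : Γ) : (γ • m) x = m (γ⁻¹ * x) := rfl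

lemma R_opZ [Finite Γ] [Fact p.Prime] (a : Γ → ZMod p) (m : Γ → ℤ) :
    R p Γ (opZ a m) = regOp a (R p Γ m) := by
  cases nonempty_fintype Γ
  funext c
  show ((opZ a m) c⁻¹ : ZMod p) = ∑ᶠ γ : Γ, a γ * R p Γ m (c * γ)
  rw [opZ_apply, finsum_eq_sum_of_fintype, finsum_eq_sum_of_fintype, Finset.sum_apply,
    Int.cast_sum]
  refine Finset.sum_congr rfl fun γ _ => ?_
  rw [Pi.smul_apply, smul_apply, R_apply, mul_inv_rev, nsmul_eq_mul, Int.cast_mul,
    Int.cast_natCast, ZMod.natCast_zmod_val]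

lemma map_R_latV [Fact p.Prime] (D : Subgroup Γ) :
    (latV D).map (R p Γ) = (invL p D).toAddSubgroup := by
  ext F
  constructor
  · rintro ⟨m, hm, rfl⟩
    intro d hd x
    rw [R_apply, R_apply, mul_inv_rev, hm d⁻¹ (D.inv_mem hd)]
  · intro hF
    refine ⟨fun x => ((F x⁻¹).val : ℤ), ?_, ?_⟩
    · intro d hd x
      show (((F (x * d)⁻¹).val : ℕ) : ℤ) = ((F x⁻¹).val : ℤ)
      rw [mul_inv_rev, hF d⁻¹ (D.inv_mem hd)]
    · funext x
      rw [R_apply]
      simp

lemma ker_R_inf (D : Subgroup Γ) : (R p Γ).ker ⊓ latV D = pS p (latV D) := by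
  ext m
  constructor
  · rintro ⟨h0, hm⟩
    have hdvd : ∀ x, (p : ℤ) ∣ m x := by
      intro x
      have := congrFun (show R p Γ m = 0 from h0) x⁻¹
      rw [R_apply, inv_inv] at this
      exact (ZMod.intCast_zmod_eq_zero_iff_dvd _ _).1 this
    refine ⟨fun x => m x / (p : ℤ), ?_, ?_⟩
    · intro d hd x
      show m (x * d) / (p : ℤ) = m x / (p : ℤ)
      rw [hm d hd]
    · funext x
      show p • (m x / (p : ℤ)) = m x
      rw [nsmul_eq_mul, Int.mul_ediv_cancel' (hdvd x)]
  · rintro ⟨m', hm', rfl⟩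
    refine ⟨?_, ?_⟩
    · show R p Γ _ = 0
      funext x
      rw [R_apply]
      simp
    · exact (latV D).nsmul_mem hm' p

end LatPerm

open LatPerm

theorem stmt_latPerm : Stmt_latPerm := by
  intro p _ Γ _ _ a D
  have hstab : (latV D).map (opZ a) ≤ latV D := by
    cases nonempty_fintype Γ
    rintro _ ⟨m, hm, rfl⟩
    rw [opZ_apply, finsum_eq_sum_of_fintype]
    refine (latV D).sum_mem fun γ _ => (latV D).nsmul_mem ?_ _
    intro d hd x
    rw [LatPerm.smul_apply, LatPerm.smul_apply, ← mul_assoc, hm d hd]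
  have hC : pS p (latV D) ≤ latV D := by
    rw [← ker_R_inf]
    exact inf_le_right
  have hK : pS p (latV D) ⊔ (latV D).map (opZ a) ≤ latV D := sup_le hC hstab
  have h1 : (R p Γ).ker ⊓ (pS p (latV D) ⊔ (latV D).map (opZ a)) = pS p (latV D) := by
    apply le_antisymm
    · rw [← ker_R_inf (p := p) D]
      exact inf_le_inf_left _ (by rw [ker_R_inf]; exact hK)
    · refine le_inf ?_ le_sup_left
      rw [← ker_R_inf (p := p) D]
      exact inf_le_left
  have h2 : (pS p (latV D)).map (R p Γ) = ⊥ := by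
    rw [eq_bot_iff]
    rintro _ ⟨m, hm, rfl⟩
    rw [← ker_R_inf] at hm
    exact hm.1
  have h3 : ((latV D).map (opZ a)).map (R p Γ) = ((invL p D).map (regOp a)).toAddSubgroup := by
    ext F
    constructor
    · rintro ⟨_, ⟨m, hm, rfl⟩, rfl⟩
      rw [R_opZ]
      refine ⟨R p Γ m, ?_, rfl⟩
      have : R p Γ m ∈ (latV D).map (R p Γ) := ⟨m, hm, rfl⟩
      rw [map_R_latV] at this
      exact this
    · rintro ⟨F0, hF0, rfl⟩
      have : F0 ∈ (latV D).map (R p Γ) := by
        rw [map_R_latV]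
        exact hF0
      obtain ⟨m, hm, rfl⟩ := this
      exact ⟨opZ a m, ⟨m, hm, rfl⟩, R_opZ a m⟩
  have h4 : Nat.card ((invL p D).map (regOp a)) = p ^ rkL a D := by
    rw [Module.natCard_eq_pow_finrank (K := ZMod p), Nat.card_zmod]
    rfl
  have h5 : (pS p (latV D)).relIndex (pS p (latV D) ⊔ (latV D).map (opZ a)) =
      (R p Γ).ker.relIndex (pS p (latV D) ⊔ (latV D).map (opZ a)) := by
    rw [← AddSubgroup.inf_relIndex_right (R p Γ).ker, h1]
  rw [eCard, h5, AddSubgroup.relIndex_ker, AddSubgroup.map_sup, h2, bot_sup_eq, h3, ← h4]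
  rfl

end Fermat.Agent.TW56.EC

end
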