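/-
TEAM TW56 -> S56, block [EC], task EC-U10 (helper26): the layer `(G_ℚ/W, ℚ̄^W)` (`Stmt_layerQ`).
-/
import Fermat.Agent.TW56.EC.Interface
import Fermat.Agent.TW56.EC.FixW

set_option autoImplicit false

noncomputable section

namespace Fermat.Agent.TW56.EC

open Fermat.Agent.CFT Fermat.Agent.CFT.Top Fermat.Agent.CFT.Pos Fermat.Agent.CFT.Local
  Fermat.Agent.TW56.Loc Module CategoryTheory ExtCitation NumberField

attribute [local instance] Units.mulDistribMulActionRight
attribute [local instance] quotAct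
attribute [local instance] addAct
attribute [local instance] funAct

namespace LayerQ

theorem isAlgebraic_Qb : Algebra.IsAlgebraic ℚ Qb := AlgebraicClosure.isAlgebraic ℚ

theorem isGalois_Qb : IsGalois ℚ Qb := by
  have : Algebra.IsAlgebraic ℚ (AlgebraicClosure ℚ) := AlgebraicClosure.isAlgebraic ℚ
  have : IsAlgClosure ℚ (AlgebraicClosure ℚ) := ⟨inferInstance, inferInstance⟩
  have : Normal ℚ (AlgebraicClosure ℚ) := IsAlgClosure.normal ℚ (AlgebraicClosure ℚ)
  exact ⟨⟩

/-- a valuation subring of `ℚ̄` in which no prime number is a non-unit is everything. -/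
theorem eq_top_of_forall_not_liesOver (V : ValuationSubring Qb)
    (h : ∀ q : ℕ, q.Prime → ¬ V.LiesOverPrime q) : V = ⊤ := by
  -- all positive integers are units of `V`
  have hnat : ∀ n : ℕ, n ≠ 0 → ((n : Qb))⁻¹ ∈ V := by
    intro n
    induction n using induction_on_primes with
    | zero => intro h0; exact absurd rfl h0
    | one => intro _; simp only [Nat.cast_one, inv_one]; exact V.one_mem
    | prime_mul q a hq ih =>
      intro hqa
      have ha : a ≠ 0 := fun h0 => hqa (by rw [h0, mul_zero])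
      have hq' : ((q : Qb))⁻¹ ∈ V := by
        by_contra hc
        apply h q hq
        have hq0 : (q : Qb) ≠ 0 := Nat.cast_ne_zero.2 hq.ne_zero
        show (q : Qb) ∈ V.nonunits
        rw [ValuationSubring.mem_nonunits_iff]
        have h1 : ¬ V.valuation ((q : Qb))⁻¹ ≤ 1 := fun h2 => hc ((V.valuation_le_one_iff _).1 h2)
        rw [not_le, map_inv₀] at h1
        have h3 : V.valuation (q : Qb) ≠ 0 := (V.valuation.ne_zero_iff).2 hq0
        exact (one_lt_inv₀ (zero_lt_iff.2 h3)).1 h1
      rw [Nat.cast_mul, mul_inv]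
      exact V.mul_mem _ _ hq' (ih ha)
  have hrat : ∀ r : ℚ, algebraMap ℚ Qb r ∈ V := by
    intro r
    have h1 : algebraMap ℚ Qb r = (r.num : Qb) * ((r.den : Qb))⁻¹ := by
      conv_lhs => rw [← Rat.num_div_den r]
      rw [map_div₀, map_intCast, map_natCast, div_eq_mul_inv]
    rw [h1]
    exact V.mul_mem _ _ (intCast_mem V _) (hnat _ r.den_nz)
  refine SetLike.ext fun x => ⟨fun _ => ValuationSubring.mem_top x, fun _ => ?_⟩
  have := isAlgebraic_Qb
  have hx : IsIntegral ℚ x := Algebra.IsIntegral.isIntegral x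
  obtain ⟨P, hP, he⟩ := hx
  let ι : ℚ →+* V := (algebraMap ℚ Qb).codRestrict V.toSubring hrat
  have h1 : IsIntegral V x := by
    refine ⟨P.map ι, hP.map ι, ?_⟩
    rw [Polynomial.eval₂_map]
    exact he
  obtain ⟨y, hy⟩ := (IsIntegrallyClosed.isIntegral_iff (R := V) (K := Qb)).1 h1
  rw [← hy]
  exact y.2

/-- integral over `ℤ` `↔` in all valuation rings over all primes. -/
theorem isIntegral_iff (x : Qb) :
    IsIntegral ℤ x ↔ ∀ q : Nat.Primes, ∀ A : ValuationSubring Qb, A.LiesOverPrime q → x ∈ A := by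
  constructor
  · intro hx q A _
    obtain ⟨P, hP, he⟩ := hx
    have h1 : IsIntegral A x := by
      refine ⟨P.map (Int.castRingHom A), hP.map _, ?_⟩
      rw [Polynomial.eval₂_map]
      have : (algebraMap A Qb).comp (Int.castRingHom A) = algebraMap ℤ Qb := RingHom.ext_int _ _
      rw [this]
      exact he
    obtain ⟨y, hy⟩ := (IsIntegrallyClosed.isIntegral_iff (R := A) (K := Qb)).1 h1
    rw [← hy]
    exact y.2
  · intro h
    have hx : x ∈ (⨅ V : {V : ValuationSubring Qb // (∅ : Set Qb) ⊆ V.toSubring},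
        V.1.toSubring) := by
      rw [Subring.mem_iInf]
      rintro ⟨V, -⟩
      by_cases hV : ∃ q : ℕ, q.Prime ∧ V.LiesOverPrime q
      · obtain ⟨q, hq, hqV⟩ := hV
        exact h ⟨q, hq⟩ V hqV
      · have : V = ⊤ := eq_top_of_forall_not_liesOver V fun q hq hqV => hV ⟨q, hq, hqV⟩
        subst this
        exact ValuationSubring.mem_top x
    rw [iInf_valuationSubring_superset] at hx
    have hx' : IsIntegral (Subring.closure (∅ : Set Qb)) x := hx
    have : Algebra.IsIntegral ℤ (Subring.closure (∅ : Set Qb)) := by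
      refine ⟨fun a => ?_⟩
      have ha : (a : Qb) ∈ (⊥ : Subring Qb) := (Subring.closure_empty (R := Qb)).le a.2
      obtain ⟨n, hn⟩ := Subring.mem_bot.1 ha
      have : a = algebraMap ℤ (Subring.closure (∅ : Set Qb)) n := Subtype.ext (by
        rw [← hn]; simp)
      rw [this]
      exact isIntegral_algebraMap
    exact isIntegral_trans x hx'

/-- `v(x) = 1 ↔ x, x⁻¹ ∈ A`. -/
theorem valuation_eq_one_iff (A : ValuationSubring Qb) (x : Qb) (hx : x ≠ 0) :
    A.valuation x = 1 ↔ x ∈ A ∧ x⁻¹ ∈ A := by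
  rw [← A.valuation_le_one_iff, ← A.valuation_le_one_iff, map_inv₀]
  have h0 : A.valuation x ≠ 0 := (A.valuation.ne_zero_iff).2 hx
  constructor
  · intro h
    rw [h, inv_one]
    exact ⟨le_rfl, le_rfl⟩
  · rintro ⟨h1, h2⟩
    exact le_antisymm h1 ((inv_le_one₀ (zero_lt_iff.2 h0)).1 h2)

end LayerQ

open LayerQ

theorem stmt_layerQ (hF : Stmt_fixW) : Stmt_layerQ := by
  intro W _ hW
  obtain ⟨k, hfd, -, hfix, hmem⟩ := hF W hW
  have hmem' : ∀ x : Qb, x ∈ FixedPoints.subfield W Qb ↔ x ∈ k := by
    intro x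
    rw [hmem]
    constructor
    · intro h w hw
      exact h ⟨w, hw⟩
    · intro h w
      exact h w.1 w.2
  refine ⟨?_, ?_, ?_, ?_⟩
  · -- finite dimensional
    let f : k →+ FixedPoints.subfield W Qb :=
      { toFun := fun x => ⟨x.1, (hmem' _).2 x.2⟩
        map_zero' := rfl
        map_add' := fun _ _ => rfl }
    have hsurj : Function.Surjective f.toRatLinearMap := fun y => ⟨⟨y.1, (hmem' _).1 y.2⟩, rfl⟩
    exact Module.Finite.of_surjective f.toRatLinearMap hsurj
  · -- faithful
    refine ⟨fun {γ δ} h => ?_⟩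
    induction γ using QuotientGroup.induction_on with
    | H g =>
    induction δ using QuotientGroup.induction_on with
    | H g' =>
    rw [QuotientGroup.eq, ← hfix]
    rw [IntermediateField.mem_fixingSubgroup_iff]
    intro x hx
    have h1 := congrArg Subtype.val (h ⟨x, (hmem' x).2 hx⟩)
    have h2 : g x = g' x := h1
    show (g⁻¹ * g') x = x
    rw [AlgEquiv.mul_apply, ← h2]
    exact g.symm_apply_apply x
  · -- fixed points
    intro x hx
    have := isGalois_Qb
    have h1 : (x : Qb) ∈ Set.range (algebraMap ℚ Qb) := by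
      rw [InfiniteGalois.mem_range_algebraMap_iff_fixed]
      intro g
      exact congrArg Subtype.val (hx (g : GQ ⧸ W))
    obtain ⟨r, hr⟩ := h1
    refine ⟨r, Subtype.ext ?_⟩
    rw [← hr]
    exact (IsScalarTower.algebraMap_apply ℚ (FixedPoints.subfield W Qb) Qb r).symm
  · -- integral units
    intro u
    have hu0 : u.val ≠ 0 := by
      intro h0
      have : ((Additive.toMul u : (FixedPoints.subfield W Qb)ˣ) : FixedPoints.subfield W Qb) = 0 :=
        Subtype.ext h0
      exact (Additive.toMul u).ne_zero this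
    have hinv : ((((Additive.toMul u)⁻¹ : (FixedPoints.subfield W Qb)ˣ) :
        FixedPoints.subfield W Qb) : Qb) = (u.val)⁻¹ := by
      rw [Units.val_inv_eq_inv_val]
      rfl
    have hint : ∀ y : FixedPoints.subfield W Qb, IsIntegral ℤ y ↔ IsIntegral ℤ (y : Qb) := by
      intro y
      exact (isIntegral_algebraMap_iff (A := FixedPoints.subfield W Qb) (B := Qb)
        (algebraMap (FixedPoints.subfield W Qb) Qb).injective).symm
    have hU : u ∈ intU (FixedPoints.subfield W Qb) ↔
        IsIntegral ℤ u.val ∧ IsIntegral ℤ (u.val)⁻¹ := by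
      rw [← hinv, ← hint, ← hint]
      rfl
    rw [hU, mem_US, isIntegral_iff, isIntegral_iff]
    constructor
    · intro h
      exact ⟨fun q A hA => ((valuation_eq_one_iff A _ hu0).1 (h q (Finset.notMem_empty q) A hA)).1,
        fun q A hA => ((valuation_eq_one_iff A _ hu0).1 (h q (Finset.notMem_empty q) A hA)).2⟩
    · rintro ⟨h1, h2⟩ q _ A hA
      exact (valuation_eq_one_iff A _ hu0).2 ⟨h1 q A hA, h2 q A hA⟩

/-- **U10**, unconditionally. -/
theorem all_layerQ : Stmt_layerQ := stmt_layerQ stmt_fixW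

end Fermat.Agent.TW56.EC

end
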