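/-
TEAM TW56 -> S56, block [EC], task EC-U9 (helper8, task 1511): MINKOWSKI UNITS, abstract Galois form.
-/
import Fermat.Agent.TW56.EC.Interface

set_option autoImplicit false
set_option linter.unusedSectionVars false

noncomputable section

namespace Fermat.Agent.TW56.EC

open Fermat.Agent.CFT Fermat.Agent.CFT.Top Fermat.Agent.CFT.Pos Fermat.Agent.CFT.Local
  Fermat.Agent.TW56.Loc Module CategoryTheory ExtCitation NumberField

attribute [local instance] Units.mulDistribMulActionRight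
attribute [local instance] quotAct
attribute [local instance] addAct
attribute [local instance] funAct

namespace MinkAbs

section Places

variable {K Γ : Type} [Field K] [NumberField K] [Group Γ] [MulSemiringAction Γ K]

/-- the place `x ↦ |ι₀ (γ⁻¹ x)|`. -/
def pl (ι₀ : K →+* ℂ) (γ : Γ) : InfinitePlace K :=
  InfinitePlace.mk (ι₀.comp (MulSemiringAction.toRingHom Γ K γ⁻¹))

lemma pl_apply (ι₀ : K →+* ℂ) (γ : Γ) (x : K) : pl ι₀ γ x = ‖ι₀ (γ⁻¹ • x)‖ := rfl

lemma pl_smul (ι₀ : K →+* ℂ) (γ δ : Γ) (x : K) : pl ι₀ δ (γ • x) = pl ι₀ (γ⁻¹ * δ) x := by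
  rw [pl_apply, pl_apply, mul_inv_rev, inv_inv, mul_smul]

lemma pl_eq_of (ι₀ : K →+* ℂ) (γ δ : Γ) (h : pl ι₀ (γ⁻¹ * δ) = pl ι₀ (1 : Γ)) :
    pl ι₀ δ = pl ι₀ γ := by
  ext x
  have h1 : pl ι₀ (γ⁻¹ * δ) (γ⁻¹ • x) = pl ι₀ (1 : Γ) (γ⁻¹ • x) := by rw [h]
  rw [← pl_smul, smul_inv_smul] at h1
  rw [h1, pl_apply, pl_apply, inv_one, one_smul]

lemma pl_mul_right (ι₀ : K →+* ℂ) (c : Γ) (hc : ∀ x, ι₀ (c • x) = starRingEnd ℂ (ι₀ x)) (γ d : Γ)
    (hd : d ∈ Subgroup.zpowers c) : pl ι₀ (γ * d) = pl ι₀ γ := by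
  let T : Subgroup Γ :=
    { carrier := {d | ∀ y : K, ‖ι₀ (d • y)‖ = ‖ι₀ y‖}
      one_mem' := fun y => by rw [one_smul]
      mul_mem' := fun {a b} ha hb y => by rw [mul_smul, ha, hb]
      inv_mem' := fun {a} ha y => by
        have := ha (a⁻¹ • y)
        rw [smul_inv_smul] at this
        exact this.symm }
  have hcT : c ∈ T := fun y => by rw [hc, RCLike.norm_conj]
  have hdT : d⁻¹ ∈ T := T.inv_mem ((Subgroup.zpowers_le.2 hcT) hd)
  ext x
  rw [pl_apply, pl_apply, mul_inv_rev, mul_smul]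
  exact hdT _

lemma pl_eq_imp [FaithfulSMul Γ K] (ι₀ : K →+* ℂ) (c : Γ)
    (hc : ∀ x, ι₀ (c • x) = starRingEnd ℂ (ι₀ x)) (γ δ : Γ) (h : pl ι₀ γ = pl ι₀ δ) :
    ∃ d ∈ Subgroup.zpowers c, γ = δ * d := by
  unfold pl at h
  rw [InfinitePlace.mk_eq_iff] at h
  rcases h with h | h
  · refine ⟨1, one_mem _, ?_⟩
    rw [mul_one]
    have : γ⁻¹ = δ⁻¹ := by
      apply eq_of_smul_eq_smul (α := K)
      intro x
      exact ι₀.injective (RingHom.congr_fun h x)
    exact inv_injective this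
  · refine ⟨c, Subgroup.mem_zpowers c, ?_⟩
    have h1 : c * γ⁻¹ = δ⁻¹ := by
      apply eq_of_smul_eq_smul (α := K)
      intro x
      apply ι₀.injective
      rw [mul_smul, hc]
      exact RingHom.congr_fun h x
    have h2 : δ = γ * c⁻¹ := by
      rw [← inv_inj, ← h1, mul_inv_rev, inv_inv]
    rw [h2, inv_mul_cancel_right]

lemma pl_surj [Finite Γ] [FaithfulSMul Γ K]
    (hfix : ∀ x : K, (∀ γ : Γ, γ • x = x) → ∃ r : ℚ, algebraMap ℚ K r = x) (ι₀ : K →+* ℂ) :
    Function.Surjective (pl ι₀ : Γ → InfinitePlace K) := by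
  intro w
  have : SMulCommClass Γ ℚ K := ⟨fun γ r x => map_rat_smul (MulSemiringAction.toRingHom Γ K γ) r x⟩
  have : IsGaloisGroup Γ ℚ K := ⟨inferInstance, inferInstance, ⟨hfix⟩⟩
  have : IsGalois ℚ K := IsGaloisGroup.isGalois Γ ℚ K
  obtain ⟨σ, hσ⟩ := InfinitePlace.exists_smul_eq_of_comap_eq (k := ℚ) (w := InfinitePlace.mk ι₀)
    (w' := w) (Subsingleton.elim _ _)
  obtain ⟨γ, rfl⟩ := (IsGaloisGroup.mulEquivAlgEquiv Γ ℚ K).surjective σ
  refine ⟨γ, ?_⟩
  rw [← hσ]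
  ext x
  rw [InfinitePlace.smul_apply, pl_apply, InfinitePlace.apply]
  congr 2

end Places

section Units

variable {K : Type} [Field K]

/-- the element of `K` underlying an element of `Additive Kˣ`. -/
def cv (x : Additive Kˣ) : K := ((Additive.toMul x : Kˣ) : K)

lemma cv_zero : cv (0 : Additive Kˣ) = 1 := rfl

lemma cv_add (x y : Additive Kˣ) : cv (x + y) = cv x * cv y := rfl

lemma cv_neg (x : Additive Kˣ) : cv (-x) = (cv x)⁻¹ := by
  show (((Additive.toMul x)⁻¹ : Kˣ) : K) = _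
  rw [Units.val_inv_eq_inv_val]
  rfl

lemma cv_ne_zero (x : Additive Kˣ) : cv x ≠ 0 := (Additive.toMul x : Kˣ).ne_zero

lemma cv_inj {x y : Additive Kˣ} (h : cv x = cv y) : x = y :=
  Additive.toMul.injective (Units.ext h)

lemma cv_nsmul (n : ℕ) (x : Additive Kˣ) : cv (n • x) = cv x ^ n := by
  induction n with
  | zero => rw [zero_smul, pow_zero, cv_zero]
  | succ n ih => rw [succ_nsmul, cv_add, ih, pow_succ]

lemma cv_sum {ι : Type} (s : Finset ι) (f : ι → Additive Kˣ) :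
    cv (∑ i ∈ s, f i) = ∏ i ∈ s, cv (f i) := by
  classical
  induction s using Finset.induction_on with
  | empty => rw [Finset.sum_empty, Finset.prod_empty, cv_zero]
  | insert a s ha ih => rw [Finset.sum_insert ha, Finset.prod_insert ha, cv_add, ih]

lemma cv_smul {Γ : Type} [Group Γ] [MulSemiringAction Γ K] (γ : Γ) (x : Additive Kˣ) :
    cv (γ • x) = γ • cv x := rfl

lemma mem_intU {x : Additive Kˣ} : x ∈ intU K ↔ IsIntegral ℤ (cv x) ∧ IsIntegral ℤ (cv x)⁻¹ := by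
  rw [← cv_neg]
  rfl

lemma intU_smul {Γ : Type} [Group Γ] [MulSemiringAction Γ K] (γ : Γ) {x : Additive Kˣ}
    (hx : x ∈ intU K) : γ • x ∈ intU K := by
  rw [mem_intU] at hx ⊢
  rw [cv_smul, ← smul_inv'' γ (cv x)]
  exact ⟨map_isIntegral_int (MulSemiringAction.toRingHom Γ K γ) hx.1,
    map_isIntegral_int (MulSemiringAction.toRingHom Γ K γ) hx.2⟩

variable (K) [NumberField K]

/-- `(𝓞 K)ˣ → Kˣ`, additively. -/
def psiO : Additive (𝓞 K)ˣ →+ Additive Kˣ :=
  MonoidHom.toAdditive (Units.map (algebraMap (𝓞 K) K : 𝓞 K →* K))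

lemma cv_psiO (v : (𝓞 K)ˣ) : cv (psiO K (Additive.ofMul v)) = ((v : 𝓞 K) : K) := rfl

lemma psiO_inj : Function.Injective (psiO K) := by
  intro x y h
  apply Additive.toMul.injective
  apply Units.ext
  apply RingOfIntegers.coe_injective
  exact congrArg cv h

lemma psiO_map_top : (⊤ : AddSubgroup (Additive (𝓞 K)ˣ)).map (psiO K) = intU K := by
  ext x
  rw [mem_intU]
  constructor
  · rintro ⟨v, -, rfl⟩
    refine ⟨(Additive.toMul v : (𝓞 K)ˣ).1.2, ?_⟩
    rw [← cv_neg, ← map_neg]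
    exact ((Additive.toMul (-v) : (𝓞 K)ˣ)).1.2
  · rintro ⟨h1, h2⟩
    have h0 := cv_ne_zero x
    refine ⟨Additive.ofMul ⟨⟨_, h1⟩, ⟨_, h2⟩, ?_, ?_⟩, trivial, ?_⟩
    · apply RingOfIntegers.coe_injective
      exact mul_inv_cancel₀ h0
    · apply RingOfIntegers.coe_injective
      exact inv_mul_cancel₀ h0
    · exact cv_inj rfl

end Units

section Norm

variable {K Γ : Type} [Field K] [NumberField K] [Group Γ] [Fintype Γ] [MulSemiringAction Γ K]

/-- the norm of the square of an integral unit is `1`. -/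
lemma norm_sq (hfix : ∀ x : K, (∀ γ : Γ, γ • x = x) → ∃ r : ℚ, algebraMap ℚ K r = x)
    {x : Additive Kˣ} (hx : x ∈ intU K) : ∑ γ : Γ, γ • ((2 : ℕ) • x) = 0 := by
  set y : Additive Kˣ := ∑ γ : Γ, γ • x with hy
  have hyU : y ∈ intU K := sum_mem fun γ _ => intU_smul γ hx
  have hyfix : ∀ δ : Γ, δ • cv y = cv y := by
    intro δ
    rw [← cv_smul, hy, Finset.smul_sum]
    congr 1
    refine Fintype.sum_equiv (Equiv.mulLeft δ) _ _ fun γ => ?_
    rw [Equiv.coe_mulLeft, mul_smul]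
  obtain ⟨r, hr⟩ := hfix _ hyfix
  rw [mem_intU, ← hr, ← map_inv₀, isIntegral_algebraMap_iff (algebraMap ℚ K).injective,
    isIntegral_algebraMap_iff (algebraMap ℚ K).injective,
    IsIntegrallyClosed.isIntegral_iff, IsIntegrallyClosed.isIntegral_iff] at hyU
  obtain ⟨⟨a, ha⟩, ⟨b, hb⟩⟩ := hyU
  have hr0 : r ≠ 0 := by
    rintro rfl
    rw [map_zero] at hr
    exact cv_ne_zero y hr.symm
  have hab : a * b = 1 := by
    have : ((a * b : ℤ) : ℚ) = 1 := by
      push_cast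
      have ha' : (a : ℚ) = r := ha
      have hb' : (b : ℚ) = r⁻¹ := hb
      rw [ha', hb', mul_inv_cancel₀ hr0]
    exact_mod_cast this
  have ha2 : a ^ 2 = 1 := by
    rcases Int.eq_one_or_neg_one_of_mul_eq_one hab with h | h <;> rw [h] <;> norm_num
  have h2y : (2 : ℕ) • y = 0 := by
    apply cv_inj
    rw [cv_nsmul, cv_zero, ← hr, ← ha, ← map_pow]
    have : (algebraMap ℤ ℚ a) ^ 2 = 1 := by
      rw [← map_pow, ha2, map_one]
    rw [this, map_one]
  rw [← h2y, hy, ← Finset.sum_nsmul]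
  refine Finset.sum_congr rfl fun γ _ => ?_
  exact (DistribSMul.toAddMonoidHom (Additive Kˣ) γ).map_nsmul 2 x

end Norm

end MinkAbs

open MinkAbs in
/-- U9. **Minkowski units**, abstract Galois form. -/
theorem stmt_minkAbs (h : Stmt_minkRank) : Stmt_minkAbs := by
  intro K Γ _ _ _ _ _ _ hfix ι₀ c hc
  classical
  cases nonempty_fintype Γ
  obtain ⟨u₀, hu₀⟩ := NumberField.Units.dirichletUnitTheorem.exists_unit K (pl ι₀ (1 : Γ))
  set x₀ : Additive Kˣ := psiO K (Additive.ofMul u₀) with hx₀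
  have hx₀U : x₀ ∈ intU K := by
    rw [← psiO_map_top]
    exact ⟨_, trivial, rfl⟩
  set u : Additive Kˣ := (2 : ℕ) • x₀ with hu
  have huU : u ∈ intU K := nsmul_mem hx₀U 2
  have hnorm : ∑ γ : Γ, γ • u = 0 := norm_sq hfix hx₀U
  -- smallness
  have hsmall0 : ∀ w : InfinitePlace K, w ≠ pl ι₀ (1 : Γ) → w (cv u) < 1 := by
    intro w hw
    have h1 := hu₀ w hw
    have hpos : 0 < w ((u₀ : 𝓞 K) : K) := InfinitePlace.pos_iff.2 (cv_ne_zero x₀)
    rw [Real.log_neg_iff hpos] at h1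
    rw [hu, cv_nsmul, map_pow, hx₀, cv_psiO]
    exact pow_lt_one₀ hpos.le h1 two_ne_zero
  have hsmall : ∀ γ δ : Γ, pl ι₀ δ ≠ pl ι₀ γ → pl ι₀ δ (cv (γ • u)) < 1 := by
    intro γ δ hne
    rw [cv_smul, pl_smul]
    exact hsmall0 _ fun h => hne (pl_eq_of ι₀ γ δ h)
  -- the units `U_w`
  let Ua : InfinitePlace K → Additive Kˣ := fun w => ∑ γ : Γ with pl ι₀ γ = w, γ • u
  have hUa : ∀ w, Ua w ∈ intU K := fun w => sum_mem fun γ _ => intU_smul γ huU
  have hUd : ∀ w, Ua w = ∑ γ : Γ with pl ι₀ γ = w, γ • u := fun _ => rfl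
  have hex : ∀ w, ∃ v : (𝓞 K)ˣ, psiO K (Additive.ofMul v) = Ua w := by
    intro w
    have h1 := hUa w
    rw [← psiO_map_top] at h1
    obtain ⟨v, -, hv⟩ := h1
    exact ⟨Additive.toMul v, hv⟩
  choose U hU using hex
  have hsurj : Function.Surjective (pl ι₀ : Γ → InfinitePlace K) := pl_surj hfix ι₀
  have hUsmall : ∀ w w' : InfinitePlace K, w' ≠ w → w' ((U w : 𝓞 K) : K) < 1 := by
    intro w w' hne
    rw [← cv_psiO, hU, hUd, cv_sum, map_prod]
    obtain ⟨γ₀, hγ₀⟩ := hsurj w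
    obtain ⟨δ, rfl⟩ := hsurj w'
    have hmem : γ₀ ∈ Finset.univ.filter (fun γ => pl ι₀ γ = w) := by simp [hγ₀]
    rw [← Finset.mul_prod_erase _ _ hmem]
    have h1 : pl ι₀ δ (cv (γ₀ • u)) < 1 := hsmall γ₀ δ (by rw [hγ₀]; exact hne)
    have h2 : ∏ γ ∈ (Finset.univ.filter (fun γ => pl ι₀ γ = w)).erase γ₀,
        pl ι₀ δ (cv (γ • u)) ≤ 1 := by
      refine Finset.prod_le_one (fun γ _ => apply_nonneg _ _) fun γ hγ => ?_
      have h3 : pl ι₀ γ = w := (Finset.mem_filter.1 (Finset.mem_of_mem_erase hγ)).2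
      exact (hsmall γ δ (by rw [h3]; exact hne)).le
    exact lt_of_le_of_lt (mul_le_of_le_one_right (apply_nonneg _ _) h2) h1
  obtain ⟨hind, hidx⟩ := h K U hUsmall
  choose sec hsec using hsurj
  have hminv : ∀ m ∈ latV (Subgroup.zpowers c), ∀ γ δ : Γ, pl ι₀ γ = pl ι₀ δ → m γ = m δ := by
    intro m hm γ δ hγδ
    obtain ⟨d, hd, rfl⟩ := pl_eq_imp ι₀ c hc γ δ hγδ
    exact hm d hd δ
  -- regrouping
  have hreg : ∀ m ∈ latV (Subgroup.zpowers c),
      phiU u m = psiO K (Additive.ofMul (∏ᶠ w, U w ^ m (sec w))) := by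
    intro m hm
    rw [phiU_apply, finsum_eq_sum_of_fintype, finprod_eq_prod_of_fintype, ofMul_prod, map_sum,
      ← Finset.sum_fiberwise Finset.univ (pl ι₀)]
    refine Finset.sum_congr rfl fun w _ => ?_
    rw [ofMul_zpow, map_zsmul, hU, hUd, ← Finset.sum_zsmul]
    refine Finset.sum_congr rfl fun γ hγ => ?_
    rw [hminv m hm γ (sec w) (by rw [hsec]; exact (Finset.mem_filter.1 hγ).2)]
  have hconst : ∀ n : ℤ, phiU u (fun _ : Γ => n) = 0 := by
    intro n
    rw [phiU_apply, finsum_eq_sum_of_fintype, Finset.sum_zsmul, hnorm, smul_zero]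
  refine ⟨u, huU, fun m hm => ⟨fun h0 => ?_, ?_⟩, ?_⟩
  · let m' : Γ → ℤ := fun γ => m γ - m 1
    have hm' : m' ∈ latV (Subgroup.zpowers c) := fun d hd x => by
      show m (x * d) - m 1 = m x - m 1
      rw [hm d hd x]
    have h0' : phiU u m' = 0 := by
      have e : m' = m - fun _ => m 1 := rfl
      rw [e, map_sub, h0, hconst, sub_zero]
    rw [hreg m' hm'] at h0'
    have h1 : ∏ᶠ w, U w ^ m' (sec w) = 1 := psiO_inj K (h0'.trans (map_zero _).symm)
    have h2 := hind (pl ι₀ (1 : Γ)) (fun w => m' (sec w)) (by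
      show m' (sec (pl ι₀ (1 : Γ))) = 0
      rw [hminv m' hm' _ 1 (hsec _)]
      exact sub_self _) h1
    refine ⟨m 1, fun x => ?_⟩
    have h3 : m' (sec (pl ι₀ x)) = 0 := congrFun h2 (pl ι₀ x)
    rw [hminv m' hm' _ x (hsec _)] at h3
    exact sub_eq_zero.1 h3
  · rintro ⟨n, hn⟩
    have e : m = fun _ => n := funext hn
    rw [e, hconst]
  · have hle : (Subgroup.toAddSubgroup (Subgroup.closure (Set.range U))).map (psiO K) ≤
        (latV (Subgroup.zpowers c)).map (phiU u) := by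
      rintro _ ⟨v, hv, rfl⟩
      have hv' : Additive.toMul v ∈ Subgroup.closure (Set.range U) := hv
      have key : ∀ t ∈ Subgroup.closure (Set.range U),
          psiO K (Additive.ofMul t) ∈ (latV (Subgroup.zpowers c)).map (phiU u) := by
        intro t ht
        induction ht using Subgroup.closure_induction with
        | mem t ht =>
          obtain ⟨w, rfl⟩ := ht
          refine ⟨fun γ => if pl ι₀ γ = w then 1 else 0, fun d hd x => ?_, ?_⟩
          · show (if pl ι₀ (x * d) = w then (1 : ℤ) else 0) = if pl ι₀ x = w then 1 else 0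
            rw [pl_mul_right ι₀ c hc x d hd]
          · rw [hU, hUd, phiU_apply, finsum_eq_sum_of_fintype, Finset.sum_filter]
            refine Finset.sum_congr rfl fun γ _ => ?_
            split_ifs
            · rw [one_smul]
            · rw [zero_smul]
        | one => exact zero_mem _
        | mul a b _ _ ha hb => exact add_mem ha hb
        | inv a _ ha => exact neg_mem ha
      exact key _ hv'
    have h1 : ((Subgroup.toAddSubgroup (Subgroup.closure (Set.range U))).map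
        (psiO K)).relIndex (intU K) ≠ 0 := by
      rw [← psiO_map_top, AddSubgroup.relIndex_map_map_of_injective _ _ (psiO_inj K),
        AddSubgroup.relIndex_top_right]
      exact hidx
    intro h0
    have h2 := AddSubgroup.relIndex_dvd_of_le_left (intU K) hle
    rw [h0, zero_dvd_iff] at h2
    exact h1 h2

end Fermat.Agent.TW56.EC

end
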