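/-
TEAM TW56 -> S56, block [EC], U11 : the infinite places (`Stmt_minkQ`).
U9 (`Stmt_minkAbs`) applied to the layer `(G_ℚ/W, ℚ̄^W)` (U10, `Stmt_layerQ`), with the restriction of
`complexEmbedding` and the class of `complexConjugation`.
-/
import Fermat.Agent.TW56.EC.Interface

set_option autoImplicit false

noncomputable section

namespace Fermat.Agent.TW56.EC

open Fermat.Agent.CFT Fermat.Agent.CFT.Top Fermat.Agent.CFT.Pos Fermat.Agent.CFT.Local
  Fermat.Agent.TW56.Loc Module CategoryTheory ExtCitation NumberField

attribute [local instance] Units.mulDistribMulActionRight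
attribute [local instance] quotAct
attribute [local instance] addAct
attribute [local instance] funAct

theorem stmt_minkQ (h9 : Stmt_minkAbs) (h10 : Stmt_layerQ) : Stmt_minkQ := by
  intro W _ _ hW
  obtain ⟨hfd, hfaith, hfix, hint⟩ := h10 W hW
  have : NumberField (FixedPoints.subfield W Qb) :=
    { to_charZero := inferInstance, to_finiteDimensional := hfd }
  have : Finite (GQ ⧸ W) := inferInstance
  obtain ⟨u, hu, h1, h2⟩ := h9 (FixedPoints.subfield W Qb) (GQ ⧸ W) hfix
    ((complexEmbedding : Qb →+* ℂ).comp (FixedPoints.subfield W Qb).subtype)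
    ((complexConjugation : GQ) : GQ ⧸ W)
    (fun x => complexEmbedding_complexConjugation (x : Qb))
  have hUS : US ∅ W = intU (FixedPoints.subfield W Qb) := AddSubgroup.ext hint
  refine ⟨u, (hint u).2 hu, h1, ?_⟩
  rw [hUS]
  exact h2

end Fermat.Agent.TW56.EC

end
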