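/-
TEAM TW56 -> S56, block [EC], package U8 (helper65).

`theorem stmt_minkRank : Stmt_minkRank` : units with a sign pattern are independent and generate a subgroup of
finite index.
-/
import Fermat.Agent.TW56.EC.Interface

set_option autoImplicit false

noncomputable section

namespace Fermat.Agent.TW56.EC

open Module NumberField NumberField.InfinitePlace NumberField.Units

namespace MinkRank

/-- the linear algebra: a matrix with negative off-diagonal entries and zero row sums. -/
theorem core {ι : Type} [Fintype ι] [DecidableEq ι] (a : ι → ι → ℝ)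
    (hneg : ∀ w w', w' ≠ w → a w w' < 0) (hsum : ∀ w, ∑ w', a w w' = 0)
    (w₁ : ι) (g : {w // w ≠ w₁} → ℝ) (h : ∀ w' : {w // w ≠ w₁}, ∑ i, g i * a i w' = 0) :
    g = 0 := by
  let A : Matrix {w // w ≠ w₁} {w // w ≠ w₁} ℝ := fun i j => a i j
  have hdet : A.det ≠ 0 := by
    refine det_ne_zero_of_sum_row_lt_diag (fun k => ?_)
    have h1 : a k w₁ + (a k k + ∑ j ∈ Finset.univ.erase k, a k j) = 0 := by
      rw [Finset.add_sum_erase Finset.univ (fun j : {w // w ≠ w₁} => a k j) (Finset.mem_univ k),
        ← Fintype.sum_eq_add_sum_subtype_ne (fun w' => a k w') w₁]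
      exact hsum k
    have h2 : ∑ j ∈ Finset.univ.erase k, ‖A k j‖ = - ∑ j ∈ Finset.univ.erase k, a k j := by
      rw [← Finset.sum_neg_distrib]
      refine Finset.sum_congr rfl (fun j hj => ?_)
      rw [Real.norm_eq_abs]
      refine abs_of_neg (hneg _ _ ?_)
      exact fun hh => (Finset.ne_of_mem_erase hj) (Subtype.ext hh)
    have h3 : a k w₁ < 0 := hneg _ _ (fun hh => k.2 hh.symm)
    have h4 : a k k ≤ ‖A k k‖ := le_abs_self _
    rw [h2]
    linarith
  have hv : Matrix.vecMul g A = 0 := by
    funext j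
    exact h j
  exact Matrix.eq_zero_of_vecMul_eq_zero hdet hv

variable {K : Type} [Field K] [NumberField K]

/-- `x ↦ log w(x)` -/
def logAt (w : InfinitePlace K) : Additive (𝓞 K)ˣ →+ ℝ where
  toFun x := Real.log (w ((x.toMul : (𝓞 K)ˣ) : K))
  map_zero' := by simp
  map_add' x y := by
    have hx : w ((x.toMul : (𝓞 K)ˣ) : K) ≠ 0 := (pos_at_place _ w).ne'
    have hy : w ((y.toMul : (𝓞 K)ˣ) : K) ≠ 0 := (pos_at_place _ w).ne'
    simp [Real.log_mul hx hy]

omit [NumberField K] in
theorem logAt_apply (w : InfinitePlace K) (x : (𝓞 K)ˣ) :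
    logAt w (Additive.ofMul x) = Real.log (w (x : K)) := rfl

open scoped Classical in
/-- independence modulo torsion -/
theorem indep (u : InfinitePlace K → (𝓞 K)ˣ)
    (hu : ∀ w w' : InfinitePlace K, w' ≠ w → w' ((u w : 𝓞 K) : K) < 1)
    (w₁ : InfinitePlace K) (g : {w : InfinitePlace K // w ≠ w₁} → ℤ)
    (h : ∏ i : {w : InfinitePlace K // w ≠ w₁}, u i ^ g i ∈ torsion K) : g = 0 := by
  have hcore := core (fun w w' : InfinitePlace K => (mult w' : ℝ) * Real.log (w' ((u w : 𝓞 K) : K)))
    ?_ ?_ w₁ (fun i => (g i : ℝ)) ?_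
  · funext i
    have := congrFun hcore i
    simpa using this
  · intro w w' hw
    refine mul_neg_of_pos_of_neg ?_ (Real.log_neg (pos_at_place _ _) (hu w w' hw))
    exact_mod_cast mult_pos
  · intro w
    exact sum_mult_mul_log (u w)
  · intro w'
    have h1 : logAt (w' : InfinitePlace K) (Additive.ofMul (∏ i : {w : InfinitePlace K // w ≠ w₁}, u i ^ g i)) = 0 := by
      rw [logAt_apply, (mem_torsion K).1 h, Real.log_one]
    rw [ofMul_prod, map_sum] at h1
    simp only [ofMul_zpow, map_zsmul, logAt_apply, zsmul_eq_mul] at h1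
    calc ∑ i : {w : InfinitePlace K // w ≠ w₁}, (g i : ℝ) * ((mult (w' : InfinitePlace K) : ℝ) *
          Real.log ((w' : InfinitePlace K) ((u i : 𝓞 K) : K)))
        = (mult (w' : InfinitePlace K) : ℝ) *
          ∑ i : {w : InfinitePlace K // w ≠ w₁},
            (g i : ℝ) * Real.log ((w' : InfinitePlace K) ((u i : 𝓞 K) : K)) := by
          rw [Finset.mul_sum]
          exact Finset.sum_congr rfl (fun i _ => by ring)
      _ = 0 := by rw [h1, mul_zero]

/-- the image of a unit in the unit lattice -/
def toLat (x : (𝓞 K)ˣ) : unitLattice K :=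
  ⟨logEmbedding K (Additive.ofMul x),
    Submodule.mem_map_of_mem (f := (logEmbedding K).toIntLinearMap) Submodule.mem_top⟩

theorem coe_toLat (x : (𝓞 K)ˣ) :
    ((toLat x : unitLattice K) : dirichletUnitTheorem.logSpace K) =
      logEmbedding K (Additive.ofMul x) := rfl

end MinkRank

open scoped Classical in
/-- **U8** -/
theorem stmt_minkRank : Stmt_minkRank := by
  intro K _ _ u hu
  refine ⟨?_, ?_⟩
  · intro w₁ m hm hprod
    rw [finprod_eq_prod_of_fintype, Fintype.prod_eq_mul_prod_subtype_ne _ w₁, hm, zpow_zero,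
      one_mul] at hprod
    have := MinkRank.indep u hu w₁ (fun i => m i) (by rw [hprod]; exact one_mem _)
    funext w
    by_cases hw : w = w₁
    · rw [hw, hm]; rfl
    · exact congrFun this ⟨w, hw⟩
  · -- finite index
    let b : {w : InfinitePlace K // w ≠ dirichletUnitTheorem.w₀} → unitLattice K :=
      fun i => MinkRank.toLat (u i)
    have hsum : ∀ g : {w : InfinitePlace K // w ≠ dirichletUnitTheorem.w₀} → ℤ,
        ((∑ i, g i • b i : unitLattice K) : dirichletUnitTheorem.logSpace K) =
          logEmbedding K (Additive.ofMul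
            (∏ i : {w : InfinitePlace K // w ≠ dirichletUnitTheorem.w₀}, u i ^ g i)) := by
      intro g
      rw [ofMul_prod, map_sum, Submodule.coe_sum]
      refine Finset.sum_congr rfl (fun i _ => ?_)
      rw [ofMul_zpow, map_zsmul, Submodule.coe_smul, MinkRank.coe_toLat]
    have hb : LinearIndependent ℤ b := by
      rw [Fintype.linearIndependent_iff]
      intro g hg i
      have h1 := hsum g
      rw [hg, Submodule.coe_zero] at h1
      exact congrFun (MinkRank.indep u hu _ g
        (dirichletUnitTheorem.logEmbedding_eq_zero_iff.1 h1.symm)) i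
    let N : Submodule ℤ (unitLattice K) := Submodule.span ℤ (Set.range b)
    have hrank : finrank ℤ N = finrank ℤ (unitLattice K) := by
      rw [finrank_span_eq_card hb, unitLattice_rank, Units.rank]
      simp only [Fintype.card_subtype_compl, Fintype.card_subtype_eq]
    have hfin : Finite (unitLattice K ⧸ N) :=
      Submodule.finiteQuotientOfFreeOfRankEq N hrank
    have hfin' : Finite (unitLattice K ⧸ N.toAddSubgroup) := hfin
    have hn1 : N.toAddSubgroup.index ≠ 0 := AddSubgroup.index_ne_zero_of_finite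
    have htor : IsMulTorsion ((𝓞 K)ˣ ⧸ Subgroup.closure (Set.range u)) := by
      intro x
      induction x using QuotientGroup.induction_on with
      | H x =>
        have h1 : N.toAddSubgroup.index • MinkRank.toLat x ∈ N :=
          AddSubgroup.nsmul_index_mem N.toAddSubgroup _
        obtain ⟨g, hg⟩ := (Submodule.mem_span_range_iff_exists_fun ℤ).1 h1
        have h2 := hsum g
        rw [hg, AddSubmonoidClass.coe_nsmul, MinkRank.coe_toLat] at h2
        have h3 : x ^ N.toAddSubgroup.index *
            (∏ i : {w : InfinitePlace K // w ≠ dirichletUnitTheorem.w₀}, u i ^ g i)⁻¹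
            ∈ torsion K := by
          rw [← dirichletUnitTheorem.logEmbedding_eq_zero_iff, ofMul_mul, ofMul_inv, map_add,
            map_neg, ← h2, ofMul_pow, map_nsmul]
          exact sub_self _
        obtain ⟨n₂, hn₂, h4⟩ := isOfFinOrder_iff_pow_eq_one.1 ((CommGroup.mem_torsion _).1 h3)
        rw [isOfFinOrder_iff_pow_eq_one]
        refine ⟨N.toAddSubgroup.index * n₂, Nat.mul_pos (Nat.pos_of_ne_zero hn1) hn₂, ?_⟩
        rw [← QuotientGroup.mk_pow, QuotientGroup.eq_one_iff]
        have h5 : x ^ (N.toAddSubgroup.index * n₂) =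
            (∏ i : {w : InfinitePlace K // w ≠ dirichletUnitTheorem.w₀}, u i ^ g i) ^ n₂ := by
          rw [mul_pow, inv_pow, mul_inv_eq_one, ← pow_mul] at h4
          exact h4
        rw [h5]
        refine pow_mem (prod_mem (fun i _ => zpow_mem (Subgroup.subset_closure (Set.mem_range_self _)) _)) _
    have hfg : Group.FG (𝓞 K)ˣ := Group.fg_iff_monoid_fg.2 inferInstance
    have : Finite ((𝓞 K)ˣ ⧸ Subgroup.closure (Set.range u)) :=
      CommGroup.finite_of_fg_isMulTorsion _ htor
    exact Subgroup.index_ne_zero_of_finite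

end Fermat.Agent.TW56.EC

end
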