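/-
TEAM TW56 -> S56, block [EC].  AD1 : `dim_{𝔽_p} (ad⁰(1))^{c=-1} = [k : 𝔽_p]`.
-/
import Fermat.Agent.TW56.EC.Interface2

set_option autoImplicit false

noncomputable section

namespace Fermat.Agent.TW56.EC

open Fermat.Agent.CFT Fermat.Agent.CFT.Top Fermat.Agent.CFT.Pos Module CategoryTheory ExtCitation
open _root_.Fermat.Agent.S53 (M2)

namespace NegAd

variable {k : Type} [Field k]

theorem trace_zero (J : M2 k) (hJ : J * J = 1) (hd : J.det = -1) : J.trace = 0 := by
  have h00 := congrFun (congrFun hJ 0) 0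
  have h11 := congrFun (congrFun hJ 1) 1
  simp only [Matrix.mul_apply, Fin.sum_univ_two, Matrix.one_apply_eq] at h00 h11
  rw [Matrix.det_fin_two] at hd
  rw [Matrix.trace_fin_two]
  have : (J 0 0 + J 1 1) ^ 2 = 0 := by linear_combination h00 + h11 + 2 * hd
  exact (pow_eq_zero_iff two_ne_zero).1 this

theorem comm_eq_smul (h2 : (2 : k) ≠ 0) (J m : M2 k) (hJ : J * J = 1) (htJ : J.trace = 0)
    (htm : m.trace = 0) (hc : J * m = m * J) : ∃ t : k, m = t • J := by
  have h00 := congrFun (congrFun hJ 0) 0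
  have e00 := congrFun (congrFun hc 0) 0
  have e01 := congrFun (congrFun hc 0) 1
  have e10 := congrFun (congrFun hc 1) 0
  simp only [Matrix.mul_apply, Fin.sum_univ_two, Matrix.one_apply_eq] at h00 e00 e01 e10
  rw [Matrix.trace_fin_two] at htJ htm
  have hd : J 1 1 = - J 0 0 := by linear_combination htJ
  have hm : m 1 1 = - m 0 0 := by linear_combination htm
  rw [hd, hm] at e01 e10
  have f1 : J 0 0 * m 0 1 = J 0 1 * m 0 0 := by
    have : (2 : k) * (J 0 0 * m 0 1 - J 0 1 * m 0 0) = 0 := by linear_combination e01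
    have := (mul_eq_zero.1 this).resolve_left h2
    linear_combination this
  have f2 : J 1 0 * m 0 0 = J 0 0 * m 1 0 := by
    have : (2 : k) * (J 1 0 * m 0 0 - J 0 0 * m 1 0) = 0 := by linear_combination e10
    have := (mul_eq_zero.1 this).resolve_left h2
    linear_combination this
  refine ⟨m 0 0 * J 0 0 + J 0 1 * m 1 0, ?_⟩
  ext i j
  fin_cases i <;> fin_cases j <;>
    simp only [Matrix.smul_apply, smul_eq_mul, Fin.zero_eta, Fin.mk_one, Fin.isValue]
  · linear_combination (- m 0 0) * h00 + J 0 1 * f2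
  · linear_combination (- m 0 1) * h00 + J 0 0 * f1 - J 0 1 * e00
  · linear_combination (- m 1 0) * h00 - J 0 0 * f2
  · rw [hm, hd]
    linear_combination m 0 0 * h00 - J 0 1 * f2

theorem two_ne_zero' (p : ℕ) [Fact p.Prime] (hp : p ≠ 2) [Algebra (ZMod p) k] : (2 : k) ≠ 0 := by
  intro h
  have h1 : algebraMap (ZMod p) k 2 = algebraMap (ZMod p) k 0 := by
    rw [map_ofNat, map_zero, h]
  have h2 : (2 : ZMod p) = 0 := (algebraMap (ZMod p) k).injective h1
  have h3 : ((2 : ℕ) : ZMod p) = 0 := by exact_mod_cast h2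
  rw [ZMod.natCast_eq_zero_iff] at h3
  exact hp ((Nat.prime_dvd_prime_iff_eq Fact.out Nat.prime_two).1 h3)

end NegAd

/-- **AD1** -/
theorem stmt_negAd (hc : Stmt_cycConj) : Stmt_negAd := by
  intro p _ k _ _ _ rb Smin hyp
  have h2 : (2 : k) ≠ 0 := NegAd.two_ne_zero' p hyp.p2
  obtain ⟨c, hcdef⟩ : ∃ c : GQ, c = complexConjugation := ⟨_, rfl⟩
  rw [← hcdef]
  have hcc : c * c = 1 := by rw [hcdef]; exact complexConjugation_mul_self
  have hcinv : c⁻¹ = c := inv_eq_of_mul_eq_one_right hcc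
  have hχ : cycloChar p c = -1 := by rw [hcdef]; exact hc p
  obtain ⟨J, hJdef⟩ : ∃ J : M2 k, J = rb c := ⟨_, rfl⟩
  have hJJ : J * J = 1 := by rw [hJdef, ← map_mul, hcc, map_one]
  have hdet : J.det = -1 := by
    rw [hJdef, hyp.det, hχ]
    simp
  have htJ : J.trace = 0 := NegAd.trace_zero J hJJ hdet
  have hact : ∀ m : GW.Sl2 p k, (((GW.Xtw p rb).ρ c m : GW.Sl2 p k) : M2 k) = -(J * m.1 * J) := by
    intro m
    rw [GW.adRep_ρ_coe, hχ, hcinv, ← hJdef]
    simp
  let f : k →ₗ[ZMod p] GW.Sl2 p k :=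
    { toFun := fun t => ⟨t • J, by
        show (t • J).trace = 0
        rw [Matrix.trace_smul, htJ, smul_zero]⟩
      map_add' := fun a b => Subtype.ext (add_smul a b J)
      map_smul' := fun a t => Subtype.ext (smul_assoc a t J) }
  have hf : ∀ t, ((f t : GW.Sl2 p k) : M2 k) = t • J := fun _ => rfl
  have hker : ∀ m : GW.Sl2 p k, m ∈ LinearMap.ker ((GW.Xtw p rb).ρ c + 1) ↔ J * m.1 * J = m.1 := by
    intro m
    rw [LinearMap.mem_ker, LinearMap.add_apply, Module.End.one_apply]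
    constructor
    · intro h
      have h' : (((GW.Xtw p rb).ρ c m : GW.Sl2 p k) : M2 k) + m.1 = 0 := congrArg Subtype.val h
      rw [hact] at h'
      exact (neg_add_eq_zero.1 h')
    · intro h
      apply Subtype.ext
      show (((GW.Xtw p rb).ρ c m : GW.Sl2 p k) : M2 k) + m.1 = 0
      rw [hact, h, neg_add_cancel]
  have hmem : ∀ t, f t ∈ LinearMap.ker ((GW.Xtw p rb).ρ c + 1) := by
    intro t
    rw [hker, hf, mul_smul_comm, smul_mul_assoc, hJJ, one_mul]
  have hinj : Function.Injective (f.codRestrict _ hmem) := by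
    intro a b hab
    have h1 : a • J = b • J := congrArg (fun x => ((x.1 : GW.Sl2 p k) : M2 k)) hab
    have h3 : (a • J) * J = (b • J) * J := by rw [h1]
    rw [smul_mul_assoc, smul_mul_assoc, hJJ] at h3
    have h4 := congrFun (congrFun h3 0) 0
    simpa using h4
  have hsurj : Function.Surjective (f.codRestrict _ hmem) := by
    rintro ⟨m, hm⟩
    have hm' := (hker m).1 hm
    have hcomm : J * (m : GW.Sl2 p k).1 = (m : GW.Sl2 p k).1 * J := by
      calc J * (m : GW.Sl2 p k).1 = J * (m : GW.Sl2 p k).1 * (J * J) := by rw [hJJ, mul_one]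
        _ = (J * (m : GW.Sl2 p k).1 * J) * J := by rw [mul_assoc, mul_assoc, mul_assoc]
        _ = (m : GW.Sl2 p k).1 * J := by rw [hm']
    obtain ⟨t, ht⟩ := NegAd.comm_eq_smul h2 J (m : GW.Sl2 p k).1 hJJ htJ
      (GW.mem_Sl2.1 (m : GW.Sl2 p k).2) hcomm
    refine ⟨t, ?_⟩
    apply Subtype.ext
    apply Subtype.ext
    exact ht.symm
  exact (LinearEquiv.ofBijective (f.codRestrict _ hmem) ⟨hinj, hsurj⟩).finrank_eq.symm

end Fermat.Agent.TW56.EC

end
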