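/-
EC-F2: `dim X^{c = -1}` is additive in short exact sequences (`Stmt_negAdd`).

`π = (1 - c)/2` is a projector onto `ker (c + 1)` commuting with morphisms, hence
`0 → X₁⁻ → X₂⁻ → X₃⁻ → 0` is exact; conclude by rank-nullity.
-/
import Fermat.Agent.TW56.EC.Interface

set_option autoImplicit false

noncomputable section

namespace Fermat.Agent.TW56.EC

open Fermat.Agent.CFT Fermat.Agent.CFT.Top Fermat.Agent.CFT.Pos Fermat.Agent.CFT.Local
  Fermat.Agent.TW56.Loc Module CategoryTheory ExtCitation NumberField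

attribute [local instance] Units.mulDistribMulActionRight
attribute [local instance] quotAct
attribute [local instance] addAct
attribute [local instance] funAct

namespace NegAdd

/-- Pure linear algebra: additivity of `dim ker (c + 1)` along an equivariant short exact sequence. -/
theorem lin (k : Type) [Field k] (h2 : (2 : k) ≠ 0)
    (V₁ V₂ V₃ : Type) [AddCommGroup V₁] [Module k V₁] [AddCommGroup V₂] [Module k V₂]
    [AddCommGroup V₃] [Module k V₃] [Module.Finite k V₂]
    (c₁ : V₁ →ₗ[k] V₁) (c₂ : V₂ →ₗ[k] V₂) (c₃ : V₃ →ₗ[k] V₃)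
    (hc₂ : ∀ x, c₂ (c₂ x) = x)
    (i : V₁ →ₗ[k] V₂) (q : V₂ →ₗ[k] V₃)
    (hi : ∀ x, i (c₁ x) = c₂ (i x)) (hq : ∀ x, q (c₂ x) = c₃ (q x))
    (inj : Function.Injective i) (surj : Function.Surjective q)
    (ex : ∀ x, q x = 0 ↔ ∃ a, i a = x) :
    finrank k (LinearMap.ker (c₂ + 1)) =
      finrank k (LinearMap.ker (c₁ + 1)) + finrank k (LinearMap.ker (c₃ + 1)) := by
  have mem₁ : ∀ x, x ∈ LinearMap.ker (c₁ + 1) ↔ c₁ x + x = 0 := fun x => by
    simp [LinearMap.mem_ker]
  have mem₂ : ∀ x, x ∈ LinearMap.ker (c₂ + 1) ↔ c₂ x + x = 0 := fun x => by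
    simp [LinearMap.mem_ker]
  have mem₃ : ∀ x, x ∈ LinearMap.ker (c₃ + 1) ↔ c₃ x + x = 0 := fun x => by
    simp [LinearMap.mem_ker]
  -- the restriction of `q`
  let Q : LinearMap.ker (c₂ + 1) →ₗ[k] LinearMap.ker (c₃ + 1) :=
    q.restrict (fun x hx => by
      rw [mem₂] at hx
      rw [mem₃, ← hq, ← map_add, hx, map_zero])
  -- the restriction of `i`
  let I : LinearMap.ker (c₁ + 1) →ₗ[k] LinearMap.ker (c₂ + 1) :=
    i.restrict (fun x hx => by
      rw [mem₁] at hx
      rw [mem₂, ← hi, ← map_add, hx, map_zero])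
  have hQ : ∀ x, ((Q x : LinearMap.ker (c₃ + 1)) : V₃) = q x := fun x => rfl
  have hI : ∀ x, ((I x : LinearMap.ker (c₂ + 1)) : V₂) = i x := fun x => rfl
  have Iinj : Function.Injective I := by
    intro a b hab
    apply Subtype.ext
    apply inj
    rw [← hI, ← hI, hab]
  have Qsurj : Function.Surjective Q := by
    rintro ⟨y, hy⟩
    rw [mem₃] at hy
    obtain ⟨x, rfl⟩ := surj y
    have hx' : (2 : k)⁻¹ • (x - c₂ x) ∈ LinearMap.ker (c₂ + 1) := by
      rw [mem₂, map_smul, map_sub, hc₂, ← smul_add]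
      have h0 : c₂ x - x + (x - c₂ x) = 0 := by abel
      rw [h0, smul_zero]
    refine ⟨⟨_, hx'⟩, ?_⟩
    apply Subtype.ext
    rw [hQ]
    show q ((2 : k)⁻¹ • (x - c₂ x)) = q x
    have h3 : c₃ (q x) = - q x := eq_neg_of_add_eq_zero_left hy
    rw [map_smul, map_sub, hq, h3, sub_neg_eq_add, ← two_smul k (q x), smul_smul,
      inv_mul_cancel₀ h2, one_smul]
  have hker : LinearMap.ker Q = LinearMap.range I := by
    ext x
    rw [LinearMap.mem_ker, LinearMap.mem_range]
    constructor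
    · intro hx
      have hx0 : q (x : V₂) = 0 := by rw [← hQ, hx]; rfl
      obtain ⟨a, ha⟩ := (ex _).1 hx0
      have hx2 := (mem₂ _).1 x.2
      have ha1 : a ∈ LinearMap.ker (c₁ + 1) := by
        rw [mem₁]
        apply inj
        rw [map_add, hi, ha, hx2, map_zero]
      exact ⟨⟨a, ha1⟩, Subtype.ext ha⟩
    · rintro ⟨a, rfl⟩
      apply Subtype.ext
      rw [hQ, hI]
      exact (ex _).2 ⟨_, rfl⟩
  have h := LinearMap.finrank_range_add_finrank_ker Q
  rw [LinearMap.range_eq_top.2 Qsurj, finrank_top, hker,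
    LinearMap.finrank_range_of_inj Iinj] at h
  omega

end NegAdd

/-- F2. `dim X^{c=-1}` is additive. -/
theorem stmt_negAdd : Stmt_negAdd := by
  intro k _ h2 G _ c hc X₁ X₂ X₃ i q hfin hses
  have := hfin
  refine NegAdd.lin k h2 X₁ X₂ X₃ (X₁.ρ c) (X₂.ρ c) (X₃.ρ c) ?_ i.hom.toLinearMap
    q.hom.toLinearMap ?_ ?_ hses.inj hses.surj hses.exact
  · intro x
    have h : X₂.ρ (c * c) x = x := by rw [hc, map_one]; rfl
    rw [map_mul] at h
    exact h
  · intro x
    exact Rep.hom_comm_apply i c x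
  · intro x
    exact Rep.hom_comm_apply q c x

end Fermat.Agent.TW56.EC
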