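/-
TEAM TW56 -> S56, block [EC], package F6 : `2 dim (perm W)^{c=-1} = [G : W]`.
-/
import Fermat.Agent.TW56.EC.Interface

set_option autoImplicit false

noncomputable section

namespace Fermat.Agent.TW56.EC

open Fermat.Agent.CFT Fermat.Agent.CFT.Top Fermat.Agent.CFT.Pos Fermat.Agent.CFT.Local
  Fermat.Agent.TW56.Loc Module CategoryTheory ExtCitation NumberField

attribute [local instance] Units.mulDistribMulActionRight
attribute [local instance] quotAct
attribute [local instance] addAct
attribute [local instance] funAct

namespace NegPerm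

/-- a fixed point free involution has a sign function. -/
lemma exists_sign (k : Type) [Field k] {Q : Type} [Finite Q] (τ : Q → Q) (hτ : ∀ x, τ (τ x) = x)
    (hfix : ∀ x, τ x ≠ x) : ∃ s : Q → k, (∀ x, s (τ x) = - s x) ∧ ∀ x, s x * s x = 1 := by
  classical
  obtain ⟨n, ⟨e⟩⟩ := Finite.exists_equiv_fin Q
  refine ⟨fun x => if e x < e (τ x) then 1 else -1, fun x => ?_, fun x => ?_⟩
  · have hne : e (τ x) ≠ e x := fun h => hfix x (e.injective h)
    simp only [hτ]
    by_cases h : e x < e (τ x)
    · rw [if_pos h, if_neg (not_lt.2 h.le)]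
    · rw [if_neg h, if_pos (lt_of_le_of_ne (not_lt.1 h) hne), neg_neg]
  · dsimp only
    split_ifs <;> ring

/-- the abstract form. -/
lemma key {k : Type} [Field k] (h2 : (2 : k) ≠ 0) {Q : Type} [Finite Q] (τ : Q → Q)
    (hτ : ∀ x, τ (τ x) = x) (hfix : ∀ x, τ x ≠ x) (T : (Q → k) →ₗ[k] (Q → k))
    (hT : ∀ F x, T F x = F (τ x)) : 2 * finrank k (LinearMap.ker (T + 1)) = Nat.card Q := by
  classical
  cases nonempty_fintype Q
  obtain ⟨s, hs, hs2⟩ := exists_sign k τ hτ hfix
  -- multiplication by `s`
  let M : (Q → k) ≃ₗ[k] (Q → k) :=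
    { toFun := fun F x => s x * F x
      map_add' := fun F F' => by funext x; simp [mul_add]
      map_smul' := fun t F => by funext x; simp; ring
      invFun := fun F x => s x * F x
      left_inv := fun F => by
        funext x
        show s x * (s x * F x) = F x
        rw [← mul_assoc, hs2, one_mul]
      right_inv := fun F => by
        funext x
        show s x * (s x * F x) = F x
        rw [← mul_assoc, hs2, one_mul] }
  have hM : ∀ F x, M F x = s x * F x := fun _ _ => rfl
  have hmap : (LinearMap.range (T + 1)).map (M : (Q → k) →ₗ[k] (Q → k)) = LinearMap.ker (T + 1) := by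
    apply le_antisymm
    · rintro _ ⟨_, ⟨F, rfl⟩, rfl⟩
      rw [LinearMap.mem_ker]
      funext x
      simp only [LinearMap.add_apply, Module.End.one_apply, Pi.add_apply, hT, LinearEquiv.coe_coe,
        hM, hs, hτ, Pi.zero_apply]
      ring
    · intro F hF
      rw [LinearMap.mem_ker] at hF
      have hF' : ∀ x, F (τ x) = - F x := by
        intro x
        have := congrFun hF x
        simp only [LinearMap.add_apply, Module.End.one_apply, Pi.add_apply, hT,
          Pi.zero_apply] at this
        exact eq_neg_of_add_eq_zero_left this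
      refine ⟨M F, ⟨(2 : k)⁻¹ • M F, ?_⟩, ?_⟩
      · funext x
        simp only [LinearMap.add_apply, Module.End.one_apply, Pi.add_apply, hT, Pi.smul_apply,
          smul_eq_mul, hM, hs, hF']
        field_simp
        ring
      · funext x
        simp only [LinearEquiv.coe_coe, hM]
        rw [← mul_assoc, hs2, one_mul]
  have h1 := LinearMap.finrank_range_add_finrank_ker (T + 1)
  have h3 : finrank k (LinearMap.range (T + 1)) = finrank k (LinearMap.ker (T + 1)) := by
    rw [← hmap]
    exact (LinearEquiv.finrank_map_eq M _).symm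
  rw [h3, Module.finrank_fintype_fun_eq_card, ← Nat.card_eq_fintype_card] at h1
  rw [← h1]
  ring

end NegPerm

theorem stmt_negPerm : Stmt_negPerm := by
  intro k _ h2 G _ W _ _ c hc hcW
  have hcinv : c⁻¹ = c := inv_eq_of_mul_eq_one_left hc
  have hfin : Finite (G ⧸ W) := Subgroup.finite_quotient_of_finiteIndex
  refine NegPerm.key h2 (fun x : G ⧸ W => c⁻¹ • x) (fun x => ?_) (fun x => ?_)
    ((perm W : Rep.{0} k G).ρ c) (fun F x => rfl)
  · rw [smul_smul, hcinv, hc, one_smul]
  · induction x using QuotientGroup.induction_on with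
    | H g =>
      intro h
      have h1 : ((c⁻¹ * g : G) : G ⧸ W) = (g : G ⧸ W) := h
      rw [QuotientGroup.eq] at h1
      have h2 : g⁻¹ * c * g ∈ W := by
        have e : (c⁻¹ * g)⁻¹ * g = g⁻¹ * c * g := by group
        rwa [e] at h1
      have h3 := (inferInstance : W.Normal).conj_mem _ h2 g
      have e : g * (g⁻¹ * c * g) * g⁻¹ = c := by group
      rw [e] at h3
      exact hcW h3

end Fermat.Agent.TW56.EC

end
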