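/-
TEAM TW56 -> S56, block [EC] (architect helper56), task EC-H6 (helper99):
`dim P^{c=-1} = rkL a ⟨c⟩` for the retract `P = e (tw W N)` when `χ(c) = -1` (`Stmt_negTw`).

`T y = (x ↦ ψ (i y x))` (`ψ : N ≃ 𝔽_p`) is injective on `P` and maps `ker (c + 1)` onto
`regOp a (invL p ⟨c⟩)`.
-/
import Fermat.Agent.TW56.EC.Interface

set_option autoImplicit false
set_option linter.unusedSectionVars false

noncomputable section

namespace Fermat.Agent.TW56.EC

open Fermat.Agent.CFT Fermat.Agent.CFT.Top Fermat.Agent.CFT.Pos Fermat.Agent.CFT.Local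
  Fermat.Agent.TW56.Loc Module CategoryTheory ExtCitation NumberField

attribute [local instance] Units.mulDistribMulActionRight
attribute [local instance] quotAct
attribute [local instance] addAct
attribute [local instance] funAct

namespace NegTw

section Abs

variable {p : ℕ} [Fact p.Prime] {Γ : Type} [Group Γ] [Finite Γ]
  {N P : Type} [AddCommGroup N] [Module (ZMod p) N] [AddCommGroup P] [Module (ZMod p) P]

/-- `y ↦ (x ↦ ψ (i y x))`. -/
def T (ψ : N ≃ₗ[ZMod p] ZMod p) (i : P →ₗ[ZMod p] (Γ → N)) : P →ₗ[ZMod p] (Γ → ZMod p) :=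
  (ψ.toLinearMap.compLeft Γ) ∘ₗ i

lemma T_apply (ψ : N ≃ₗ[ZMod p] ZMod p) (i : P →ₗ[ZMod p] (Γ → N)) (y : P) (x : Γ) :
    T ψ i y x = ψ (i y x) := rfl

lemma T_injective (ψ : N ≃ₗ[ZMod p] ZMod p) (i : P →ₗ[ZMod p] (Γ → N))
    (r : (Γ → N) →ₗ[ZMod p] P) (h1 : ∀ x, r (i x) = x) : Function.Injective (T ψ i) := by
  intro y y' h
  have h3 : i y = i y' := funext fun x => ψ.injective (congrFun h x)
  rw [← h1 y, ← h1 y', h3]

/-- the left stabiliser of a function. -/
def stabL (F : Γ → N) : Subgroup Γ where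
  carrier := {d | ∀ x, F (d * x) = F x}
  one_mem' := fun x => by rw [one_mul]
  mul_mem' := by
    intro a b ha hb x
    rw [mul_assoc, ha, hb]
  inv_mem' := by
    intro a ha x
    have := ha (a⁻¹ * x)
    rw [mul_inv_cancel_left] at this
    exact this.symm

theorem abs_finrank (ψ : N ≃ₗ[ZMod p] ZMod p) (a : Γ → ZMod p) (i : P →ₗ[ZMod p] (Γ → N))
    (r : (Γ → N) →ₗ[ZMod p] P) (h1 : ∀ x, r (i x) = x)
    (h2 : ∀ F c, i (r F) c = ∑ᶠ γ : Γ, a γ • F (c * γ))
    (D : Subgroup Γ) (K : Submodule (ZMod p) P)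
    (hK1 : ∀ y ∈ K, ∀ d ∈ D, ∀ x, i y (d * x) = i y x)
    (hK2 : ∀ F : Γ → N, (∀ d ∈ D, ∀ x, F (d * x) = F x) → r F ∈ K) :
    finrank (ZMod p) K = rkL a D := by
  have hinj := T_injective ψ i r h1
  rw [(Submodule.equivMapOfInjective (T ψ i) hinj K).finrank_eq, rkL]
  have key : ∀ F : Γ → N, T ψ i (r F) = regOp a (fun x => ψ (F x)) := by
    intro F
    funext c
    rw [T_apply, h2, map_finsum _ (Set.toFinite _)]
    show _ = ∑ᶠ γ : Γ, a γ * ψ (F (c * γ))
    exact finsum_congr fun γ => by rw [map_smul, smul_eq_mul]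
  suffices e : K.map (T ψ i) = (invL p D).map (regOp a) by rw [e]
  ext ℓ
  constructor
  · rintro ⟨y, hy, rfl⟩
    refine ⟨T ψ i y, ?_, ?_⟩
    · intro d hd x
      rw [T_apply, T_apply, hK1 y hy d hd]
    · have := key (i y)
      rw [h1] at this
      exact this.symm
  · rintro ⟨ℓ₀, hℓ₀, rfl⟩
    refine ⟨r (fun x => ψ.symm (ℓ₀ x)), hK2 _ (fun d hd x => by rw [hℓ₀ d hd x]), ?_⟩
    rw [key]
    congr 1
    funext x
    exact ψ.apply_symm_apply _

end Abs

lemma smul_eq_mk_mul {G : Type} [Group G] (W : Subgroup G) [W.Normal] (g : G) (c : G ⧸ W) :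
    g • c = (g : G ⧸ W) * c := by
  induction c using QuotientGroup.induction_on
  rfl

end NegTw

open NegTw in
/-- EC-H6. -/
theorem stmt_negTw : Stmt_negTw := by
  intro p _ G _ χ N hN W _ _ c hc a P i r h1 h2
  have hfin : Module.Finite (ZMod p) N := Module.finite_of_finrank_pos (by rw [hN.1]; exact one_pos)
  let ψ : N ≃ₗ[ZMod p] ZMod p := LinearEquiv.ofFinrankEq _ _ (by rw [hN.1, finrank_self])
  have hρ : ∀ F : G ⧸ W → N, ∀ x, (tw W N).ρ c F x = - F ((c : G ⧸ W)⁻¹ * x) := by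
    intro F x
    rw [tw_ρ_apply, smul_eq_mk_mul, hN.2, hc, QuotientGroup.mk_inv]
    simp
  refine abs_finrank (N := N) (P := P) ψ a i.hom.toLinearMap r.hom.toLinearMap h1 ?_
    (Subgroup.zpowers (c : G ⧸ W)) (LinearMap.ker (P.ρ c + 1)) ?_ ?_
  · intro F x
    have := congrFun (h2 F) x
    rw [rtOp_apply] at this
    exact this
  · intro y hy
    have hy' : P.ρ c y = - y := by
      have : P.ρ c y + y = 0 := hy
      exact eq_neg_of_add_eq_zero_left this
    have e1 : ∀ x, i.hom y ((c : G ⧸ W)⁻¹ * x) = i.hom y x := by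
      intro x
      have e2 := congrFun (Rep.hom_comm_apply i c y) x
      rw [hy', map_neg, hρ] at e2
      exact (neg_injective e2).symm
    have hle : Subgroup.zpowers (c : G ⧸ W) ≤ stabL (i.hom y) := by
      rw [Subgroup.zpowers_le]
      exact (stabL (i.hom y)).inv_mem_iff.1 e1
    exact fun d hd => hle hd
  · intro F hF
    show P.ρ c (r.hom F) + r.hom F = 0
    have e2 := Rep.hom_comm_apply r c F
    have e3 : (tw W N).ρ c F = - F := by
      funext x
      rw [hρ, hF _ (inv_mem (Subgroup.mem_zpowers _))]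
      rfl
    rw [e3, map_neg] at e2
    rw [← e2, neg_add_cancel]

end Fermat.Agent.TW56.EC
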