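/-
TEAM TW56 -> S56, block [EC], package U6 : an element of `L` supported at one prime (`Stmt_oneQ`).
-/
import Fermat.Agent.TW56.EC.Interface
import Fermat.Agent.TW56.EC.FixW
import Fermat.Agent.CFT.GN.DictAB
import Fermat.Agent.CFT.GN.Cls
import Fermat.Agent.CFT.LocalBridge
import Fermat.Agent.CFT.Top.BridgeLevels

set_option autoImplicit false

noncomputable section

namespace Fermat.Agent.TW56.EC

open Fermat.Agent.CFT Fermat.Agent.CFT.Top Fermat.Agent.CFT.Pos Fermat.Agent.CFT.Local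
  Fermat.Agent.TW56.Loc Module CategoryTheory ExtCitation NumberField IsDedekindDomain
open scoped Pointwise

attribute [local instance] Units.mulDistribMulActionRight
attribute [local instance] quotAct
attribute [local instance] addAct
attribute [local instance] funAct

namespace OneQ

/-- a place of `ℚ̄` lies over at most one prime. -/
lemma prime_unique (A : ValuationSubring Qb) {q q' : ℕ} (hq : q.Prime) (hq' : q'.Prime)
    (h : A.LiesOverPrime q) (h' : A.LiesOverPrime q') : q = q' := by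
  by_contra hne
  have hc : Nat.Coprime q q' := (Nat.coprime_primes hq hq').2 hne
  have hb : (q : ℤ) * Nat.gcdA q q' + q' * Nat.gcdB q q' = 1 := by
    have := Nat.gcd_eq_gcd_ab q q'
    rw [hc.gcd_eq_one] at this
    exact_mod_cast this.symm
  have hb' : (q : Qb) * ((Nat.gcdA q q' : ℤ) : Qb) + (q' : Qb) * ((Nat.gcdB q q' : ℤ) : Qb) = 1 := by
    exact_mod_cast congrArg (Int.cast : ℤ → Qb) hb
  have hint : ∀ n : ℤ, A.valuation ((n : ℤ) : Qb) ≤ 1 := fun n =>
    (A.valuation_le_one_iff _).2 (intCast_mem A n)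
  have h1 : A.valuation ((q : Qb) * ((Nat.gcdA q q' : ℤ) : Qb)) < 1 := by
    rw [map_mul]
    exact mul_lt_one_of_lt_of_le h (hint _)
  have h2 : A.valuation ((q' : Qb) * ((Nat.gcdB q q' : ℤ) : Qb)) < 1 := by
    rw [map_mul]
    exact mul_lt_one_of_lt_of_le h' (hint _)
  have h3 : A.valuation (1 : Qb) < 1 := by
    rw [← hb']
    exact lt_of_le_of_lt (A.valuation.map_add _ _) (max_lt h1 h2)
  rw [map_one] at h3
  exact lt_irrefl _ h3

lemma val_eq_one (A : ValuationSubring Qb) {x : Qb} (hx : x ≠ 0) (h1 : x ∈ A) (h2 : x⁻¹ ∈ A) :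
    A.valuation x = 1 := by
  have h0 : A.valuation x ≠ 0 := (Valuation.ne_zero_iff _).2 hx
  have h3 := (A.valuation_le_one_iff _).2 h2
  rw [map_inv₀] at h3
  exact le_antisymm ((A.valuation_le_one_iff _).2 h1) ((inv_le_one₀ (zero_lt_iff.2 h0)).1 h3)

/-- an element of `k` of valuation one at `v` is a unit of every `A` over `v`. -/
lemma unit_of_val_one {k : GN.IF} [NumberField k] {A : ValuationSubring Qb}
    {v : HeightOneSpectrum (𝓞 k)} (h : GN.Over A v) (x : k) (hx : v.valuation k x = 1) :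
    (x : Qb) ∈ A ∧ (x : Qb)⁻¹ ∈ A := by
  refine ⟨(GN.dictB k A v h x).1 hx.le, ?_⟩
  have h1 : v.valuation k x⁻¹ ≤ 1 := by rw [map_inv₀, hx, inv_one]
  exact (GN.dictB k A v h x⁻¹).1 h1

lemma nrm_le_iff (q : Nat.Primes) (x : Qb) :
    nrmQ q x ≤ 1 ↔ x ∈ (haveI : Fact (q : ℕ).Prime := ⟨q.2⟩; padicPlace (q : ℕ)) := by
  have : Fact (q : ℕ).Prime := ⟨q.2⟩
  exact (lb_mem_padicPlace_iff (q : ℕ)).symm

lemma nrm_inv (q : Nat.Primes) (x : Qb) : nrmQ q x⁻¹ = (nrmQ q x)⁻¹ := by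
  have : Fact (q : ℕ).Prime := ⟨q.2⟩
  show ‖padicEmbedding (q : ℕ) x⁻¹‖ = ‖padicEmbedding (q : ℕ) x‖⁻¹
  rw [map_inv₀, norm_inv]

lemma nrm_pos (q : Nat.Primes) {x : Qb} (hx : x ≠ 0) : 0 < nrmQ q x := by
  have : Fact (q : ℕ).Prime := ⟨q.2⟩
  show 0 < ‖padicEmbedding (q : ℕ) x‖
  rw [norm_pos_iff]
  exact (map_ne_zero _).2 hx

lemma nrm_eq_one (q : Nat.Primes) {x : Qb} (hx : x ≠ 0) (h1 : nrmQ q x ≤ 1)
    (h2 : nrmQ q x⁻¹ ≤ 1) : nrmQ q x = 1 := by
  rw [nrm_inv] at h2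
  exact le_antisymm h1 ((inv_le_one₀ (nrm_pos q hx)).1 h2)

end OneQ

open OneQ in
theorem stmt_oneQ' (hD : Stmt_decQ) : Stmt_oneQ := by
  intro W _ hW q
  have : Fact (q : ℕ).Prime := ⟨q.2⟩
  obtain ⟨k, hfd, -, -, hk⟩ := stmt_fixW W hW
  have : NumberField k := { to_charZero := inferInstance, to_finiteDimensional := hfd }
  obtain ⟨-, hA2, -, -⟩ := GN.dictA k
  have hA₀ : (padicPlace (q : ℕ)).LiesOverPrime q := padicPlace_liesOverPrime (q : ℕ)
  obtain ⟨v₀, hv₀⟩ := hA2 (padicPlace (q : ℕ)) q q.2 hA₀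
  -- the element
  have hcl : GN.clsDiv (Finsupp.single v₀ ((Fintype.card (ClassGroup (𝓞 k)) : ℕ) : ℤ)) = 1 := by
    unfold GN.clsDiv
    rw [Finsupp.prod_single_index (zpow_zero _), zpow_natCast, pow_card_eq_one]
  obtain ⟨x, hx⟩ := ((GN.cls (𝓞 k) k).2 _).1 hcl
  have hx0 : ((x : k) : Qb) ≠ 0 := by
    intro h
    exact x.ne_zero (Subtype.ext h)
  have hv1 : ∀ v : HeightOneSpectrum (𝓞 k), v ≠ v₀ → v.valuation k (x : k) = 1 := by
    intro v hv
    rw [← HeightOneSpectrum.valuationOfNeZero_eq, hx v, Finsupp.single_eq_of_ne hv, neg_zero,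
      ofAdd_zero]
    rfl
  have hv0 : v₀.valuation k (x : k) < 1 := by
    rw [← HeightOneSpectrum.valuationOfNeZero_eq, hx v₀, Finsupp.single_eq_same, ← WithZero.coe_one,
      WithZero.coe_lt_coe, ← ofAdd_zero, Multiplicative.ofAdd_lt]
    have : 0 < Fintype.card (ClassGroup (𝓞 k)) := Fintype.card_pos
    omega
  have hfix : ∀ w ∈ W, w ((x : k) : Qb) = ((x : k) : Qb) := (hk _).1 (x : k).2
  let y₀ : FixedPoints.subfield W Qb := ⟨((x : k) : Qb), fun w => hfix w.1 w.2⟩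
  have hy₀ : y₀ ≠ 0 := fun h => hx0 (congrArg Subtype.val h)
  let y : XL W := Additive.ofMul (Units.mk0 y₀ hy₀)
  have hyval : y.val = ((x : k) : Qb) := rfl
  refine ⟨y, ?_, ?_, ?_⟩
  · -- `{q}`-unit
    intro q' hq' A hA
    rw [hyval]
    obtain ⟨v, hv⟩ := hA2 A q' q'.2 hA
    have hne : v ≠ v₀ := by
      rintro rfl
      apply hq'
      rw [Finset.mem_singleton]
      have h1 : ((q : ℕ) : 𝓞 k) ∈ v.asIdeal := by
        rw [hv₀]
        have : ((((q : ℕ) : 𝓞 k) : k) : Qb) = ((q : ℕ) : Qb) := by simp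
        rw [this]
        exact hA₀
      have h2 : A.LiesOverPrime q := by
        have h3 := (hv _).1 h1
        have : ((((q : ℕ) : 𝓞 k) : k) : Qb) = ((q : ℕ) : Qb) := by simp
        rw [this] at h3
        exact h3
      exact Subtype.ext (prime_unique A q'.2 q.2 hA h2)
    obtain ⟨h1, h2⟩ := unit_of_val_one hv (x : k) (hv1 v hne)
    exact val_eq_one A hx0 h1 h2
  · -- not a unit at the chosen place
    rw [hyval]
    intro h
    have h1 : nrmQ q ((x : k) : Qb)⁻¹ ≤ 1 := by rw [nrm_inv, h, inv_one]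
    have h2 := (GN.dictB k _ v₀ hv₀ (x : k)⁻¹).2 ((nrm_le_iff q _).1 h1)
    rw [map_inv₀] at h2
    have h0 : v₀.valuation k (x : k) ≠ 0 := (Valuation.ne_zero_iff _).2 x.ne_zero
    exact absurd hv0 (not_lt.2 ((inv_le_one₀ (zero_lt_iff.2 h0)).1 h2))
  · -- unit at the other places over `q`
    intro g hg
    rw [hyval]
    have hA' : (g • padicPlace (q : ℕ)).LiesOverPrime q := BrLev.liesOver_smul _ g hA₀
    obtain ⟨v, hv⟩ := hA2 _ q q.2 hA'
    have hmem : ∀ z : Qb, z ∈ g • padicPlace (q : ℕ) ↔ nrmQ q (g⁻¹ z) ≤ 1 := by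
      intro z
      rw [ValuationSubring.mem_pointwise_smul_iff_inv_smul_mem, nrm_le_iff]
      rfl
    have hne : v ≠ v₀ := by
      rintro rfl
      apply hg
      have h1 : ((g⁻¹ : GQ) : GQ ⧸ W) ∈ Dq W q := by
        refine (hD W hW q).2 g⁻¹ (fun z hz hz1 => ?_)
        have hzk : z ∈ k := (hk z).2 hz
        have h2 := (GN.dictB k _ v hv₀ ⟨z, hzk⟩).2 ((nrm_le_iff q z).1 hz1)
        exact (hmem z).1 ((GN.dictB k _ v hv ⟨z, hzk⟩).1 h2)
      have h2 := inv_mem h1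
      rwa [QuotientGroup.mk_inv, inv_inv] at h2
    obtain ⟨h1, h2⟩ := unit_of_val_one hv (x : k) (hv1 v hne)
    have h3 := (hmem _).1 h1
    have h4 := (hmem _).1 h2
    rw [map_inv₀] at h4
    exact nrm_eq_one q ((map_ne_zero _).2 hx0) h3 h4

theorem stmt_oneQ (_hF : Stmt_fixW) (hD : Stmt_decQ) : Stmt_oneQ := stmt_oneQ' hD

end Fermat.Agent.TW56.EC

end
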