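/-
TEAM TW56 -> S56, block [EC], U3 : the normalised valuation of `L = ℚ̄^W` at `padicEmbedding q`.
-/
import Fermat.Agent.TW56.EC.Interface
import Fermat.Agent.CFT.Local.Final

set_option autoImplicit false

noncomputable section

namespace Fermat.Agent.TW56.EC

open Fermat.Agent.CFT Fermat.Agent.CFT.Top Fermat.Agent.CFT.Pos Fermat.Agent.CFT.Local
  Fermat.Agent.TW56.Loc Module CategoryTheory ExtCitation NumberField

attribute [local instance] Units.mulDistribMulActionRight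
attribute [local instance] quotAct
attribute [local instance] addAct
attribute [local instance] funAct

namespace OrdQ

/-- the values of `nrmQ q` on `Lˣ` are powers of one `ρ`. -/
theorem exists_rho (W : Subgroup GQ) (hW : W ∈ levAll.S) (q : Nat.Primes) :
    ∃ ρ : ℝ, 0 < ρ ∧ ρ < 1 ∧ ∀ x : XL W, ∃ k : ℤ, nrmQ q x.val = ρ ^ k := by
  have : Fact (q : ℕ).Prime := ⟨q.2⟩
  have hT := all_padicTower (q : ℕ)
  have hU : W.comap (localGaloisToGlobal (q : ℕ)) ∈ (levq (q : ℕ)).S := ⟨W, hW, rfl⟩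
  have : (W.comap (localGaloisToGlobal (q : ℕ))).Normal := (levq (q : ℕ)).normal _ hU
  have : (W.comap (localGaloisToGlobal (q : ℕ))).FiniteIndex := (levq (q : ℕ)).fin _ hU
  have : Finite (Gq (q : ℕ) ⧸ W.comap (localGaloisToGlobal (q : ℕ))) := inferInstance
  obtain ⟨ϖ, h0, h1, h2⟩ := (hT.layer _ hU).loc.unif
  refine ⟨‖ϖ‖, norm_pos_iff.2 h0, h1, fun x => ?_⟩
  have hx0 : x.val ≠ 0 := by
    intro h
    have h3 : ((Additive.toMul x : (FixedPoints.subfield W Qb)ˣ) : FixedPoints.subfield W Qb) = 0 :=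
      Subtype.ext h
    exact (Units.ne_zero _) h3
  have hfix : padicEmbedding (q : ℕ) x.val ∈
      FixedPoints.subfield (W.comap (localGaloisToGlobal (q : ℕ))) (PadicAlgCl (q : ℕ)) := by
    intro u
    show (u : Gq (q : ℕ)) (padicEmbedding (q : ℕ) x.val) = _
    rw [← padicEmbedding_localGaloisToGlobal]
    congr 1
    exact ((Additive.toMul x : (FixedPoints.subfield W Qb)ˣ) : FixedPoints.subfield W Qb).2
      ⟨localGaloisToGlobal (q : ℕ) u, u.2⟩
  have hy0 : (⟨padicEmbedding (q : ℕ) x.val, hfix⟩ :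
      FixedPoints.subfield (W.comap (localGaloisToGlobal (q : ℕ))) (PadicAlgCl (q : ℕ))) ≠ 0 := by
    intro h
    have h3 : padicEmbedding (q : ℕ) x.val = 0 := congrArg Subtype.val h
    exact hx0 ((map_eq_zero _).1 h3)
  obtain ⟨k, hk⟩ := h2 _ hy0
  exact ⟨k, hk⟩

theorem nrmQ_mul (q : Nat.Primes) (x y : Qb) : nrmQ q (x * y) = nrmQ q x * nrmQ q y := by
  unfold nrmQ
  rw [map_mul, norm_mul]

end OrdQ

/-- U3. -/
theorem stmt_ordQ : Stmt_ordQ := by
  intro W hW q
  obtain ⟨ρ, h0, h1, h⟩ := OrdQ.exists_rho W hW q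
  choose o ho using h
  refine ⟨ρ, AddMonoidHom.mk' o ?_, h0, h1, ho⟩
  intro x y
  apply zpow_right_injective₀ h0 h1.ne
  show ρ ^ o (x + y) = ρ ^ (o x + o y)
  rw [zpow_add₀ h0.ne', ← ho, ← ho, ← ho, ← OrdQ.nrmQ_mul]
  rfl

end Fermat.Agent.TW56.EC

end
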