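/-
TEAM TW56 -> S56, block EC, task EC-H1 (helper72): the rank of the transposed operator.
-/
import Fermat.Agent.TW56.EC.Interface

set_option autoImplicit false

noncomputable section

namespace Fermat.Agent.TW56.EC

open Fermat.Agent.CFT Fermat.Agent.CFT.Top Fermat.Agent.CFT.Pos Fermat.Agent.CFT.Local
  Fermat.Agent.TW56.Loc Module CategoryTheory ExtCitation

namespace RkTranspose

open Classical in
/-- abstract form: an operator on `Γ → k` which is given by a matrix `M` on the quotient `Y` of `Γ`. -/
lemma finrank_map {k Γ Y : Type} [Field k] [Fintype Y] (π : Γ → Y)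
    (hπ : Function.Surjective π) (V : Submodule k (Γ → k))
    (hV : V = LinearMap.range (LinearMap.funLeft k k π)) (T : (Γ → k) →ₗ[k] (Γ → k))
    (M : Matrix Y Y k) (hT : ∀ (f : Y → k) (c : Γ), T (f ∘ π) c = (M.mulVec f) (π c)) :
    finrank k (V.map T) = M.rank := by
  have h1 : T ∘ₗ LinearMap.funLeft k k π = LinearMap.funLeft k k π ∘ₗ M.mulVecLin := by
    apply LinearMap.ext
    intro f
    funext c
    exact hT f c
  rw [hV, ← LinearMap.range_comp, h1, LinearMap.range_comp, Matrix.rank]
  exact (Submodule.equivMapOfInjective _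
    (LinearMap.funLeft_injective_of_surjective k k π hπ) _).finrank_eq.symm

end RkTranspose

open Classical in
theorem stmt_rkTranspose : Stmt_rkTranspose := by
  intro p _ Γ _ _ a D
  cases nonempty_fintype Γ
  let Y := Quotient (QuotientGroup.rightRel D)
  let π : Γ → Y := fun x => Quotient.mk'' x
  have hπs : Function.Surjective π := Quotient.mk''_surjective
  have hπ : ∀ x x' : Γ, π x = π x' ↔ x' * x⁻¹ ∈ D := by
    intro x x'
    rw [← QuotientGroup.rightRel_apply]
    exact Quotient.eq''
  have hπm : ∀ (x x' γ : Γ), π x = π x' → π (x * γ) = π (x' * γ) := by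
    intro x x' γ h
    rw [hπ] at h ⊢
    simpa [mul_assoc] using h
  have hout : ∀ y : Y, π y.out = y := fun y => Quotient.out_eq' y
  have hV : invL p D = LinearMap.range (LinearMap.funLeft (ZMod p) (ZMod p) π) := by
    ext F
    rw [mem_invL, LinearMap.mem_range]
    constructor
    · intro h
      refine ⟨fun y => F y.out, ?_⟩
      funext x
      rw [LinearMap.funLeft_apply]
      have h1 : π (π x).out = π x := hout _
      rw [hπ] at h1
      have h2 := h _ h1 (π x).out
      rw [inv_mul_cancel_right] at h2
      exact h2.symm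
    · rintro ⟨f, rfl⟩ d hd x
      rw [LinearMap.funLeft_apply, LinearMap.funLeft_apply]
      congr 1
      rw [hπ]
      simpa using D.inv_mem hd
  let M : Matrix Y Y (ZMod p) := fun y y' => ∑ γ : Γ, if π (y.out * γ) = y' then a γ else 0
  have e1 : rkL a D = M.rank := by
    refine RkTranspose.finrank_map π hπs _ hV _ M fun f c => ?_
    show ∑ᶠ γ : Γ, a γ * f (π (c * γ)) = ∑ y' : Y, M (π c) y' * f y'
    rw [finsum_eq_sum_of_fintype]
    simp only [M, Finset.sum_mul]
    rw [Finset.sum_comm]
    refine Finset.sum_congr rfl fun γ _ => ?_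
    simp only [ite_mul, zero_mul]
    rw [Finset.sum_ite_eq, if_pos (Finset.mem_univ _), hπm _ c γ (hout _)]
  have e2 : rkT a D = M.transpose.rank := by
    refine RkTranspose.finrank_map π hπs _ hV _ M.transpose fun f c => ?_
    show ∑ᶠ γ : Γ, a γ⁻¹ * f (π (c * γ)) = ∑ y' : Y, M y' (π c) * f y'
    rw [finsum_eq_sum_of_fintype]
    simp only [M, Finset.sum_mul]
    rw [Finset.sum_comm, ← Equiv.sum_comp (Equiv.inv Γ)]
    refine Finset.sum_congr rfl fun γ _ => ?_
    simp only [Equiv.inv_apply, inv_inv, ite_mul, zero_mul]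
    have h3 : ∀ y' : Y, (π (y'.out * γ) = π c) ↔ (π (c * γ⁻¹) = y') := by
      intro y'
      constructor
      · intro h
        have := hπm _ _ γ⁻¹ h
        rw [mul_inv_cancel_right, hout] at this
        exact this.symm
      · intro h
        have := hπm _ _ γ (h.trans (hout y').symm)
        rw [inv_mul_cancel_right] at this
        exact this.symm
    simp only [h3]
    rw [Finset.sum_ite_eq, if_pos (Finset.mem_univ _)]
  rw [e1, e2, Matrix.rank_transpose]

end Fermat.Agent.TW56.EC

end
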