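/-
TEAM TW56 -> S56, block [EC].  F4 : `Ш²` of a retract;  C2 : monotonicity in `S`.
-/
import Fermat.Agent.TW56.EC.Interface
import Fermat.Agent.CFT.Pos.Fun
import Fermat.Agent.CFT.Pos.FunP

set_option autoImplicit false

noncomputable section

namespace Fermat.Agent.TW56.EC

open Fermat.Agent.CFT Fermat.Agent.CFT.Top Fermat.Agent.CFT.Pos Fermat.Agent.CFT.Local
  Fermat.Agent.TW56.Loc Module CategoryTheory ExtCitation NumberField

attribute [local instance] Units.mulDistribMulActionRight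
attribute [local instance] quotAct
attribute [local instance] addAct
attribute [local instance] funAct

/-- **F4.** `Ш²` of a retract. -/
theorem stmt_shaRetract : Stmt_shaRetract := by
  intro p _ D P X i r hri hX x hx
  have hx' : locH D P 2 x = 0 := hx
  have h1 : HM D.𝒰 i 2 x ∈ D.Sha X 2 := by
    show locH D X 2 (HM D.𝒰 i 2 x) = 0
    rw [stmt_locNat p D P X i 2 x, hx', map_zero]
  have h2 : HM D.𝒰 i 2 x = 0 := hX _ h1
  obtain ⟨hid, hcomp, -, -⟩ := stmt_HMfun (ZMod p) D.G D.𝒰 2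
  have h3 : HM D.𝒰 (i ≫ r) 2 x = x := hid P (i ≫ r) (fun y => hri y) x
  have h4 : HM D.𝒰 (i ≫ r) 2 x = HM D.𝒰 r 2 (HM D.𝒰 i 2 x) :=
    hcomp P X P i r (i ≫ r) (fun _ => rfl) x
  rw [← h3, h4, h2, map_zero]

/-- **C2.** monotonicity in `S`. -/
theorem stmt_mono : Stmt_mono := by
  intro S S' hSS'
  refine ⟨fun F hF => hF.mono hSS', ?_, ?_⟩
  · rintro U ⟨hU, F, hF, hFU⟩
    exact ⟨hU, F, hF.mono hSS', hFU⟩
  · intro p k ζ h
    obtain ⟨q, hq, hqp⟩ := h.mem
    exact ⟨h.prime, h.odd, ⟨q, hSS' hq, hqp⟩, h.unr.mono hSS', h.zeta, h.zeta_mem⟩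

end Fermat.Agent.TW56.EC

end
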