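/-
TEAM TW56 -> S56, block [EC], K2 : the `S`-units of `ℚ_S` are `p`-divisible and form a discrete module;
they contain the `S`-units of `L`.
-/
import Fermat.Agent.TW56.EC.Interface
import Fermat.Agent.CFT.GN.Ram1
import Fermat.Agent.CFT.Top.BridgeLevels

set_option autoImplicit false

noncomputable section

namespace Fermat.Agent.TW56.EC

open Fermat.Agent.CFT Fermat.Agent.CFT.Top Fermat.Agent.CFT.Pos Fermat.Agent.CFT.Local
  Fermat.Agent.TW56.Loc Module CategoryTheory ExtCitation NumberField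
open scoped Pointwise

attribute [local instance] Units.mulDistribMulActionRight
attribute [local instance] quotAct
attribute [local instance] addAct
attribute [local instance] funAct

namespace SuBasic

lemma val_eq_one_iff (A : ValuationSubring Qb) {x : Qb} (hx : x ≠ 0) :
    A.valuation x = 1 ↔ x ∈ A ∧ x⁻¹ ∈ A := by
  rw [← A.valuation_le_one_iff, ← A.valuation_le_one_iff, map_inv₀]
  have h0 : 0 < A.valuation x := zero_lt_iff.2 ((map_ne_zero A.valuation).2 hx)
  rw [inv_le_one₀ h0]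
  exact ⟨fun h => ⟨h.le, h.ge⟩, fun h => le_antisymm h.1 h.2⟩

lemma unitAt_smul {q : ℕ} {x : Qb} (hx0 : x ≠ 0) (hx : UnitAt q x) (g : GQ) : UnitAt q (g x) := by
  intro A hA
  have hA' := BrLev.liesOver_smul A g⁻¹ hA
  have h1 := hx _ hA'
  rw [val_eq_one_iff _ hx0] at h1
  rw [val_eq_one_iff _ ((map_ne_zero g).2 hx0)]
  obtain ⟨h2, h3⟩ := h1
  rw [ValuationSubring.mem_inv_pointwise_smul_iff] at h2 h3
  refine ⟨h2, ?_⟩
  rw [← map_inv₀]
  exact h3

theorem part1 (p : ℕ) (S : Finset Nat.Primes) (hp : p.Prime) (hpS : ∃ q ∈ S, (q : ℕ) = p) :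
    ∀ θ ∈ SU S, ∀ t : Qbˣ, t ^ p = θ → t ∈ SU S := by
  intro θ hθ t ht g
  have hgt : (g • t) ^ p = g • θ := by rw [← smul_pow', ht]
  have hunit : ∀ q : Nat.Primes, q ∉ S → UnitAt q ((g • t : Qbˣ) : Qb) := by
    intro q hq A hA
    have h1 := (hθ g).2 q hq A hA
    rw [← hgt, Units.val_pow_eq_pow_val, map_pow] at h1
    exact (pow_eq_one_iff_of_nonneg zero_le hp.ne_zero).1 h1
  refine ⟨GN.ram1 p S hp hpS (g • θ) (g • t) (hθ g).1 hgt ?_, hunit⟩
  intro q hq A hA
  exact ⟨0, by rw [mul_zero, zpow_zero]; exact (hθ g).2 q hq A hA⟩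

theorem part2 (S : Finset Nat.Primes) : IsDisc (levS S) (suRep S) := by
  intro m
  obtain ⟨θ, rfl⟩ : ∃ θ : SU S, (Additive.ofMul θ : Additive (SU S)) = m := ⟨Additive.toMul m, rfl⟩
  obtain ⟨F, hF, hθF⟩ := (θ.2 1).1
  rw [one_smul] at hθF
  refine ⟨_, BrLev.normalCore_mem_levS hF, fun u hu => ?_⟩
  have hu' : u ∈ F.fixingSubgroup := Subgroup.normalCore_le _ hu
  have h1 : u • θ = θ :=
    Subtype.ext (Units.ext ((IntermediateField.mem_fixingSubgroup_iff F u).1 hu' _ hθF))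
  show Additive.ofMul (u • θ) = Additive.ofMul θ
  rw [h1]

theorem part3 (S : Finset Nat.Primes) : ∀ (W : Subgroup GQ), W ∈ (levS S).S → ∀ u ∈ US S W,
    ∀ θ : Qbˣ, (θ : Qb) = u.val → θ ∈ SU S := by
  rintro W ⟨hWn, F, hF, hFW⟩ u hu θ hθ g
  have hfix : ∀ w ∈ W, w (θ : Qb) = θ := by
    intro w hw
    rw [hθ]
    exact (Additive.toMul u : (FixedPoints.subfield W Qb)ˣ).1.2 ⟨w, hw⟩
  have : Algebra.IsAlgebraic ℚ Qb := AlgebraicClosure.isAlgebraic ℚ
  have : IsAlgClosure ℚ Qb := ⟨inferInstance, inferInstance⟩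
  have : Normal ℚ Qb := IsAlgClosure.normal ℚ Qb
  have : IsGalois ℚ Qb := ⟨⟩
  constructor
  · refine ⟨F, hF, ?_⟩
    show g (θ : Qb) ∈ F
    rw [← InfiniteGalois.fixedField_fixingSubgroup F, IntermediateField.mem_fixedField_iff]
    intro f hf
    have hfW : g⁻¹ * f * g ∈ W := by
      have := hWn.conj_mem f (hFW hf) g⁻¹
      simpa using this
    have h1 : g⁻¹ (f (g (θ : Qb))) = θ := hfix _ hfW
    have h2 := congrArg g h1
    rwa [show g (g⁻¹ (f (g (θ : Qb)))) = f (g (θ : Qb)) from g.apply_symm_apply _] at h2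
  · intro q hq
    have h1 := hu q hq
    rw [← hθ] at h1
    exact unitAt_smul θ.ne_zero h1 g

end SuBasic

/-- **K2**. -/
theorem stmt_suBasic : Stmt_suBasic := fun p S hp hpS =>
  ⟨SuBasic.part1 p S hp hpS, SuBasic.part2 S, SuBasic.part3 S⟩

end Fermat.Agent.TW56.EC

end
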