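/-
TEAM TW56 -> S56, block [EC], package U2 : THE INFINITE PLACES (algebra), `Stmt_uMink`.
-/
import Fermat.Agent.TW56.EC.Interface
import Fermat.Agent.TW56.Loc.EMul
import Fermat.Agent.TW56.Loc.ETransport

set_option autoImplicit false

noncomputable section

namespace Fermat.Agent.TW56.EC

open Fermat.Agent.CFT Fermat.Agent.CFT.Top Fermat.Agent.CFT.Pos Fermat.Agent.CFT.Local
  Fermat.Agent.TW56.Loc Module CategoryTheory ExtCitation NumberField

attribute [local instance] Units.mulDistribMulActionRight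
attribute [local instance] quotAct
attribute [local instance] addAct
attribute [local instance] funAct

namespace UMink

section

variable {Γ : Type} [Group Γ]

lemma funAct_apply (γ : Γ) (m : Γ → ℤ) (x : Γ) : (γ • m) x = m (γ⁻¹ * x) := rfl

lemma stab_latV [Finite Γ] (C : Subgroup Γ) : Stab Γ (latV C) := by
  intro γ m hm d hd x
  show m (γ⁻¹ * (x * d)) = m (γ⁻¹ * x)
  rw [← mul_assoc]
  exact hm d hd _

lemma stab_latC : Stab Γ (latC Γ) := by
  rintro γ m ⟨n, hn⟩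
  exact ⟨n, fun x => hn _⟩

lemma latC_le_latV [Finite Γ] (C : Subgroup Γ) : latC Γ ≤ latV C := by
  rintro m ⟨n, hn⟩ d _ x
  rw [hn, hn]

lemma mem_pS {Y : Type} [AddCommGroup Y] {p : ℕ} {A : AddSubgroup Y} {x : Y} :
    x ∈ pS p A ↔ ∃ y ∈ A, p • y = x := by
  simp only [AddSubgroup.mem_map, nsmulAddMonoidHom_apply]

lemma pS_le {Y : Type} [AddCommGroup Y] (p : ℕ) (A : AddSubgroup Y) : pS p A ≤ A := by
  intro x hx
  obtain ⟨y, hy, rfl⟩ := mem_pS.1 hx
  exact A.nsmul_mem hy p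

variable [Finite Γ] {X : Type} [AddCommGroup X] [DistribMulAction Γ X]

lemma phiU_smul (u : X) (γ : Γ) (m : Γ → ℤ) : phiU u (γ • m) = γ • phiU u m := by
  cases nonempty_fintype Γ
  rw [phiU_apply, phiU_apply, finsum_eq_sum_of_fintype, finsum_eq_sum_of_fintype, Finset.smul_sum]
  refine (Fintype.sum_equiv (Equiv.mulLeft γ) _ _ ?_).symm
  intro δ
  rw [funAct_apply, Equiv.coe_mulLeft, inv_mul_cancel_left, mul_smul, smul_comm]

lemma phiU_mem {B : AddSubgroup X} (hB : Stab Γ B) {u : X} (hu : u ∈ B) (m : Γ → ℤ) :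
    phiU u m ∈ B := by
  cases nonempty_fintype Γ
  rw [phiU_apply, finsum_eq_sum_of_fintype]
  exact B.sum_mem fun γ _ => B.zsmul_mem (hB γ u hu) _

lemma relIndex_pS_latV (p : ℕ) [NeZero p] (C : Subgroup Γ) :
    (pS p (latV C)).relIndex (latV C) ≠ 0 := by
  set red : (Γ → ℤ) →+ (Γ → ZMod p) := (Int.castAddHom (ZMod p)).compLeft Γ with hred
  have h1 : red.ker.index ≠ 0 := by
    rw [AddSubgroup.index_ker]
    exact Nat.card_pos.ne'
  have h2 : red.ker ⊓ latV C ≤ pS p (latV C) := by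
    intro m hm
    obtain ⟨hm1, hm2⟩ := AddSubgroup.mem_inf.1 hm
    have hdvd : ∀ x, (p : ℤ) ∣ m x := by
      intro x
      have := congrFun (AddMonoidHom.mem_ker.1 hm1) x
      exact (ZMod.intCast_zmod_eq_zero_iff_dvd (m x) p).1 this
    refine mem_pS.2 ⟨fun x => m x / p, ?_, ?_⟩
    · intro d hd x
      show m (x * d) / p = m x / p
      rw [hm2 d hd x]
    · funext x
      show p • (m x / p) = m x
      rw [nsmul_eq_mul]
      exact Int.mul_ediv_cancel' (hdvd x)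
  have h3 := AddSubgroup.relIndex_dvd_of_le_left (latV C) h2
  rw [AddSubgroup.inf_relIndex_right] at h3
  exact ne_zero_of_dvd_ne_zero
    (ne_zero_of_dvd_ne_zero h1 (AddSubgroup.relIndex_dvd_index_of_normal _ _)) h3

end

end UMink

open UMink

/-- U2. THE INFINITE PLACES (algebra). -/
theorem stmt_uMink (hI : Stmt_eIndexRel) (hP : Stmt_latPerm) (hC : Stmt_latConst) : Stmt_uMink := by
  intro p _ Γ _ _ X _ _ a ha B C u hB hu hker hidx
  have hp0 : (p : ℤ) ≠ 0 := by exact_mod_cast (Fact.out : p.Prime).ne_zero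
  set V : AddSubgroup (Γ → ℤ) := latV C with hV
  set Φ : (Γ → ℤ) →+ X := phiU u with hΦ
  set B₁ : AddSubgroup X := V.map Φ with hB₁
  have hVs : Stab Γ V := stab_latV C
  have hCs : Stab Γ (latC Γ) := stab_latC
  have hpVs : Stab Γ (pS p V) := EMul.stab_pS p hVs
  have hMs : Stab Γ (latC Γ ⊔ pS p V) := EMul.stab_sup hCs hpVs
  have hB₁s : Stab Γ B₁ := by
    rintro γ x ⟨m, hm, rfl⟩
    exact ⟨γ • m, hVs γ m hm, phiU_smul u γ m⟩
  have hpB₁s : Stab Γ (pS p B₁) := EMul.stab_pS p hB₁s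
  have hB₁B : B₁ ≤ B := by
    rintro x ⟨m, -, rfl⟩
    exact phiU_mem hB hu m
  have hMV : latC Γ ⊔ pS p V ≤ V := sup_le (latC_le_latV C) (pS_le p V)
  -- no `p`-torsion in `B₁`
  have htf : ∀ x ∈ B₁, p • x = 0 → x = 0 := by
    rintro x ⟨m, hm, rfl⟩ hx
    rw [← map_nsmul] at hx
    obtain ⟨n, hn⟩ := (hker (p • m) (V.nsmul_mem hm p)).1 hx
    refine (hker m hm).2 ⟨m 1, fun x => ?_⟩
    have h1 : (p : ℤ) * m x = (p : ℤ) * m 1 := by
      have e1 := hn x
      have e2 := hn 1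
      simp only [Pi.smul_apply, nsmul_eq_mul] at e1 e2
      rw [e1, e2]
    exact mul_left_cancel₀ hp0 h1
  -- finite index
  have hfin : (pS p B₁).relIndex B ≠ 0 := by
    rw [← AddSubgroup.relIndex_mul_relIndex _ _ _ (pS_le p B₁) hB₁B]
    refine mul_ne_zero ?_ hidx
    rw [hB₁, ← AddSubgroup.relIndex_comap]
    refine ne_zero_of_dvd_ne_zero (relIndex_pS_latV p C)
      (AddSubgroup.relIndex_dvd_of_le_left _ ?_)
    intro m hm
    obtain ⟨y, hy, rfl⟩ := mem_pS.1 hm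
    rw [AddSubgroup.mem_comap, map_nsmul]
    exact mem_pS.2 ⟨Φ y, ⟨y, hy, rfl⟩, rfl⟩
  have e1 := hI p Γ X a ha B B₁ hB hB₁s hB₁B hfin htf
  -- transport
  have e2 : eCard a V (latC Γ ⊔ pS p V) = eCard a B₁ (pS p B₁) := by
    refine stmt_eTransport stmt_opZ p Γ (Γ → ℤ) X a V (latC Γ ⊔ pS p V) B₁ (pS p B₁) Φ hVs hMs hB₁s
      hpB₁s hMV (pS_le p B₁) ?_ ?_ ?_ ?_ ?_
    · intro m hm
      exact ⟨m, hm, rfl⟩
    · intro x _ y _
      rw [map_add, add_sub_cancel_left, sub_self]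
      exact AddSubgroup.zero_mem _
    · intro γ x _
      rw [hΦ, phiU_smul, sub_self]
      exact AddSubgroup.zero_mem _
    · intro x hx
      constructor
      · intro h
        obtain ⟨y, ⟨m, hm, rfl⟩, hy⟩ := mem_pS.1 h
        have h0 : Φ (x - p • m) = 0 := by rw [map_sub, map_nsmul, hy, sub_self]
        have h1 := (hker _ (V.sub_mem hx (V.nsmul_mem hm p))).1 h0
        exact AddSubgroup.mem_sup.2 ⟨x - p • m, h1, p • m, mem_pS.2 ⟨m, hm, rfl⟩, by abel⟩
      · intro h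
        obtain ⟨c, hc, y, hy, rfl⟩ := AddSubgroup.mem_sup.1 h
        obtain ⟨m, hm, rfl⟩ := mem_pS.1 hy
        rw [map_add, (hker c (latC_le_latV C hc)).2 hc, zero_add, map_nsmul]
        exact mem_pS.2 ⟨Φ m, ⟨m, hm, rfl⟩, rfl⟩
    · rintro y ⟨m, hm, rfl⟩
      exact ⟨m, hm, by rw [sub_self]; exact AddSubgroup.zero_mem _⟩
  -- multiplicativity
  have e3 := stmt_eMul stmt_opZ p Γ (Γ → ℤ) a ha V (latC Γ ⊔ pS p V) (pS p V) hVs hMs hpVs
    le_sup_right hMV le_rfl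
  have e4 := hP p Γ a C
  have e5 := hC p Γ a C
  rw [← hV] at e4 e5
  rw [e4, e2, e5] at e3
  rw [e1, e3]
  ring

end Fermat.Agent.TW56.EC

end
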