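/-
TEAM TW56 -> S56, block EC, task EC-U1: one orbit of finite places, algebra (`Stmt_uVal`).
`val x γ = o (γ⁻¹ x)` maps `A` to `latV D`, equivariantly, with kernel `B` and image `V' ⊇ h (latV D)`.
(helper70)
-/
import Fermat.Agent.TW56.EC.Interface
import Fermat.Agent.TW56.Loc.EIndex
import Fermat.Agent.TW56.Loc.EMul
import Fermat.Agent.TW56.Loc.ETransport
import Fermat.Agent.TW56.Loc.EFinite

set_option autoImplicit false

noncomputable section

namespace Fermat.Agent.TW56.EC

open Fermat.Agent.CFT Fermat.Agent.CFT.Top Fermat.Agent.CFT.Pos Fermat.Agent.CFT.Local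
  Fermat.Agent.TW56.Loc Module CategoryTheory ExtCitation NumberField

attribute [local instance] Units.mulDistribMulActionRight
attribute [local instance] quotAct
attribute [local instance] addAct
attribute [local instance] funAct

namespace UVal

variable {Γ : Type} [Group Γ] {X : Type} [AddCommGroup X] [DistribMulAction Γ X]

/-- `val x γ = o (γ⁻¹ x)`. -/
def val (o : X →+ ℤ) : X →+ (Γ → ℤ) where
  toFun x γ := o (γ⁻¹ • x)
  map_zero' := by
    funext γ
    simp
  map_add' x y := by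
    funext γ
    simp [smul_add]

lemma val_apply (o : X →+ ℤ) (x : X) (γ : Γ) : val o x γ = o (γ⁻¹ • x) := rfl

lemma funAct_apply (δ : Γ) (m : Γ → ℤ) (x : Γ) : (δ • m) x = m (δ⁻¹ * x) := rfl

lemma val_smul (o : X →+ ℤ) (δ : Γ) (x : X) : val (Γ := Γ) o (δ • x) = δ • val (Γ := Γ) o x := by
  funext γ
  rw [funAct_apply, val_apply, val_apply, mul_inv_rev, inv_inv, smul_smul]

lemma stab_latV (D : Subgroup Γ) : Stab Γ (latV D) := by
  intro γ m hm d hd x
  rw [funAct_apply, funAct_apply, ← mul_assoc]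
  exact hm d hd _

lemma stab_map {A : AddSubgroup X} (hA : Stab Γ A) (o : X →+ ℤ) : Stab Γ (A.map (val (Γ := Γ) o)) := by
  intro γ m hm
  obtain ⟨x, hx, rfl⟩ := AddSubgroup.mem_map.1 hm
  exact AddSubgroup.mem_map.2 ⟨γ • x, hA γ x hx, val_smul o γ x⟩

omit [Group Γ] in
lemma tf (p : ℕ) (hp : p ≠ 0) (m : Γ → ℤ) (h : p • m = 0) : m = 0 := by
  funext γ
  have h1 := congrFun h γ
  simp only [Pi.smul_apply, Pi.zero_apply, nsmul_eq_mul] at h1
  rcases mul_eq_zero.1 h1 with h2 | h2
  · exact absurd (by exact_mod_cast h2) hp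
  · exact h2

/-- reduction modulo `n`. -/
def redN (Γ : Type) (n : ℕ) : (Γ → ℤ) →+ (Γ → ZMod n) where
  toFun m γ := (m γ : ZMod n)
  map_zero' := by
    funext γ
    simp
  map_add' m m' := by
    funext γ
    simp

omit [Group Γ] in
lemma mem_ker_redN {n : ℕ} {m : Γ → ℤ} : m ∈ (redN Γ n).ker ↔ ∀ γ, (n : ℤ) ∣ m γ := by
  rw [AddMonoidHom.mem_ker]
  constructor
  · intro h γ
    exact (ZMod.intCast_zmod_eq_zero_iff_dvd _ _).1 (congrFun h γ)
  · intro h
    funext γ
    exact (ZMod.intCast_zmod_eq_zero_iff_dvd _ _).2 (h γ)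

end UVal

open Loc.EIndex UVal

theorem stmt_uVal (hP : Stmt_latPerm) : Stmt_uVal := by
  have h0 : Stmt_opZ := stmt_opZ
  have h1 : Stmt_eMul := stmt_eMul h0
  have h2 : Stmt_eTransport := stmt_eTransport h0
  have h3 : Stmt_eFinite := stmt_eFinite h0 h1 h2
  have h5 : Stmt_eLattice := stmt_eLattice h3
  intro p _ Γ _ _ X _ _ a ha A B D o h hA hB hBA hh hD hBk hS
  have hp0 : p ≠ 0 := (Fact.out : p.Prime).ne_zero
  set v : X →+ (Γ → ℤ) := val o with hv
  set V' : AddSubgroup (Γ → ℤ) := A.map v with hV'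
  have hpA : Stab Γ (pS p A) := stab_pS p hA
  have hpB : Stab Γ (pS p B) := stab_pS p hB
  have hM : Stab Γ (B ⊔ pS p A) := stab_sup hB hpA
  have hMA : B ⊔ pS p A ≤ A := sup_le hBA (pS_le p A)
  have hV's : Stab Γ V' := stab_map hA o
  have hBv : ∀ x ∈ A, (x ∈ B ↔ v x = 0) := by
    intro x hx
    rw [hBk x hx]
    constructor
    · intro h'
      funext γ
      exact h' γ
    · intro h' γ
      exact congrFun h' γ
  have hV'le : V' ≤ latV D := by
    intro m hm
    obtain ⟨x, hx, rfl⟩ := AddSubgroup.mem_map.1 hm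
    intro d hd γ
    rw [hv, val_apply, val_apply, mul_inv_rev, mul_smul]
    exact hD d⁻¹ (D.inv_mem hd) _ (hA _ x hx)
  -- step 1
  have s1 : eCard a A (pS p A) = eCard a A (B ⊔ pS p A) * eCard a (B ⊔ pS p A) (pS p A) :=
    h1 p Γ X a ha A (B ⊔ pS p A) (pS p A) hA hM hpA le_sup_right hMA le_rfl
  -- step 2
  have s2 : eCard a B (pS p B) = eCard a (B ⊔ pS p A) (pS p A) := by
    refine h2 p Γ X X a B (pS p B) (B ⊔ pS p A) (pS p A) id hB hpB hM hpA (pS_le p B) le_sup_right
      (fun x hx => (le_sup_left : B ≤ B ⊔ pS p A) hx) ?_ ?_ ?_ ?_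
    · intro x _ y _
      simp only [id]
      rw [show x + y - x - y = 0 by abel]
      exact zero_mem _
    · intro γ x _
      simp only [id]
      rw [sub_self]
      exact zero_mem _
    · intro x hx
      simp only [id]
      constructor
      · intro hxp
        obtain ⟨y, hy, hyx⟩ := mem_pS.1 hxp
        refine mem_pS.2 ⟨y, ?_, hyx⟩
        rw [hBv y hy]
        apply tf p hp0
        rw [← map_nsmul, hyx]
        exact (hBv x (hBA hx)).1 hx
      · intro hxp
        exact pS_mono p hBA hxp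
    · intro y hy
      obtain ⟨b, hb, z, hz, rfl⟩ := AddSubgroup.mem_sup.1 hy
      refine ⟨b, hb, ?_⟩
      simp only [id]
      rw [add_sub_cancel_left]
      exact hz
  -- step 3
  have s3 : eCard a A (B ⊔ pS p A) = eCard a V' (pS p V') := by
    refine h2 p Γ X (Γ → ℤ) a A (B ⊔ pS p A) V' (pS p V') v hA hM hV's (stab_pS p hV's) hMA
      (pS_le p V') (fun x hx => AddSubgroup.mem_map.2 ⟨x, hx, rfl⟩) ?_ ?_ ?_ ?_
    · intro x _ y _
      rw [map_add, show v x + v y - v x - v y = 0 by abel]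
      exact zero_mem _
    · intro γ x _
      rw [hv, val_smul, sub_self]
      exact zero_mem _
    · intro x hx
      constructor
      · intro hxp
        obtain ⟨m, hm, hmx⟩ := mem_pS.1 hxp
        obtain ⟨y, hy, rfl⟩ := AddSubgroup.mem_map.1 hm
        refine AddSubgroup.mem_sup.2 ⟨x - p • y, ?_, p • y, mem_pS.2 ⟨y, hy, rfl⟩, by abel⟩
        rw [hBv _ (A.sub_mem hx (A.nsmul_mem hy p)), map_sub, map_nsmul, hmx, sub_self]
      · intro hxp
        obtain ⟨b, hb, z, hz, rfl⟩ := AddSubgroup.mem_sup.1 hxp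
        obtain ⟨y, hy, rfl⟩ := mem_pS.1 hz
        rw [map_add, (hBv b (hBA hb)).1 hb, zero_add, map_nsmul]
        exact mem_pS.2 ⟨v y, AddSubgroup.mem_map.2 ⟨y, hy, rfl⟩, rfl⟩
    · intro m hm
      obtain ⟨x, hx, rfl⟩ := AddSubgroup.mem_map.1 hm
      exact ⟨x, hx, by rw [sub_self]; exact zero_mem _⟩
  -- step 4
  have s4 : eCard a V' (pS p V') = eCard a (latV D) (pS p (latV D)) := by
    refine h5 p Γ (Γ → ℤ) a ha (tf p hp0) (latV D) V' (stab_latV D) hV's hV'le ?_
    set n : ℕ := (p * h).natAbs with hn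
    have hn0 : n ≠ 0 := by
      rw [hn, Int.natAbs_ne_zero]
      exact mul_ne_zero (by exact_mod_cast hp0) hh
    have : NeZero n := ⟨hn0⟩
    have hfin : (redN Γ n).ker.index ≠ 0 := by
      have : Finite (Γ → ZMod n) := Pi.finite
      have : (redN Γ n).ker.FiniteIndex := AddSubgroup.finiteIndex_ker _
      exact AddSubgroup.FiniteIndex.index_ne_zero
    have hle : (redN Γ n).ker ⊓ latV D ≤ pS p V' := by
      intro m hm
      obtain ⟨hm1, hm2⟩ := AddSubgroup.mem_inf.1 hm
      rw [mem_ker_redN] at hm1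
      have hdiv : ∀ γ, (p : ℤ) * h ∣ m γ := by
        intro γ
        have := hm1 γ
        rw [hn, Int.natCast_natAbs, abs_dvd] at this
        exact this
      choose m' hm' using hdiv
      have hm'V : m' ∈ latV D := by
        intro d hd x
        have e := hm2 d hd x
        rw [hm' (x * d), hm' x] at e
        exact mul_left_cancel₀ (mul_ne_zero (by exact_mod_cast hp0) hh) e
      obtain ⟨x, hx, hxm⟩ := hS m' hm'V
      refine mem_pS.2 ⟨v x, AddSubgroup.mem_map.2 ⟨x, hx, rfl⟩, ?_⟩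
      funext γ
      rw [Pi.smul_apply, hv, val_apply, hxm γ, hm' γ, nsmul_eq_mul, mul_assoc]
    have hd1 : (pS p V').relIndex (latV D) ∣ ((redN Γ n).ker ⊓ latV D).relIndex (latV D) :=
      AddSubgroup.relIndex_dvd_of_le_left (latV D) hle
    rw [AddSubgroup.inf_relIndex_right] at hd1
    have hd2 : (redN Γ n).ker.relIndex (latV D) ∣ (redN Γ n).ker.index :=
      AddSubgroup.relIndex_dvd_index_of_normal _ _
    intro h0'
    rw [h0', zero_dvd_iff] at hd1
    rw [hd1, zero_dvd_iff] at hd2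
    exact hfin hd2
  rw [s1, s3, s4, hP p Γ a D, ← s2, mul_comm]

end Fermat.Agent.TW56.EC

end
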