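/-
TEAM TW56 -> S56, block [EC].  U4 : units at `q` in terms of the absolute value.
-/
import Fermat.Agent.TW56.EC.Interface
import Fermat.Agent.CFT.Num.DC
import Fermat.Agent.CFT.GN.DictAB
import Fermat.Agent.CFT.GN.DictD
import Fermat.Agent.CFT.LocalBridge

set_option autoImplicit false

noncomputable section

namespace Fermat.Agent.TW56.EC

open Fermat.Agent.CFT Fermat.Agent.CFT.Top Fermat.Agent.CFT.Pos Fermat.Agent.CFT.Local
  Fermat.Agent.TW56.Loc Module CategoryTheory ExtCitation NumberField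

attribute [local instance] Units.mulDistribMulActionRight
attribute [local instance] quotAct
attribute [local instance] addAct
attribute [local instance] funAct

namespace UnitAtFile

/-- `v x = 1` iff `x` is integral and not in the maximal ideal. -/
theorem val_eq_one_iff (A : ValuationSubring Qb) (x : Qb) :
    A.valuation x = 1 ↔ x ∈ A ∧ x ∉ A.nonunits := by
  rw [ValuationSubring.mem_nonunits_iff, ← A.valuation_le_one_iff, not_lt]
  exact ⟨fun h => ⟨h.le, h.ge⟩, fun h => le_antisymm h.1 h.2⟩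

theorem val_tw (A : ValuationSubring Qb) (g : GQ) (x : Qb) :
    (Num.DC_tw A g).valuation x = 1 ↔ A.valuation (g x) = 1 := by
  rw [val_eq_one_iff, val_eq_one_iff, Num.DC_mem_tw, Num.DC_mem_nonunits_tw]

/-- the standard place. -/
theorem val_padicPlace (q : Nat.Primes) (x : Qb) :
    letI : Fact (q : ℕ).Prime := ⟨q.2⟩
    (padicPlace (q : ℕ)).valuation x = 1 ↔ nrmQ q x = 1 := by
  let _ : Fact (q : ℕ).Prime := ⟨q.2⟩
  by_cases hx : x = 0
  · subst hx
    simp [nrmQ]
  have hmem : ∀ y : Qb, y ∈ padicPlace (q : ℕ) ↔ nrmQ q y ≤ 1 := fun y => by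
    rw [mem_padicPlace_iff]
    exact Iff.rfl
  have hpos : 0 < nrmQ q x := by
    show 0 < ‖padicEmbedding (q : ℕ) x‖
    rw [norm_pos_iff]
    exact (map_ne_zero _).2 hx
  have hinv : nrmQ q x⁻¹ = (nrmQ q x)⁻¹ := by
    show ‖padicEmbedding (q : ℕ) x⁻¹‖ = ‖padicEmbedding (q : ℕ) x‖⁻¹
    rw [map_inv₀, norm_inv]
  have h1 : (padicPlace (q : ℕ)).valuation x = 1 ↔
      x ∈ padicPlace (q : ℕ) ∧ x⁻¹ ∈ padicPlace (q : ℕ) := by
    rw [← ValuationSubring.valuation_le_one_iff, ← ValuationSubring.valuation_le_one_iff, map_inv₀,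
      inv_le_one₀ (zero_lt_iff.2 ((map_ne_zero _).2 hx))]
    exact ⟨fun h => ⟨h.le, h.ge⟩, fun h => le_antisymm h.1 h.2⟩
  rw [h1, hmem, hmem, hinv, inv_le_one₀ hpos]
  exact ⟨fun h => le_antisymm h.1 h.2, fun h => ⟨h.le, h.ge⟩⟩

end UnitAtFile

open UnitAtFile

/-- `UnitAt` is Galois invariant. -/
theorem unitAt_smul_iff (q : ℕ) (g : GQ) (x : Qb) : UnitAt q (g x) ↔ UnitAt q x := by
  constructor
  · intro h A hA
    have h1 := h (Num.DC_tw A g⁻¹) (Num.DC_tw_liesOver hA g⁻¹)
    rw [val_tw] at h1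
    have e : g⁻¹ (g x) = x := by
      rw [← AlgEquiv.mul_apply, inv_mul_cancel, AlgEquiv.one_apply]
    rwa [e] at h1
  · intro h A hA
    have h1 := h (Num.DC_tw A g) (Num.DC_tw_liesOver hA g)
    rwa [val_tw] at h1

/-- U4. (the hypothesis `x ≠ 0` is not needed.) -/
theorem unitAt_iff (q : Nat.Primes) (x : Qb) : UnitAt q x ↔ ∀ g : GQ, nrmQ q (g x) = 1 := by
  let _ : Fact (q : ℕ).Prime := ⟨q.2⟩
  have hA₀ : (padicPlace (q : ℕ)).LiesOverPrime (q : ℕ) := padicPlace_liesOverPrime (q : ℕ)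
  constructor
  · intro h g
    rw [← val_padicPlace]
    exact (unitAt_smul_iff q g x).2 h _ hA₀
  · intro h A hA
    obtain ⟨g, hg⟩ := Num.DC_transitive GN.dictA GN.dictD q.2 hA hA₀
    have hAeq : A = Num.DC_tw (padicPlace (q : ℕ)) g := by
      ext y
      rw [Num.DC_mem_tw]
      exact (hg y).symm
    rw [hAeq, val_tw, val_padicPlace]
    exact h g

/-- U4. -/
theorem stmt_unitAt : Stmt_unitAt := fun q x _ => unitAt_iff q x

/-- the `S`-units are stable under the Galois group. -/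
theorem stab_US (S : Finset Nat.Primes) (W : Subgroup GQ) [W.Normal] :
    Stab (GQ ⧸ W) (US S W) := by
  intro γ u hu q hq
  induction γ using QuotientGroup.induction_on with
  | H g =>
    have e : (((g : GQ ⧸ W) • u : XL W)).val = g u.val := rfl
    rw [e, unitAt_smul_iff]
    exact hu q hq

end Fermat.Agent.TW56.EC

end
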