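/-
TEAM TW56 -> S56, block [EC].  EC-U12 : THE EQUIVARIANT `S`-UNIT THEOREM MODULO `p` (helper9).
-/
import Fermat.Agent.TW56.EC.Interface

set_option autoImplicit false

noncomputable section

namespace Fermat.Agent.TW56.EC

open Fermat.Agent.CFT Fermat.Agent.CFT.Top Fermat.Agent.CFT.Pos Fermat.Agent.CFT.Local
  Fermat.Agent.TW56.Loc Module CategoryTheory ExtCitation NumberField

attribute [local instance] Units.mulDistribMulActionRight
attribute [local instance] quotAct
attribute [local instance] addAct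
attribute [local instance] funAct

namespace UnitFormula

lemma val_ne_zero {W : Subgroup GQ} (u : XL W) : u.val ≠ 0 := by
  intro h
  have h1 : ((Additive.toMul u : (FixedPoints.subfield W Qb)ˣ) : FixedPoints.subfield W Qb) = 0 :=
    Subtype.ext h
  exact (Additive.toMul u).ne_zero h1

lemma val_smul {W : Subgroup GQ} [W.Normal] (g : GQ) (u : XL W) :
    (((g : GQ ⧸ W) • u : XL W)).val = g u.val := rfl

lemma val_nsmul {W : Subgroup GQ} (n : ℕ) (u : XL W) : (n • u).val = u.val ^ n := rfl

lemma unitAt_smul (h4 : Stmt_unitAt) (q : Nat.Primes) (g : GQ) {x : Qb} (hx : x ≠ 0)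
    (h : UnitAt q x) : UnitAt q (g x) := by
  rw [h4 q (g x) ((map_ne_zero g).2 hx)]
  intro g'
  exact (h4 q x hx).1 h (g' * g)

lemma stab (h4 : Stmt_unitAt) (S : Finset Nat.Primes) (W : Subgroup GQ) [W.Normal] :
    Stab (GQ ⧸ W) (US S W) := by
  intro γ x hx q hq
  induction γ using QuotientGroup.induction_on with
  | H g =>
    rw [val_smul]
    exact unitAt_smul h4 q g (val_ne_zero x) (hx q hq)

lemma US_mono {S S' : Finset Nat.Primes} (h : S ⊆ S') (W : Subgroup GQ) : US S W ≤ US S' W :=
  fun _ hx q hq => hx q fun hq' => hq (h hq')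

/-- roots of unity are units everywhere -/
lemma ker_le (p : ℕ) (hp : p ≠ 0) (S : Finset Nat.Primes) (W : Subgroup GQ) :
    (nsmulAddMonoidHom (α := XL W) p).ker ≤ US S W := by
  intro x hx q _ A _
  have h1 : p • x = 0 := hx
  have h2 : x.val ^ p = 1 := by
    rw [← val_nsmul, h1]
    rfl
  have h3 : A.valuation x.val ^ p = 1 := by rw [← map_pow, h2, map_one]
  exact (pow_eq_one_iff.1 h3).resolve_right hp

end UnitFormula

open UnitFormula in
theorem stmt_unitFormula (h1 : Stmt_uVal) (h2 : Stmt_uMink) (h4 : Stmt_unitAt) (h7 : Stmt_valQ)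
    (h11 : Stmt_minkQ) : Stmt_unitFormula := by
  intro p _ W _ _ hW a ha S
  have hp : p.Prime := Fact.out
  induction S using Finset.induction_on with
  | empty =>
    obtain ⟨u, hu, hker, hidx⟩ := h11 W hW
    have h := h2 p (GQ ⧸ W) (XL W) a ha (US ∅ W) (Cc W) u (stab h4 ∅ W) hu hker hidx
    rw [inf_eq_right.2 (ker_le p hp.ne_zero ∅ W)] at h
    rw [Finset.sum_empty, zero_add]
    exact h
  | insert q S hq ih =>
    obtain ⟨o, h, hh0, ho1, ho2, ho3⟩ := h7 W hW q
    have key := h1 p (GQ ⧸ W) (XL W) a ha (US (insert q S) W) (US S W) (Dq W q) o h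
      (stab h4 _ W) (stab h4 _ W) (US_mono (Finset.subset_insert q S) W) hh0
      (fun d hd x _ => ho1 d hd x) ?_ ?_
    · rw [key, Finset.sum_insert hq, mul_right_comm, ih, mul_assoc, ← pow_add]
      congr 2
      ring
    · intro x hx
      rw [ho2 x]
      constructor
      · intro hxB
        exact hxB q hq
      · intro hxq q' hq'
        by_cases e : q' = q
        · rw [e]; exact hxq
        · exact hx q' fun h' => (Finset.mem_insert.1 h').elim e hq'
    · intro m hm
      obtain ⟨x, hx, hxm⟩ := ho3 m hm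
      exact ⟨x, US_mono (Finset.singleton_subset_iff.2 (Finset.mem_insert_self q S)) W hx, hxm⟩

end Fermat.Agent.TW56.EC

end
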