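/-
TEAM TW56 -> S56, block [EC], package U7 : the finite places (`Stmt_valQ`) (helper59).
-/
import Fermat.Agent.TW56.EC.Interface

set_option autoImplicit false

noncomputable section

namespace Fermat.Agent.TW56.EC

open Fermat.Agent.CFT Fermat.Agent.CFT.Top Fermat.Agent.CFT.Pos Fermat.Agent.CFT.Local
  Fermat.Agent.TW56.Loc Module CategoryTheory ExtCitation NumberField

attribute [local instance] Units.mulDistribMulActionRight
attribute [local instance] quotAct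
attribute [local instance] addAct
attribute [local instance] funAct

namespace ValQ

variable {W : Subgroup GQ} [W.Normal]

lemma val_smul (g : GQ) (x : XL W) : ((g : GQ ⧸ W) • x).val = g x.val := rfl

lemma val_inv_smul (g : GQ) (x : XL W) : ((g : GQ ⧸ W)⁻¹ • x).val = g⁻¹ x.val := rfl

omit [W.Normal] in
lemma val_fixed (x : XL W) : ∀ w ∈ W, w x.val = x.val := fun w hw =>
  ((Additive.toMul x : (FixedPoints.subfield W Qb)ˣ) : FixedPoints.subfield W Qb).2 ⟨w, hw⟩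

omit [W.Normal] in
lemma val_ne_zero (x : XL W) : x.val ≠ 0 := by
  intro h
  have h1 : ((Additive.toMul x : (FixedPoints.subfield W Qb)ˣ) : FixedPoints.subfield W Qb) = 0 :=
    Subtype.ext h
  exact (Units.ne_zero _) h1

end ValQ

theorem stmt_valQ (h3 : Stmt_ordQ) (h4 : Stmt_unitAt) (h5 : Stmt_decQ) (h6 : Stmt_oneQ) :
    Stmt_valQ := by
  intro W _ _ hW q
  classical
  obtain ⟨ρ, o, hρ0, hρ1, ho⟩ := h3 W hW q
  obtain ⟨hd1, -⟩ := h5 W hW q
  obtain ⟨x₀, hx₀, hx₀1, hx₀2⟩ := h6 W hW q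
  cases nonempty_fintype (GQ ⧸ W)
  have hinj : ∀ x y : XL W, nrmQ q x.val = nrmQ q y.val → o x = o y := by
    intro x y h
    rw [ho, ho] at h
    exact zpow_right_injective₀ hρ0 hρ1.ne h
  have hzero : ∀ x : XL W, o x = 0 ↔ nrmQ q x.val = 1 := by
    intro x
    rw [ho]
    constructor
    · intro h
      rw [h, zpow_zero]
    · intro h
      exact zpow_right_injective₀ hρ0 hρ1.ne (by simpa using h)
  have hD : ∀ d ∈ Dq W q, ∀ x : XL W, o (d • x) = o x := by
    intro d hd x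
    obtain ⟨g, rfl⟩ := QuotientGroup.mk_surjective d
    apply hinj
    rw [ValQ.val_smul]
    exact hd1 g hd x.val (ValQ.val_fixed x)
  have hx₀o : ∀ ε : GQ ⧸ W, o (ε⁻¹ • x₀) = if ε ∈ Dq W q then o x₀ else 0 := by
    intro ε
    split_ifs with h
    · exact hD _ (inv_mem h) x₀
    · obtain ⟨g, rfl⟩ := QuotientGroup.mk_surjective ε
      rw [hzero, ValQ.val_inv_smul]
      exact hx₀2 g h
  have hh₀ : o x₀ ≠ 0 := fun h => hx₀1 ((hzero x₀).1 h)
  refine ⟨o, ∑ ε : GQ ⧸ W, (if ε ∈ Dq W q then o x₀ else 0), ?_, hD, ?_, ?_⟩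
  · rw [← Finset.sum_filter, Finset.sum_const, nsmul_eq_mul]
    refine mul_ne_zero (Nat.cast_ne_zero.2 (Finset.card_ne_zero.2 ⟨1, ?_⟩)) hh₀
    rw [Finset.mem_filter]
    exact ⟨Finset.mem_univ _, one_mem _⟩
  · intro x
    rw [h4 q x.val (ValQ.val_ne_zero x)]
    constructor
    · intro h g
      have := h ((g⁻¹ : GQ) : GQ ⧸ W)
      rw [hzero, ValQ.val_inv_smul, inv_inv] at this
      exact this
    · intro h γ
      obtain ⟨g, rfl⟩ := QuotientGroup.mk_surjective γ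
      rw [hzero, ValQ.val_inv_smul]
      exact h g⁻¹
  · intro m hm
    have hstab : ∀ δ : GQ ⧸ W, δ • x₀ ∈ US {q} W := by
      intro δ q' hq'
      obtain ⟨g, rfl⟩ := QuotientGroup.mk_surjective δ
      rw [ValQ.val_smul, h4 q' _ ((map_ne_zero g).2 (ValQ.val_ne_zero x₀))]
      intro g'
      exact (h4 q' x₀.val (ValQ.val_ne_zero x₀)).1 (hx₀ q' hq') (g' * g)
    refine ⟨∑ δ : GQ ⧸ W, m δ • δ • x₀,
      AddSubgroup.sum_mem _ (fun δ _ => AddSubgroup.zsmul_mem _ (hstab δ) _), ?_⟩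
    intro γ
    have e1 : o (γ⁻¹ • ∑ δ : GQ ⧸ W, m δ • δ • x₀) =
        ∑ δ : GQ ⧸ W, m δ * o (γ⁻¹ • δ • x₀) := by
      have := map_sum (o.comp (DistribSMul.toAddMonoidHom (XL W) γ⁻¹))
        (fun δ : GQ ⧸ W => m δ • δ • x₀) Finset.univ
      refine this.trans (Finset.sum_congr rfl fun δ _ => ?_)
      rw [map_zsmul, smul_eq_mul]
      rfl
    rw [e1, ← Equiv.sum_comp ((Equiv.inv (GQ ⧸ W)).trans (Equiv.mulLeft γ)), Finset.sum_mul]
    refine Finset.sum_congr rfl fun ε _ => ?_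
    have e2 : ((Equiv.inv (GQ ⧸ W)).trans (Equiv.mulLeft γ)) ε = γ * ε⁻¹ := rfl
    rw [e2, smul_smul, inv_mul_cancel_left, hx₀o]
    split_ifs with h
    · rw [hm ε⁻¹ (inv_mem h) γ, mul_comm]
    · rw [mul_zero, zero_mul]

end Fermat.Agent.TW56.EC

end
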