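/-
TEAM TW56 -> S56, block [EC] (helper56): the unconditional chain of the packages of
`EC/Interface.lean`.
-/
import Fermat.Agent.TW56.EC.Arith2
import Fermat.Agent.TW56.EC.ChiAdd
import Fermat.Agent.TW56.EC.ClGen
import Fermat.Agent.TW56.EC.CycConj
import Fermat.Agent.TW56.EC.DecQ
import Fermat.Agent.TW56.EC.EIndexRel
import Fermat.Agent.TW56.EC.EcKey
import Fermat.Agent.TW56.EC.EcLe
import Fermat.Agent.TW56.EC.EqHomTw
import Fermat.Agent.TW56.EC.FixW
import Fermat.Agent.TW56.EC.H2Formula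
import Fermat.Agent.TW56.EC.KumS
import Fermat.Agent.TW56.EC.LatConst
import Fermat.Agent.TW56.EC.LatPerm
import Fermat.Agent.TW56.EC.LayerQ
import Fermat.Agent.TW56.EC.MinkAbs
import Fermat.Agent.TW56.EC.MinkQ
import Fermat.Agent.TW56.EC.MinkRank
import Fermat.Agent.TW56.EC.NegAdd
import Fermat.Agent.TW56.EC.NegPerm
import Fermat.Agent.TW56.EC.NegTw
import Fermat.Agent.TW56.EC.OneQ
import Fermat.Agent.TW56.EC.OrdQ
import Fermat.Agent.TW56.EC.RkTranspose
import Fermat.Agent.TW56.EC.Sha2Zero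
import Fermat.Agent.TW56.EC.ShaRetract
import Fermat.Agent.TW56.EC.SuBasic
import Fermat.Agent.TW56.EC.UMink
import Fermat.Agent.TW56.EC.UVal
import Fermat.Agent.TW56.EC.UnitAt
import Fermat.Agent.TW56.EC.UnitFormula
import Fermat.Agent.TW56.EC.ValQ
import Fermat.Agent.TW56.EC.EcW
import Fermat.Agent.TW56.EC.NegAd
import Fermat.Agent.TW56.EC.ECadAux
import Fermat.Agent.TW56.Ind.All

set_option autoImplicit false

namespace Fermat.Agent.TW56.EC

theorem all_uVal : Stmt_uVal := stmt_uVal stmt_latPerm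

theorem all_uMink : Stmt_uMink := stmt_uMink stmt_eIndexRel stmt_latPerm stmt_latConst

theorem all_oneQ : Stmt_oneQ := stmt_oneQ' stmt_decQ

theorem all_valQ : Stmt_valQ := stmt_valQ stmt_ordQ stmt_unitAt stmt_decQ all_oneQ

theorem all_minkAbs : Stmt_minkAbs := stmt_minkAbs stmt_minkRank

theorem all_minkQ : Stmt_minkQ := stmt_minkQ all_minkAbs all_layerQ

/-- **U12, the equivariant `S`-unit theorem mod `p`, unconditionally.** -/
theorem all_unitFormula : Stmt_unitFormula :=
  stmt_unitFormula all_uVal all_uMink stmt_unitAt all_valQ all_minkQ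

theorem all_kumS : Stmt_kumS := stmt_kumS stmt_muEmbQ stmt_suBasic

/-- **T1, unconditionally.** -/
theorem all_ecLe : Stmt_ecLe :=
  stmt_ecLe arith2_uncond stmt_muEmbQ all_kumS all_unitFormula stmt_h2Formula stmt_shaRetract
    stmt_eqHomTw stmt_rkTranspose stmt_rkTop stmt_negTw stmt_cycConj

/-- **T2, unconditionally.** -/
theorem all_ecKey : Stmt_ecKey :=
  stmt_ecKey all_ecLe stmt_chiAdd stmt_negAdd stmt_chiPerm stmt_negPerm stmt_cycConj

/-- **T3, unconditionally.** -/
theorem all_ecW : Stmt_ecW := stmt_ecW Ind.all_INDproj all_ecKey stmt_chiAdd stmt_negAdd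

/-- **EC : the global Euler characteristic formula (for `S` large enough), UNCONDITIONALLY.** -/
theorem all_EC : Stmt_EC := stmt_EC all_ecW stmt_clGen stmt_mono stmt_sha2Zero

theorem all_negAd : Stmt_negAd := stmt_negAd stmt_cycConj

/-- **EC for `ad⁰(1)` with auxiliary primes, UNCONDITIONALLY.** -/
theorem all_ECadAux : Stmt_ECadAux := stmt_ECadAux all_EC all_negAd

end Fermat.Agent.TW56.EC
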