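/-
TEAM TW56 -> S56, block [EC].  F3: `h²(P) + dim Hom_G(P,μ) = ∑_v dim Hom_{G_v}(P,μ)` when `Ш²(P) = 0`.
-/
import Fermat.Agent.TW56.EC.Interface
import Fermat.Agent.CFT.Pos.FdCpx
import Fermat.Agent.CFT.Pos.LDB
import Fermat.Agent.CFT.Pos.LocOK

set_option autoImplicit false

noncomputable section

namespace Fermat.Agent.TW56.EC

open Fermat.Agent.CFT Fermat.Agent.CFT.Top Fermat.Agent.CFT.Pos Fermat.Agent.CFT.Local
  Fermat.Agent.TW56.Loc Module CategoryTheory ExtCitation NumberField

attribute [local instance] Units.mulDistribMulActionRight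
attribute [local instance] quotAct
attribute [local instance] addAct
attribute [local instance] funAct

theorem stmt_h2Formula : Stmt_h2Formula := by
  intro p _ D lam hPT P hP hSha
  -- `Ш²(P) = 0`
  have hsha2 : finrank (ZMod p) (D.Sha P 2) = 0 := by
    have hbot : D.Sha P 2 = ⊥ := by
      rw [eq_bot_iff]
      intro y hy
      exact (Submodule.mem_bot _).2 (hSha y hy)
    rw [hbot, finrank_bot]
  have hfd : Module.Finite (ZMod p) (Hlc D.𝒰 P 2) := hPT.ctx.gfd P hP 2 le_rfl
  have hrn : finrank (ZMod p) (LinearMap.range (locH D P 2))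
      + finrank (ZMod p) (D.Sha P 2) = finrank (ZMod p) (Hlc D.𝒰 P 2) :=
    LinearMap.finrank_range_add_finrank_ker (locH D P 2)
  rw [hsha2, add_zero] at hrn
  have hy2 := hPT.y2 P hP
  rw [hrn] at hy2
  -- the local terms
  have hgood : ∀ v, Good (D.𝒰v v) (Rep.res (D.φ v) P) := fun v => LocOK_good_res D hP v
  have hfin : ∀ v, Module.Finite (ZMod p) ((D.locCpxAt P v).H 2) :=
    fun v => hPT.fdv v _ (hgood v) 2 le_rfl
  have hpi := (stmt_fdPi (ZMod p) D.ι (fun v => D.locCpxAt P v) 2 hfin).2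
  have hloc : ∀ v, finrank (ZMod p) ((D.locCpxAt P v).H 2)
      = finrank (ZMod p) (EqHom (Rep.res (D.φ v) P) (Rep.res (D.φ v) D.mu)) := by
    intro v
    have hb := hPT.perf v _ (hgood v)
    rw [(LinearEquiv.ofBijective _ hb).finrank_eq, Subspace.dual_finrank_eq]
  -- the global term
  have hglob : finrank (ZMod p) (Hlc D.𝒰 (dg D P) 0) = finrank (ZMod p) (EqHom P D.mu) := by
    have hb := stmt_bridgeB (ZMod p) D.G D.𝒰 (dg D P) P D.mu (evB D.χ P) (evB_equivar D.χ P)
      Function.bijective_id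
    exact (LinearEquiv.ofBijective _ hb).finrank_eq
  rw [← hglob, hy2]
  exact hpi.trans (Finset.sum_congr rfl fun v _ => hloc v)

end Fermat.Agent.TW56.EC

end
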