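/-
TEAM TW56 -> S56, block [EC], task EC-U9 (parts (c)+(d)) : Minkowski units, the formal conclusion.
-/
import Fermat.Agent.TW56.EC.Interface

set_option autoImplicit false

noncomputable section

namespace Fermat.Agent.TW56.EC

open Fermat.Agent.CFT Fermat.Agent.CFT.Top Fermat.Agent.CFT.Pos Fermat.Agent.CFT.Local
  Fermat.Agent.TW56.Loc Module CategoryTheory ExtCitation NumberField

attribute [local instance] Units.mulDistribMulActionRight
attribute [local instance] quotAct
attribute [local instance] addAct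
attribute [local instance] funAct

namespace MinkConcl

/-- the inclusion of the units of the ring of integers, additively. -/
def incl (K : Type) [Field K] [NumberField K] : Additive (𝓞 K)ˣ →+ Additive Kˣ :=
  MonoidHom.toAdditive (Units.map (algebraMap (𝓞 K) K : 𝓞 K →* K))

lemma incl_val (K : Type) [Field K] [NumberField K] (v : Additive (𝓞 K)ˣ) :
    ((Additive.toMul (incl K v) : Kˣ) : K) = ((Additive.toMul v : (𝓞 K)ˣ) : 𝓞 K) := rfl

lemma incl_inj (K : Type) [Field K] [NumberField K] : Function.Injective (incl K) := by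
  intro v w h
  have h1 : ((Additive.toMul (incl K v) : Kˣ) : K) = ((Additive.toMul (incl K w) : Kˣ) : K) := by
    rw [h]
  rw [incl_val, incl_val] at h1
  have h2 : ((Additive.toMul v : (𝓞 K)ˣ) : 𝓞 K) = ((Additive.toMul w : (𝓞 K)ˣ) : 𝓞 K) :=
    RingOfIntegers.ext h1
  exact Additive.toMul.injective (Units.ext h2)

lemma incl_range (K : Type) [Field K] [NumberField K] : (incl K).range = intU K := by
  ext v
  constructor
  · rintro ⟨w, rfl⟩
    refine ⟨?_, ?_⟩
    · rw [incl_val]
      exact RingOfIntegers.isIntegral_coe _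
    · have : (((Additive.toMul (incl K w))⁻¹ : Kˣ) : K)
          = (((Additive.toMul w)⁻¹ : (𝓞 K)ˣ) : 𝓞 K) := rfl
      rw [this]
      exact RingOfIntegers.isIntegral_coe _
  · rintro ⟨h1, h2⟩
    let a : 𝓞 K := ⟨((Additive.toMul v : Kˣ) : K), h1⟩
    let b : 𝓞 K := ⟨(((Additive.toMul v)⁻¹ : Kˣ) : K), h2⟩
    have hab : a * b = 1 := RingOfIntegers.ext (by
      exact Units.mul_inv (Additive.toMul v))
    have hba : b * a = 1 := RingOfIntegers.ext (by
      exact Units.inv_mul (Additive.toMul v))
    refine ⟨Additive.ofMul ⟨a, b, hab, hba⟩, ?_⟩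
    apply Additive.toMul.injective
    apply Units.ext
    rfl

lemma smul_mem_intU (K Γ : Type) [Field K] [Group Γ] [MulSemiringAction Γ K] (γ : Γ)
    {u : Additive Kˣ} (hu : u ∈ intU K) : γ • u ∈ intU K := by
  obtain ⟨h1, h2⟩ := hu
  exact ⟨map_isIntegral_int (MulSemiringAction.toRingHom Γ K γ) h1,
    map_isIntegral_int (MulSemiringAction.toRingHom Γ K γ) h2⟩

/-- **parts (c) + (d) of U9**: the formal conclusion from U8. -/
theorem main (h : Stmt_minkRank) (K Γ : Type) [Field K] [NumberField K] [Group Γ] [Finite Γ]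
    [MulSemiringAction Γ K] (c : Γ) (pl : Γ → InfinitePlace K) (hsurj : Function.Surjective pl)
    (hpl : ∀ γ δ, pl γ = pl δ ↔ γ⁻¹ * δ ∈ Subgroup.zpowers c) (u : Additive Kˣ) (hu : u ∈ intU K)
    (hlt : ∀ γ δ, pl δ ≠ pl γ → pl δ ((Additive.toMul (γ • u) : Kˣ) : K) < 1)
    (hN : ∑ᶠ γ : Γ, γ • u = 0) :
    (∀ m ∈ latV (Subgroup.zpowers c), (phiU u m = 0 ↔ m ∈ latC Γ)) ∧
      ((latV (Subgroup.zpowers c)).map (phiU u)).relIndex (intU K) ≠ 0 := by
  classical
  cases nonempty_fintype Γ
  -- sums over the fibres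
  have hfib : ∀ w : InfinitePlace K, ∃ v : Additive (𝓞 K)ˣ,
      incl K v = ∑ γ ∈ Finset.univ.filter (fun γ => pl γ = w), γ • u := by
    intro w
    have : (∑ γ ∈ Finset.univ.filter (fun γ => pl γ = w), γ • u) ∈ (incl K).range := by
      rw [incl_range]
      exact AddSubgroup.sum_mem _ (fun γ _ => smul_mem_intU K Γ γ hu)
    exact this
  choose V hV using hfib
  choose rep hrep using hsurj
  -- `m` is constant on the fibres
  have hconst : ∀ m ∈ latV (Subgroup.zpowers c), ∀ γ, m γ = m (rep (pl γ)) := by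
    intro m hm γ
    have h1 : γ⁻¹ * rep (pl γ) ∈ Subgroup.zpowers c := (hpl _ _).1 (hrep (pl γ)).symm
    have h2 := hm _ h1 γ
    rw [mul_inv_cancel_left] at h2
    exact h2.symm
  have hsm : ∀ (n : ℤ) (s : Finset Γ), n • ∑ γ ∈ s, γ • u = ∑ γ ∈ s, n • γ • u :=
    fun n s => map_sum (zsmulAddGroupHom n) _ _
  -- regrouping
  have hre : ∀ m ∈ latV (Subgroup.zpowers c), phiU u m = incl K (∑ w, m (rep w) • V w) := by
    intro m hm
    rw [phiU_apply, finsum_eq_sum_of_fintype, map_sum, ← Finset.sum_fiberwise Finset.univ pl]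
    refine Finset.sum_congr rfl fun w _ => ?_
    rw [map_zsmul, hV, hsm]
    refine Finset.sum_congr rfl fun γ hγ => ?_
    rw [hconst m hm γ, (Finset.mem_filter.1 hγ).2]
  -- the hypothesis of U8
  have hyp : ∀ w w' : InfinitePlace K, w' ≠ w →
      w' (((Additive.toMul (V w) : (𝓞 K)ˣ) : 𝓞 K) : K) < 1 := by
    intro w w' hw
    rw [← incl_val, hV, toMul_sum, Units.coe_prod, map_prod]
    have h1 : ∏ γ ∈ Finset.univ.filter (fun γ => pl γ = w),
        w' ((Additive.toMul (γ • u) : Kˣ) : K)
        < ∏ γ ∈ Finset.univ.filter (fun γ => pl γ = w), (1 : ℝ) := by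
      refine Finset.prod_lt_prod_of_nonempty (fun γ _ => ?_) (fun γ hγ => ?_)
        ⟨rep w, Finset.mem_filter.2 ⟨Finset.mem_univ _, hrep w⟩⟩
      · exact InfinitePlace.pos_iff.2 (Units.ne_zero _)
      · have h2 := hlt γ (rep w')
        rw [hrep w', (Finset.mem_filter.1 hγ).2] at h2
        exact h2 hw
    rwa [Finset.prod_const_one] at h1
  obtain ⟨hU1, hU2⟩ := h K (fun w => Additive.toMul (V w)) hyp
  -- constants are killed
  have hcst : ∀ n : ℤ, phiU u (fun _ : Γ => n) = 0 := by
    intro n
    rw [phiU_apply, finsum_eq_sum_of_fintype, ← hsm, ← finsum_eq_sum_of_fintype, hN,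
      smul_zero]
  refine ⟨fun m hm => ⟨fun h0 => ?_, fun hc => ?_⟩, ?_⟩
  · set n := m (rep (pl 1)) with hn
    let m' : Γ → ℤ := fun x => m x - n
    have hm' : m' ∈ latV (Subgroup.zpowers c) := fun d hd x => by
      show m (x * d) - n = m x - n
      rw [hm d hd x]
    have h0' : phiU u m' = 0 := by
      have : m' = m - fun _ => n := rfl
      rw [this, map_sub, h0, hcst, sub_zero]
    rw [hre m' hm'] at h0'
    have h1 : ∑ w, m' (rep w) • V w = 0 := incl_inj K (by rw [h0', map_zero])
    have h2 := hU1 (pl 1) (fun w => m' (rep w)) (sub_self _) (by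
      rw [finprod_eq_prod_of_fintype]
      have := congrArg Additive.toMul h1
      rw [toMul_sum] at this
      exact this)
    refine ⟨n, fun x => ?_⟩
    have h3 : m (rep (pl x)) - n = 0 := congrFun h2 (pl x)
    rw [hconst m hm x]
    exact sub_eq_zero.1 h3
  · obtain ⟨n, hn⟩ := hc
    have : m = fun _ => n := funext hn
    rw [this, hcst]
  · rw [← incl_range, AddMonoidHom.range_eq_map, ← AddSubgroup.relIndex_comap,
      AddSubgroup.relIndex_top_right]
    have hle : Subgroup.toAddSubgroup
        (Subgroup.closure (Set.range fun w => Additive.toMul (V w)))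
        ≤ ((latV (Subgroup.zpowers c)).map (phiU u)).comap (incl K) := by
      rw [Subgroup.toAddSubgroup_closure, AddSubgroup.closure_le]
      rintro x ⟨w, hw⟩
      have hx : x = V w := (Additive.toMul.injective hw).symm
      subst hx
      let m : Γ → ℤ := fun γ => if pl γ = w then 1 else 0
      have hm : m ∈ latV (Subgroup.zpowers c) := fun d hd x => by
        have : pl (x * d) = pl x := ((hpl x (x * d)).2 (by rwa [inv_mul_cancel_left])).symm
        show (if pl (x * d) = w then (1 : ℤ) else 0) = if pl x = w then 1 else 0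
        rw [this]
      refine ⟨m, hm, ?_⟩
      rw [hre m hm]
      congr 1
      rw [Finset.sum_eq_single w]
      · show (if pl (rep w) = w then (1 : ℤ) else 0) • V w = V w
        rw [if_pos (hrep w), one_smul]
      · intro w' _ hw'
        show (if pl (rep w') = w then (1 : ℤ) else 0) • V w' = 0
        rw [hrep w', if_neg hw', zero_smul]
      · intro hw
        exact absurd (Finset.mem_univ _) hw
    have hdvd := AddSubgroup.index_dvd_of_le hle
    rw [Subgroup.index_toAddSubgroup] at hdvd
    exact ne_zero_of_dvd_ne_zero hU2 hdvd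

end MinkConcl

end Fermat.Agent.TW56.EC

end
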