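/-
TEAM TW56 -> S56, block [EC], task EC-U9 (part (b)) : a unit small at all places but one, of norm one.
-/
import Fermat.Agent.TW56.EC.MinkConcl

set_option autoImplicit false

noncomputable section

namespace Fermat.Agent.TW56.EC

open Fermat.Agent.CFT Fermat.Agent.CFT.Top Fermat.Agent.CFT.Pos Fermat.Agent.CFT.Local
  Fermat.Agent.TW56.Loc Module CategoryTheory ExtCitation NumberField

attribute [local instance] Units.mulDistribMulActionRight
attribute [local instance] quotAct
attribute [local instance] addAct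
attribute [local instance] funAct

namespace MinkNorm

/-- a rational integral unit is `±1`: its square is `1`. -/
lemma sq_eq_one (K : Type) [Field K] [NumberField K] (N : Additive Kˣ) (hN : N ∈ intU K) (r : ℚ)
    (hr : algebraMap ℚ K r = ((Additive.toMul N : Kˣ) : K)) : (2 : ℕ) • N = 0 := by
  obtain ⟨h1, h2⟩ := hN
  have hinj : Function.Injective (algebraMap ℚ K) := (algebraMap ℚ K).injective
  have hr' : algebraMap ℚ K r⁻¹ = (((Additive.toMul N)⁻¹ : Kˣ) : K) := by
    rw [map_inv₀, hr, Units.val_inv_eq_inv_val]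
  rw [← hr] at h1
  rw [← hr'] at h2
  have i1 : IsIntegral ℤ r := (isIntegral_algebraMap_iff hinj).1 h1
  have i2 : IsIntegral ℤ r⁻¹ := (isIntegral_algebraMap_iff hinj).1 h2
  obtain ⟨n, hn⟩ := IsIntegrallyClosed.isIntegral_iff.1 i1
  obtain ⟨n', hn'⟩ := IsIntegrallyClosed.isIntegral_iff.1 i2
  have hr0 : r ≠ 0 := by
    intro h0
    rw [h0, map_zero] at hr
    exact Units.ne_zero _ hr.symm
  have hnn : n * n' = 1 := by
    have : ((n * n' : ℤ) : ℚ) = 1 := by
      push_cast
      have e1 : (n : ℚ) = r := hn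
      have e2 : (n' : ℚ) = r⁻¹ := hn'
      rw [e1, e2, mul_inv_cancel₀ hr0]
    exact_mod_cast this
  have hsq : r ^ 2 = 1 := by
    have e1 : (n : ℚ) = r := hn
    rcases Int.eq_one_or_neg_one_of_mul_eq_one hnn with h | h
    · rw [← e1, h]; norm_num
    · rw [← e1, h]; norm_num
  apply Additive.toMul.injective
  apply Units.ext
  show (((Additive.toMul N) ^ 2 : Kˣ) : K) = 1
  rw [Units.val_pow_eq_pow_val, ← hr, ← map_pow, hsq, map_one]

/-- **part (b) of U9.** -/
theorem main (K Γ : Type) [Field K] [NumberField K] [Group Γ] [Finite Γ] [MulSemiringAction Γ K]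
    (hfix : ∀ x : K, (∀ γ : Γ, γ • x = x) → ∃ r : ℚ, algebraMap ℚ K r = x)
    (w₀ : InfinitePlace K) :
    ∃ u ∈ intU K, (∀ w : InfinitePlace K, w ≠ w₀ → w ((Additive.toMul u : Kˣ) : K) < 1) ∧
      ∑ᶠ γ : Γ, γ • u = 0 := by
  classical
  cases nonempty_fintype Γ
  obtain ⟨u₀, hu₀⟩ := NumberField.Units.dirichletUnitTheorem.exists_unit K w₀
  set v : Additive Kˣ := MinkConcl.incl K (Additive.ofMul u₀) with hv
  have hvI : v ∈ intU K := by
    rw [← MinkConcl.incl_range]
    exact ⟨_, rfl⟩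
  have hvlt : ∀ w : InfinitePlace K, w ≠ w₀ → w ((Additive.toMul v : Kˣ) : K) < 1 := by
    intro w hw
    have h1 := hu₀ w hw
    by_contra h2
    exact absurd (Real.log_nonneg (not_lt.1 h2)) (not_le.2 h1)
  refine ⟨(2 : ℕ) • v, AddSubgroup.nsmul_mem _ hvI 2, fun w hw => ?_, ?_⟩
  · show w ((((Additive.toMul v) ^ 2 : Kˣ)) : K) < 1
    rw [Units.val_pow_eq_pow_val, map_pow]
    exact pow_lt_one₀ (apply_nonneg w _) (hvlt w hw) two_ne_zero
  · set N : Additive Kˣ := ∑ γ : Γ, γ • v with hN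
    have hNI : N ∈ intU K := AddSubgroup.sum_mem _ fun γ _ => MinkConcl.smul_mem_intU K Γ γ hvI
    have hNfix : ∀ δ : Γ, δ • N = N := by
      intro δ
      rw [hN, Finset.smul_sum]
      simp only [smul_smul]
      exact Fintype.sum_equiv (Equiv.mulLeft δ) _ _ fun γ => rfl
    obtain ⟨r, hr⟩ := hfix ((Additive.toMul N : Kˣ) : K) (fun γ => by
      have := congrArg (fun z : Additive Kˣ => ((Additive.toMul z : Kˣ) : K)) (hNfix γ)
      exact this)
    have h2 := sq_eq_one K N hNI r hr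
    rw [finsum_eq_sum_of_fintype]
    have : ∀ γ : Γ, γ • ((2 : ℕ) • v) = (2 : ℕ) • (γ • v) := fun γ =>
      map_nsmul (DistribMulAction.toAddMonoidHom (Additive Kˣ) γ) 2 v
    simp only [this]
    rw [← h2, hN]
    exact (map_sum (nsmulAddMonoidHom (α := Additive Kˣ) 2) _ _).symm

end MinkNorm

end Fermat.Agent.TW56.EC

end
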