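/-
TEAM TW56 -> S56, block [EC], F7 (helper35): `Ш²(perm W) = 0` when `Cl_S(k)/p = 0`.
-/
import Fermat.Agent.TW56.EC.Interface
import Fermat.Agent.CFT.HPG.All
import Fermat.Agent.CFT.Wire.Rest

set_option autoImplicit false

noncomputable section

namespace Fermat.Agent.TW56.EC

open Fermat.Agent.CFT Fermat.Agent.CFT.Top Fermat.Agent.CFT.Pos Fermat.Agent.CFT.Local
  Fermat.Agent.TW56.Loc Module CategoryTheory ExtCitation NumberField

attribute [local instance] Units.mulDistribMulActionRight
attribute [local instance] quotAct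
attribute [local instance] addAct
attribute [local instance] funAct

/-- F7. `Ш²(perm W) = 0` when `Cl_S(k)/p = 0`. -/
theorem stmt_sha2Zero : Stmt_sha2Zero := by
  intro p _ _ S h k _ ζ hB hO hcl x hx
  obtain ⟨-, hfin, hle, -⟩ := GN.final_gnCard HPG.all_hpall p S k ζ hB
  rw [hcl, Subgroup.index_top] at hle
  have hmem : (Num.shap (ZMod p) (levS S) k.fixingSubgroup).mapH 2 x ∈ GN.Sha2K p S k :=
    Num.sha2K (Num.shaLocal Num.conjTriv) Num.stabOpen GN.dictD p S h k hO x hx
  have hsub : Subsingleton (GN.Sha2K p S k) :=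
    (Finite.card_le_one_iff_subsingleton).1 hle
  have h0 : (Num.shap (ZMod p) (levS S) k.fixingSubgroup).mapH 2 x = 0 := by
    have := hsub.elim ⟨_, hmem⟩ 0
    exact congrArg Subtype.val this
  have hinj := (Num.shapiro_uncond (ZMod p) GQ (levS S) k.fixingSubgroup hO 2).1
  exact hinj (h0.trans (map_zero _).symm)

end Fermat.Agent.TW56.EC

end
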